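import Mathlib

/-!
# S13, package L2 (helper7): Vieta / collinearity on the nodal model with `a₁`

A Weierstrass curve is *nodal at the origin* (in the sense of this file) when `a₃ = a₆ = 0`,
i.e. it is `y² + a₁ x y = x³ + a₂ x² + a₄ x`.  This covers the Frey model (`a₁ = 1`) and the
short model (`a₁ = 0`).  All statements are about Mathlib's `WeierstrassCurve.Affine.Point`.

Main results (namespace `Fermat.Agent.S13.L2.H7Vieta`):
* `IsNodal`, `IsNodal.equation_iff`, `IsNodal.negY`, `IsNodal.neg_some`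
* `line_of_add_some` : the sum of two affine points that are not opposite, with the line through
  them and the three Vieta relations
* `line_of_add_eq_zero` : three affine points summing to zero are collinear, with Vieta
* `line_of_sub_some` : the same for the difference
-/

set_option autoImplicit false

open WeierstrassCurve WeierstrassCurve.Affine

namespace Fermat.Agent.S13.L2.H7Vieta

variable {F : Type*} [Field F]

/-- The curve is `y² + a₁ x y = x³ + a₂ x² + a₄ x`. -/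
structure IsNodal (W : Affine F) : Prop where
  a₃ : W.a₃ = 0
  a₆ : W.a₆ = 0

namespace IsNodal

variable {W : Affine F} (hW : IsNodal W)
include hW

lemma equation_iff (x y : F) :
    W.Equation x y ↔ y ^ 2 + W.a₁ * x * y = x ^ 3 + W.a₂ * x ^ 2 + W.a₄ * x := by
  rw [Affine.equation_iff, hW.a₃, hW.a₆]
  constructor <;> intro h <;> linear_combination h

lemma negY (x y : F) : W.negY x y = -y - W.a₁ * x := by
  simp [Affine.negY, hW.a₃]

lemma nonsingular_neg {x y : F} (h : W.Nonsingular x y) :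
    W.Nonsingular x (-y - W.a₁ * x) := by
  have := (Affine.nonsingular_neg x y).mpr h
  rwa [hW.negY] at this

lemma neg_some [DecidableEq F] {x y : F} (h : W.Nonsingular x y) :
    -(Point.some x y h) = Point.some x (-y - W.a₁ * x) (hW.nonsingular_neg h) := by
  rw [Point.neg_some]
  congr 1
  exact hW.negY x y

omit hW in
lemma addX (x₁ x₂ ℓ : F) : W.addX x₁ x₂ ℓ = ℓ ^ 2 + W.a₁ * ℓ - W.a₂ - x₁ - x₂ := by
  simp [Affine.addX]

lemma addY (x₁ x₂ y₁ ℓ : F) :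
    W.addY x₁ x₂ y₁ ℓ
      = -(ℓ * (W.addX x₁ x₂ ℓ - x₁) + y₁) - W.a₁ * W.addX x₁ x₂ ℓ := by
  rw [Affine.addY, hW.negY, Affine.negAddY]

end IsNodal

section Line

variable [DecidableEq F] {W : Affine F}

/-- **Sum of two affine points** on a nodal model: if `P₁ ≠ -P₂`, there is a line `y = L x + N`
through `P₁` and `P₂` (tangent if `P₁ = P₂`), the sum is the opposite `(x₃, -(L x₃ + N) - a₁ x₃)`
of the third point of intersection, and the Vieta relations hold. -/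
theorem line_of_add_some (hW : IsNodal W) {x₁ y₁ x₂ y₂ : F} (h₁ : W.Nonsingular x₁ y₁)
    (h₂ : W.Nonsingular x₂ y₂) (hxy : ¬(x₁ = x₂ ∧ y₁ = -y₂ - W.a₁ * x₂)) :
    ∃ (L N x₃ : F) (h₃ : W.Nonsingular x₃ (-(L * x₃ + N) - W.a₁ * x₃)),
      Point.some x₁ y₁ h₁ + Point.some x₂ y₂ h₂
        = Point.some x₃ (-(L * x₃ + N) - W.a₁ * x₃) h₃ ∧
      L = W.slope x₁ x₂ y₁ y₂ ∧
      y₁ = L * x₁ + N ∧ y₂ = L * x₂ + N ∧
      x₁ + x₂ + x₃ = L ^ 2 + W.a₁ * L - W.a₂ ∧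
      x₁ * x₂ + x₁ * x₃ + x₂ * x₃ = W.a₄ - (2 * L + W.a₁) * N ∧
      x₁ * x₂ * x₃ = N ^ 2 := by
  have hxy' : ¬(x₁ = x₂ ∧ y₁ = W.negY x₂ y₂) := by rwa [hW.negY]
  set L := W.slope x₁ x₂ y₁ y₂ with hL
  set x₃ := W.addX x₁ x₂ L with hx₃
  have hx₃' : x₃ = L ^ 2 + W.a₁ * L - W.a₂ - x₁ - x₂ := IsNodal.addX x₁ x₂ L
  have hsum := Point.add_some hxy' (h₁ := h₁) (h₂ := h₂)
  have hY : W.addY x₁ x₂ y₁ L = -(L * x₃ + (y₁ - L * x₁)) - W.a₁ * x₃ := by
    rw [hW.addY]; ring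
  have hns : W.Nonsingular x₃ (-(L * x₃ + (y₁ - L * x₁)) - W.a₁ * x₃) := by
    rw [← hY]; exact Affine.nonsingular_add h₁ h₂ hxy'
  have hy₂ : y₂ = L * x₂ + (y₁ - L * x₁) := by
    by_cases hx : x₁ = x₂
    · have hy : y₁ ≠ W.negY x₂ y₂ := fun h => hxy' ⟨hx, h⟩
      have := Affine.Y_eq_of_Y_ne h₁.1 h₂.1 hx hy
      rw [← this, hx]; ring
    · have hx' : x₁ - x₂ ≠ 0 := sub_ne_zero.mpr hx
      rw [hL, Affine.slope_of_X_ne hx]
      field_simp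
      ring
  -- Vieta from the factorisation of the addition polynomial
  have hpoly := Affine.addPolynomial_slope h₁.1 h₂.1 hxy'
  rw [Affine.addPolynomial_eq, neg_inj, Cubic.prod_X_sub_C_eq, Cubic.toPoly_injective] at hpoly
  have hc := congrArg Cubic.c hpoly
  have hd := congrArg Cubic.d hpoly
  simp only [hW.a₃, hW.a₆] at hc hd
  refine ⟨L, y₁ - L * x₁, x₃, hns, ?_, rfl, by ring, hy₂, by rw [hx₃']; ring, ?_, ?_⟩
  · rw [hsum]
    congr 1
  · rw [← hx₃, ← hL] at hc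
    linear_combination -hc
  · rw [← hx₃, ← hL] at hd
    linear_combination hd

/-- **Collinearity**: three affine points on a nodal model with `P₁ + P₂ + P₃ = 0` lie on a
line `y = L x + N`, and the Vieta relations hold. -/
theorem line_of_add_eq_zero (hW : IsNodal W) {x₁ y₁ x₂ y₂ x₃ y₃ : F}
    {h₁ : W.Nonsingular x₁ y₁} {h₂ : W.Nonsingular x₂ y₂} {h₃ : W.Nonsingular x₃ y₃}
    (h : Point.some x₁ y₁ h₁ + Point.some x₂ y₂ h₂ + Point.some x₃ y₃ h₃ = 0) :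
    ∃ L N : F, y₁ = L * x₁ + N ∧ y₂ = L * x₂ + N ∧ y₃ = L * x₃ + N ∧
      x₁ + x₂ + x₃ = L ^ 2 + W.a₁ * L - W.a₂ ∧
      x₁ * x₂ + x₁ * x₃ + x₂ * x₃ = W.a₄ - (2 * L + W.a₁) * N ∧
      x₁ * x₂ * x₃ = N ^ 2 := by
  have h12 : Point.some x₁ y₁ h₁ + Point.some x₂ y₂ h₂ = -Point.some x₃ y₃ h₃ :=
    eq_neg_of_add_eq_zero_left h
  have hxy : ¬(x₁ = x₂ ∧ y₁ = -y₂ - W.a₁ * x₂) := by
    rintro ⟨hx, hy⟩
    rw [Point.add_of_Y_eq hx (by rw [hW.negY]; exact hy)] at h12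
    exact Point.some_ne_zero _ (neg_eq_zero.mp h12.symm)
  obtain ⟨L, N, x, hns, hsum, -, e₁, e₂, v₁, v₂, v₃⟩ := line_of_add_some hW h₁ h₂ hxy
  rw [hsum, hW.neg_some, Point.some.injEq] at h12
  obtain ⟨rfl, hy⟩ := h12
  exact ⟨L, N, e₁, e₂, by linear_combination hy, v₁, v₂, v₃⟩

/-- **Difference of two affine points** on a nodal model. -/
theorem line_of_sub_some (hW : IsNodal W) {x₁ y₁ x₂ y₂ : F} (h₁ : W.Nonsingular x₁ y₁)
    (h₂ : W.Nonsingular x₂ y₂) (hxy : ¬(x₁ = x₂ ∧ y₁ = y₂)) :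
    ∃ (L N x₃ : F) (h₃ : W.Nonsingular x₃ (-(L * x₃ + N) - W.a₁ * x₃)),
      Point.some x₁ y₁ h₁ - Point.some x₂ y₂ h₂
        = Point.some x₃ (-(L * x₃ + N) - W.a₁ * x₃) h₃ ∧
      L = W.slope x₁ x₂ y₁ (-y₂ - W.a₁ * x₂) ∧
      y₁ = L * x₁ + N ∧ -y₂ - W.a₁ * x₂ = L * x₂ + N ∧
      x₁ + x₂ + x₃ = L ^ 2 + W.a₁ * L - W.a₂ ∧
      x₁ * x₂ + x₁ * x₃ + x₂ * x₃ = W.a₄ - (2 * L + W.a₁) * N ∧
      x₁ * x₂ * x₃ = N ^ 2 := by
  have hxy' : ¬(x₁ = x₂ ∧ y₁ = -(-y₂ - W.a₁ * x₂) - W.a₁ * x₂) := by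
    rintro ⟨hx, hy⟩
    exact hxy ⟨hx, by rw [hy]; ring⟩
  obtain ⟨L, N, x₃, h₃, hsum, hL, r⟩ :=
    line_of_add_some hW h₁ (hW.nonsingular_neg h₂) hxy'
  refine ⟨L, N, x₃, h₃, ?_, hL, r⟩
  rw [sub_eq_add_neg, hW.neg_some, hsum]

end Line

end Fermat.Agent.S13.L2.H7Vieta
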