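import Mathlib
import Fermat.Agent.S13.L2.H7_VietaA1

/-!
# S13, package L2, leaf 2-K (helper7): the kernel of reduction on the nodal model with `a₁`

For a Weierstrass curve `y² + a₁ x y = x³ + a₂ x² + a₄ x` with `a₁, a₂, a₄` integral for a
valuation `v` (ANY residue characteristic, no hypothesis on `v 2`), the points with `1 < v x`
together with `0` form a subgroup, on which `z = x / y` is additive up to second order terms.
Consequently `n • P ≠ 0` for such `P ≠ 0` and `n` a unit for `v`.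
-/

set_option autoImplicit false

open WeierstrassCurve WeierstrassCurve.Affine

namespace Fermat.Agent.S13.L2.H7Ker

open Fermat.Agent.S13.L2.H7Vieta

section algebra

variable {F : Type*} [Field F]

/-- The sum of the `z`-coordinates of three collinear points, in polynomial form. -/
lemma sum_z_identity {a α β L N x₁ x₂ x₃ : F} (v₁ : x₁ + x₂ + x₃ = L ^ 2 + a * L - α)
    (v₂ : x₁ * x₂ + x₁ * x₃ + x₂ * x₃ = β - (2 * L + a) * N) (v₃ : x₁ * x₂ * x₃ = N ^ 2) :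
    (x₁ * (L * x₂ + N) * (L * x₃ + N) + x₂ * (L * x₁ + N) * (L * x₃ + N)
        + x₃ * (L * x₁ + N) * (L * x₂ + N)) * (N ^ 2 - α * L * N + β * L ^ 2)
      = (2 * β * L - α * N - a * L * N)
        * ((L * x₁ + N) * (L * x₂ + N) * (L * x₃ + N)) := by
  linear_combination
    (N ^ 2 * (N ^ 2 - α * L * N + β * L ^ 2) - L * N ^ 2 * (2 * β * L - α * N - a * L * N)) * v₁
    + (2 * L * N * (N ^ 2 - α * L * N + β * L ^ 2)
        - L ^ 2 * N * (2 * β * L - α * N - a * L * N)) * v₂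
    + (3 * L ^ 2 * (N ^ 2 - α * L * N + β * L ^ 2)
        - L ^ 3 * (2 * β * L - α * N - a * L * N)) * v₃

/-- The third point of a line in terms of `z`-coordinates. -/
lemma third_point_z {a α β L N x₁ x₂ x₃ y₁ y₂ : F} (v₁ : x₁ + x₂ + x₃ = L ^ 2 + a * L - α)
    (v₂ : x₁ * x₂ + x₁ * x₃ + x₂ * x₃ = β - (2 * L + a) * N) (v₃ : x₁ * x₂ * x₃ = N ^ 2)
    (e₁ : y₁ = L * x₁ + N) (e₂ : y₂ = L * x₂ + N) (hy₁ : y₁ ≠ 0) (hy₂ : y₂ ≠ 0)
    (hQ : N ^ 2 - α * L * N + β * L ^ 2 ≠ 0) :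
    x₃ = -(L * x₃ + N) *
      (x₁ / y₁ + x₂ / y₂
        + (α * N - 2 * β * L + a * L * N) / (N ^ 2 - α * L * N + β * L ^ 2)) := by
  have h := sum_z_identity v₁ v₂ v₃
  rw [← e₁, ← e₂] at h
  have key : x₃ * (y₁ * y₂ * (N ^ 2 - α * L * N + β * L ^ 2)) = -(L * x₃ + N) *
      (x₁ * (y₂ * (N ^ 2 - α * L * N + β * L ^ 2)) + x₂ * (y₁ * (N ^ 2 - α * L * N + β * L ^ 2))
        + (α * N - 2 * β * L + a * L * N) * (y₁ * y₂)) := by
    linear_combination h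
  have e : x₁ / y₁ + x₂ / y₂
        + (α * N - 2 * β * L + a * L * N) / (N ^ 2 - α * L * N + β * L ^ 2)
      = (x₁ * (y₂ * (N ^ 2 - α * L * N + β * L ^ 2))
          + x₂ * (y₁ * (N ^ 2 - α * L * N + β * L ^ 2))
          + (α * N - 2 * β * L + a * L * N) * (y₁ * y₂))
        / (y₁ * y₂ * (N ^ 2 - α * L * N + β * L ^ 2)) := by
    rw [div_add_div _ _ hy₁ hy₂, div_add_div _ _ (mul_ne_zero hy₁ hy₂) hQ]
    congr 1
    ring
  rw [e, ← mul_div_assoc, eq_div_iff (mul_ne_zero (mul_ne_zero hy₁ hy₂) hQ)]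
  exact key

/-- The equation of the curve in the chart `z = x / y`, `w = 1 / y`. -/
lemma zw_equation {a α β x y : F} (h : y ^ 2 + a * x * y = x ^ 3 + α * x ^ 2 + β * x)
    (hy : y ≠ 0) :
    1 / y + a * (x / y) * (1 / y)
      = (x / y) ^ 3 + α * (x / y) ^ 2 * (1 / y) + β * (x / y) * (1 / y) ^ 2 := by
  field_simp
  linear_combination h

/-- The chord identity in the `(z, w)`-chart. -/
lemma chord_identity {a α β z₁ z₂ w₁ w₂ : F}
    (h₁ : w₁ + a * z₁ * w₁ = z₁ ^ 3 + α * z₁ ^ 2 * w₁ + β * z₁ * w₁ ^ 2)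
    (h₂ : w₂ + a * z₂ * w₂ = z₂ ^ 3 + α * z₂ ^ 2 * w₂ + β * z₂ * w₂ ^ 2) :
    (w₁ - w₂) * (1 + a * z₂ - α * z₂ ^ 2 - β * z₂ * (w₁ + w₂))
      = (z₁ - z₂)
        * (z₁ ^ 2 + z₁ * z₂ + z₂ ^ 2 + α * (z₁ + z₂) * w₁ + β * w₁ ^ 2 - a * w₁) := by
  linear_combination h₁ - h₂

/-- The tangent analogue of `chord_identity`, for the slope and intercept in `(x, y)`. -/
lemma tangent_rel {a α β x y L N : F} (h : y ^ 2 + a * x * y = x ^ 3 + α * x ^ 2 + β * x)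
    (hy : y ≠ 0) (hd : 2 * y + a * x ≠ 0)
    (hL : L = (3 * x ^ 2 + 2 * α * x + β - a * y) / (2 * y + a * x)) (hN : y = L * x + N) :
    L * (1 + a * (x / y) - α * (x / y) ^ 2 - β * (x / y) * (1 / y + 1 / y))
      = -N * ((x / y) ^ 2 + (x / y) * (x / y) + (x / y) ^ 2 + α * (x / y + x / y) * (1 / y)
          + β * (1 / y) ^ 2 - a * (1 / y)) := by
  have hN' : N = y - L * x := by linear_combination -hN
  have hL' : L * (2 * y + a * x) = 3 * x ^ 2 + 2 * α * x + β - a * y := by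
    rw [hL, div_mul_cancel₀ _ hd]
  have key : L * (y ^ 2 + a * x * y - α * x ^ 2 - 2 * β * x)
      = -N * (3 * x ^ 2 + 2 * α * x + β - a * y) := by
    rw [hN']
    linear_combination (-y) * hL' + 3 * L * h
  have e₁ : 1 + a * (x / y) - α * (x / y) ^ 2 - β * (x / y) * (1 / y + 1 / y)
      = (y ^ 2 + a * x * y - α * x ^ 2 - 2 * β * x) / y ^ 2 := by
    field_simp
    ring
  have e₂ : (x / y) ^ 2 + (x / y) * (x / y) + (x / y) ^ 2 + α * (x / y + x / y) * (1 / y)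
          + β * (1 / y) ^ 2 - a * (1 / y)
      = (3 * x ^ 2 + 2 * α * x + β - a * y) / y ^ 2 := by
    field_simp
    ring
  rw [e₁, e₂, ← mul_div_assoc, ← mul_div_assoc, key]

end algebra

section valuation

variable {F : Type*} [Field F] {Γ₀ : Type*} [LinearOrderedCommGroupWithZero Γ₀]
  (v : Valuation F Γ₀)

/-- Data of a point of the kernel of reduction: on the curve, with `1 < v x`. -/
structure KerPt (a α β x y : F) : Prop where
  eq : y ^ 2 + a * x * y = x ^ 3 + α * x ^ 2 + β * x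
  hx : 1 < v x

variable {v} {a α β x y : F}

namespace KerPt

lemma x_ne_zero (h : KerPt v a α β x y) : x ≠ 0 := by
  rintro rfl
  have := h.hx
  simp at this

/-- `v x < v y` on the kernel of reduction. -/
lemma v_x_lt_v_y (ha : v a ≤ 1) (hα : v α ≤ 1) (hβ : v β ≤ 1) (h : KerPt v a α β x y) :
    v x < v y := by
  have hx := h.hx
  have hx0 : (0 : Γ₀) < v x := lt_trans zero_lt_one hx
  by_contra hcon
  push Not at hcon
  -- the right hand side has valuation `v x ^ 3`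
  have h1 : v (α * x ^ 2 + β * x) < v (x ^ 3) := by
    apply Valuation.map_add_lt
    · rw [map_mul, map_pow, map_pow]
      calc v α * v x ^ 2 ≤ 1 * v x ^ 2 := by gcongr
        _ = v x ^ 2 := one_mul _
        _ < v x ^ 3 := pow_lt_pow_right₀ hx (by norm_num)
    · rw [map_mul, map_pow]
      calc v β * v x ≤ 1 * v x := by gcongr
        _ = v x ^ 1 := by rw [one_mul, pow_one]
        _ < v x ^ 3 := pow_lt_pow_right₀ hx (by norm_num)
  have h2 : v (x ^ 3 + (α * x ^ 2 + β * x)) = v (x ^ 3) := Valuation.map_add_eq_of_lt_left v h1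
  have h3 : v (y ^ 2 + a * x * y) ≤ v x ^ 2 := by
    apply Valuation.map_add_le
    · rw [map_pow]; exact pow_le_pow_left₀ zero_le hcon 2
    · rw [map_mul, map_mul]
      calc v a * v x * v y ≤ 1 * v x * v x := by gcongr
        _ = v x ^ 2 := by rw [one_mul, pow_two]
  have h4 : x ^ 3 + (α * x ^ 2 + β * x) = y ^ 2 + a * x * y := by rw [h.eq]; ring
  rw [h4, map_pow] at h2
  rw [h2] at h3
  exact absurd h3 (not_le.2 (pow_lt_pow_right₀ hx (by norm_num)))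

lemma one_lt_v_y (ha : v a ≤ 1) (hα : v α ≤ 1) (hβ : v β ≤ 1) (h : KerPt v a α β x y) :
    1 < v y := h.hx.trans (h.v_x_lt_v_y ha hα hβ)

lemma y_ne_zero (ha : v a ≤ 1) (hα : v α ≤ 1) (hβ : v β ≤ 1) (h : KerPt v a α β x y) :
    y ≠ 0 := by
  rintro rfl
  have := h.one_lt_v_y ha hα hβ
  simp at this

lemma v_sq (ha : v a ≤ 1) (hα : v α ≤ 1) (hβ : v β ≤ 1) (h : KerPt v a α β x y) :
    v y ^ 2 = v x ^ 3 := by
  have hx := h.hx
  have hxy := h.v_x_lt_v_y ha hα hβ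
  have hy0 : (0 : Γ₀) < v y := lt_trans zero_lt_one (h.one_lt_v_y ha hα hβ)
  have h1 : v (α * x ^ 2 + β * x) < v (x ^ 3) := by
    apply Valuation.map_add_lt
    · rw [map_mul, map_pow, map_pow]
      calc v α * v x ^ 2 ≤ 1 * v x ^ 2 := by gcongr
        _ = v x ^ 2 := one_mul _
        _ < v x ^ 3 := pow_lt_pow_right₀ hx (by norm_num)
    · rw [map_mul, map_pow]
      calc v β * v x ≤ 1 * v x := by gcongr
        _ = v x ^ 1 := by rw [one_mul, pow_one]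
        _ < v x ^ 3 := pow_lt_pow_right₀ hx (by norm_num)
  have h2 : v (x ^ 3 + (α * x ^ 2 + β * x)) = v (x ^ 3) := Valuation.map_add_eq_of_lt_left v h1
  have h3 : v (a * x * y) < v (y ^ 2) := by
    rw [map_mul, map_mul, map_pow, pow_two]
    calc v a * v x * v y ≤ 1 * v x * v y := by gcongr
      _ = v x * v y := by rw [one_mul]
      _ < v y * v y := mul_lt_mul_of_pos_right hxy hy0
  have h4 : v (y ^ 2 + a * x * y) = v (y ^ 2) := Valuation.map_add_eq_of_lt_left v h3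
  have h5 : x ^ 3 + (α * x ^ 2 + β * x) = y ^ 2 + a * x * y := by rw [h.eq]; ring
  rw [h5, h4, map_pow, map_pow] at h2
  exact h2

/-- `v w = v z ^ 3`. -/
lemma v_w (ha : v a ≤ 1) (hα : v α ≤ 1) (hβ : v β ≤ 1) (h : KerPt v a α β x y) :
    v (1 / y) = v (x / y) ^ 3 := by
  have hy := h.y_ne_zero ha hα hβ
  have hvy : v y ≠ 0 := (Valuation.ne_zero_iff v).2 hy
  rw [map_div₀, map_div₀, map_one, div_pow, ← h.v_sq ha hα hβ]
  field_simp

/-- `v z ^ 2 * v x = 1`. -/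
lemma v_z_sq (ha : v a ≤ 1) (hα : v α ≤ 1) (hβ : v β ≤ 1) (h : KerPt v a α β x y) :
    v (x / y) ^ 2 * v x = 1 := by
  have hy := h.y_ne_zero ha hα hβ
  have hvy : v y ≠ 0 := (Valuation.ne_zero_iff v).2 hy
  have hvx : v x ≠ 0 := (Valuation.ne_zero_iff v).2 h.x_ne_zero
  rw [map_div₀, div_pow, h.v_sq ha hα hβ]
  field_simp

lemma v_z_lt_one (ha : v a ≤ 1) (hα : v α ≤ 1) (hβ : v β ≤ 1) (h : KerPt v a α β x y) :
    v (x / y) < 1 := by
  have hy0 : (0 : Γ₀) < v y := lt_trans zero_lt_one (h.one_lt_v_y ha hα hβ)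
  rw [map_div₀, div_lt_one₀ hy0]
  exact h.v_x_lt_v_y ha hα hβ

lemma z_ne_zero (ha : v a ≤ 1) (hα : v α ≤ 1) (hβ : v β ≤ 1) (h : KerPt v a α β x y) :
    x / y ≠ 0 :=
  div_ne_zero h.x_ne_zero (h.y_ne_zero ha hα hβ)

lemma neg (h : KerPt v a α β x y) : KerPt v a α β x (-y - a * x) :=
  ⟨by linear_combination h.eq, h.hx⟩

end KerPt

section line

variable {x₁ y₁ x₂ y₂ x₃ L N : F} {ρ : Γ₀}

/-- The denominator of the slope in the `(z, w)`-chart is a unit. -/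
lemma v_D (ha : v a ≤ 1) (hα : v α ≤ 1) (hβ : v β ≤ 1) (h₁ : KerPt v a α β x₁ y₁)
    (h₂ : KerPt v a α β x₂ y₂) :
    v (1 + a * (x₂ / y₂) - α * (x₂ / y₂) ^ 2 - β * (x₂ / y₂) * (1 / y₁ + 1 / y₂)) = 1 := by
  have hz₂ := h₂.v_z_lt_one ha hα hβ
  have hw₁ : v (1 / y₁) < 1 := by
    rw [h₁.v_w ha hα hβ]; exact pow_lt_one₀ zero_le (h₁.v_z_lt_one ha hα hβ) (by norm_num)
  have hw₂ : v (1 / y₂) < 1 := by
    rw [h₂.v_w ha hα hβ]; exact pow_lt_one₀ zero_le hz₂ (by norm_num)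
  have e : 1 + a * (x₂ / y₂) - α * (x₂ / y₂) ^ 2 - β * (x₂ / y₂) * (1 / y₁ + 1 / y₂)
      = 1 - (α * (x₂ / y₂) ^ 2 + β * (x₂ / y₂) * (1 / y₁ + 1 / y₂) - a * (x₂ / y₂)) := by ring
  rw [e]
  apply Valuation.map_one_sub_of_lt
  apply Valuation.map_sub_lt
  · apply Valuation.map_add_lt
    · rw [map_mul, map_pow]
      calc v α * v (x₂ / y₂) ^ 2 ≤ 1 * v (x₂ / y₂) ^ 2 := by gcongr
        _ = v (x₂ / y₂) ^ 2 := one_mul _
        _ < 1 := pow_lt_one₀ zero_le hz₂ (by norm_num)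
    · rw [map_mul, map_mul]
      have h3 : v (1 / y₁ + 1 / y₂) ≤ 1 := Valuation.map_add_le v hw₁.le hw₂.le
      calc v β * v (x₂ / y₂) * v (1 / y₁ + 1 / y₂) ≤ 1 * v (x₂ / y₂) * 1 := by gcongr
        _ = v (x₂ / y₂) := by rw [one_mul, mul_one]
        _ < 1 := hz₂
  · rw [map_mul]
    calc v a * v (x₂ / y₂) ≤ 1 * v (x₂ / y₂) := by gcongr
      _ = v (x₂ / y₂) := one_mul _
      _ < 1 := hz₂

/-- The numerator of the slope in the `(z, w)`-chart is of order two. -/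
lemma v_M (ha : v a ≤ 1) (hα : v α ≤ 1) (hβ : v β ≤ 1) (h₁ : KerPt v a α β x₁ y₁)
    (_h₂ : KerPt v a α β x₂ y₂)
    (hρ₁ : v (x₁ / y₁) ≤ ρ) (hρ₂ : v (x₂ / y₂) ≤ ρ) (hρ : ρ < 1) :
    v ((x₁ / y₁) ^ 2 + (x₁ / y₁) * (x₂ / y₂) + (x₂ / y₂) ^ 2
        + α * (x₁ / y₁ + x₂ / y₂) * (1 / y₁) + β * (1 / y₁) ^ 2 - a * (1 / y₁)) ≤ ρ ^ 2 := by
  have hw₁ : v (1 / y₁) ≤ ρ ^ 3 := by
    rw [h₁.v_w ha hα hβ]; exact pow_le_pow_left₀ zero_le hρ₁ 3
  have hρ32 : ρ ^ 3 ≤ ρ ^ 2 := pow_le_pow_right_of_le_one' hρ.le (by norm_num)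
  have hρ21 : ρ ^ 2 ≤ ρ := by
    calc ρ ^ 2 ≤ ρ ^ 1 := pow_le_pow_right_of_le_one' hρ.le (by norm_num)
      _ = ρ := pow_one ρ
  have hρ1 : ρ ≤ 1 := hρ.le
  refine Valuation.map_sub_le v (Valuation.map_add_le v (Valuation.map_add_le v
    (Valuation.map_add_le v (Valuation.map_add_le v ?_ ?_) ?_) ?_) ?_) ?_
  · rw [map_pow]; exact pow_le_pow_left₀ zero_le hρ₁ 2
  · rw [map_mul, pow_two]; exact mul_le_mul' hρ₁ hρ₂
  · rw [map_pow]; exact pow_le_pow_left₀ zero_le hρ₂ 2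
  · rw [map_mul, map_mul]
    have h3 : v (x₁ / y₁ + x₂ / y₂) ≤ ρ := Valuation.map_add_le v hρ₁ hρ₂
    calc v α * v (x₁ / y₁ + x₂ / y₂) * v (1 / y₁) ≤ 1 * ρ * ρ ^ 3 := by gcongr
      _ = ρ * ρ ^ 3 := by rw [one_mul]
      _ ≤ ρ * ρ := by gcongr; exact hρ32.trans hρ21
      _ = ρ ^ 2 := (pow_two ρ).symm
  · rw [map_mul, map_pow]
    calc v β * v (1 / y₁) ^ 2 ≤ 1 * (ρ ^ 3) ^ 2 := by gcongr
      _ = ρ ^ 6 := by rw [one_mul, ← pow_mul]
      _ ≤ ρ ^ 2 := pow_le_pow_right_of_le_one' hρ.le (by norm_num)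
  · rw [map_mul]
    calc v a * v (1 / y₁) ≤ 1 * ρ ^ 3 := by gcongr
      _ = ρ ^ 3 := one_mul _
      _ ≤ ρ ^ 2 := hρ32

/-- The relation between slope and intercept for a chord through two kernel points. -/
lemma chord_rel (ha : v a ≤ 1) (hα : v α ≤ 1) (hβ : v β ≤ 1) (h₁ : KerPt v a α β x₁ y₁)
    (h₂ : KerPt v a α β x₂ y₂) (hx : x₁ ≠ x₂) (e₁ : y₁ = L * x₁ + N) (e₂ : y₂ = L * x₂ + N) :
    L * (1 + a * (x₂ / y₂) - α * (x₂ / y₂) ^ 2 - β * (x₂ / y₂) * (1 / y₁ + 1 / y₂))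
      = -N * ((x₁ / y₁) ^ 2 + (x₁ / y₁) * (x₂ / y₂) + (x₂ / y₂) ^ 2
          + α * (x₁ / y₁ + x₂ / y₂) * (1 / y₁) + β * (1 / y₁) ^ 2 - a * (1 / y₁)) := by
  have hy₁ := h₁.y_ne_zero ha hα hβ
  have hy₂ := h₂.y_ne_zero ha hα hβ
  have hD := v_D ha hα hβ h₁ h₂
  have hD0 : 1 + a * (x₂ / y₂) - α * (x₂ / y₂) ^ 2 - β * (x₂ / y₂) * (1 / y₁ + 1 / y₂) ≠ 0 := by
    intro h0
    rw [h0, map_zero] at hD
    exact zero_ne_one hD
  have hc := chord_identity (zw_equation h₁.eq hy₁) (zw_equation h₂.eq hy₂)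
  have hz : x₁ / y₁ - x₂ / y₂ ≠ 0 := by
    intro h0
    rw [h0, zero_mul] at hc
    have hw : 1 / y₁ - 1 / y₂ = 0 := (mul_eq_zero.1 hc).resolve_right hD0
    have hyy : y₁ = y₂ := by
      have := sub_eq_zero.1 hw
      field_simp at this
      exact this.symm
    have hzz := sub_eq_zero.1 h0
    rw [hyy] at hzz
    field_simp at hzz
    exact hx hzz
  have g₁ : 1 = L * (x₁ / y₁) + N * (1 / y₁) := by
    field_simp
    linear_combination e₁
  have g₂ : 1 = L * (x₂ / y₂) + N * (1 / y₂) := by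
    field_simp
    linear_combination e₂
  apply mul_left_cancel₀ hz
  linear_combination (-N) * hc
    + (1 + a * (x₂ / y₂) - α * (x₂ / y₂) ^ 2 - β * (x₂ / y₂) * (1 / y₁ + 1 / y₂)) * (g₂ - g₁)

/-- Abstract bounds: slope and intercept from `L D = - N M`. -/
lemma line_bounds_aux {L N D M z₁ w₁ : F} {ρ : Γ₀} (hD : v D = 1) (hM : v M ≤ ρ ^ 2)
    (hz₁ : v z₁ ≤ ρ) (hw₁ : v w₁ ≤ ρ ^ 3) (g₁ : 1 = L * z₁ + N * w₁) (hrel : L * D = -N * M) :
    N ≠ 0 ∧ v N⁻¹ ≤ ρ ^ 3 ∧ v (L * N⁻¹) ≤ ρ ^ 2 := by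
  have hD0 : D ≠ 0 := by
    intro h0
    rw [h0, map_zero] at hD
    exact zero_ne_one hD
  have key : D = N * (D * w₁ - M * z₁) := by
    linear_combination D * g₁ + z₁ * hrel
  have hN : N ≠ 0 := by
    rintro rfl
    rw [zero_mul] at key
    exact hD0 key
  refine ⟨hN, ?_, ?_⟩
  · have e : N⁻¹ = (D * w₁ - M * z₁) / D := by
      rw [eq_div_iff hD0, inv_mul_eq_iff_eq_mul₀ hN]
      exact key
    rw [e, map_div₀, hD, div_one]
    apply Valuation.map_sub_le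
    · rw [map_mul, hD, one_mul]; exact hw₁
    · rw [map_mul]
      calc v M * v z₁ ≤ ρ ^ 2 * ρ := by gcongr
        _ = ρ ^ 3 := (pow_succ ρ 2).symm
  · have e : L * N⁻¹ = -M / D := by
      rw [eq_div_iff hD0, mul_assoc, mul_comm N⁻¹ D, ← mul_assoc, hrel]
      field_simp
    rw [e, map_div₀, hD, div_one, Valuation.map_neg]
    exact hM

/-- Bounds for the line through two kernel points. -/
lemma line_bounds (ha : v a ≤ 1) (hα : v α ≤ 1) (hβ : v β ≤ 1) (h₁ : KerPt v a α β x₁ y₁)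
    (h₂ : KerPt v a α β x₂ y₂) (hρ₁ : v (x₁ / y₁) ≤ ρ) (hρ₂ : v (x₂ / y₂) ≤ ρ) (hρ : ρ < 1)
    (e₁ : y₁ = L * x₁ + N)
    (hrel : L * (1 + a * (x₂ / y₂) - α * (x₂ / y₂) ^ 2 - β * (x₂ / y₂) * (1 / y₁ + 1 / y₂))
      = -N * ((x₁ / y₁) ^ 2 + (x₁ / y₁) * (x₂ / y₂) + (x₂ / y₂) ^ 2
          + α * (x₁ / y₁ + x₂ / y₂) * (1 / y₁) + β * (1 / y₁) ^ 2 - a * (1 / y₁))) :
    N ≠ 0 ∧ v N⁻¹ ≤ ρ ^ 3 ∧ v (L * N⁻¹) ≤ ρ ^ 2 := by
  have hy₁ := h₁.y_ne_zero ha hα hβ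
  have g₁ : 1 = L * (x₁ / y₁) + N * (1 / y₁) := by
    field_simp
    linear_combination e₁
  have hw₁ : v (1 / y₁) ≤ ρ ^ 3 := by
    rw [h₁.v_w ha hα hβ]; exact pow_le_pow_left₀ zero_le hρ₁ 3
  exact line_bounds_aux (v_D ha hα hβ h₁ h₂) (v_M ha hα hβ h₁ h₂ hρ₁ hρ₂ hρ) hρ₁ hw₁ g₁ hrel

variable (v) in
lemma v_natCast_le_one (n : ℕ) : v (n : F) ≤ 1 := by
  induction n with
  | zero => simp
  | succ n ih =>
    push_cast
    exact Valuation.map_add_le v ih (by simp)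

/-- The third point `(x₃, L x₃ + N)` of the line through two kernel points is again in the
kernel, and so is the sum `(x₃, -(L x₃ + N) - a x₃)`, whose `z`-coordinate is the sum of the
other two up to second order terms. -/
lemma third_point (ha : v a ≤ 1) (hα : v α ≤ 1) (hβ : v β ≤ 1)
    (h₁ : KerPt v a α β x₁ y₁) (h₂ : KerPt v a α β x₂ y₂)
    (hρ₁ : v (x₁ / y₁) ≤ ρ) (hρ₂ : v (x₂ / y₂) ≤ ρ) (hρ : ρ < 1)
    (e₁ : y₁ = L * x₁ + N) (e₂ : y₂ = L * x₂ + N)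
    (v₁ : x₁ + x₂ + x₃ = L ^ 2 + a * L - α)
    (v₂ : x₁ * x₂ + x₁ * x₃ + x₂ * x₃ = β - (2 * L + a) * N)
    (v₃ : x₁ * x₂ * x₃ = N ^ 2) (hN : N ≠ 0) (hvN : v N⁻¹ ≤ ρ ^ 3) (hvL : v (L * N⁻¹) ≤ ρ ^ 2)
    (eq₃ : (-(L * x₃ + N) - a * x₃) ^ 2 + a * x₃ * (-(L * x₃ + N) - a * x₃)
      = x₃ ^ 3 + α * x₃ ^ 2 + β * x₃) :
    KerPt v a α β x₃ (-(L * x₃ + N) - a * x₃) ∧
      v (x₃ / (-(L * x₃ + N) - a * x₃) - x₁ / y₁ - x₂ / y₂) ≤ ρ ^ 2 := by
  have hy₁ := h₁.y_ne_zero ha hα hβ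
  have hy₂ := h₂.y_ne_zero ha hα hβ
  have h2 : v (2 : F) ≤ 1 := by
    have := v_natCast_le_one v 2
    simpa using this
  have hρ2 : ρ ^ 2 < 1 := pow_lt_one₀ zero_le hρ (by norm_num)
  have hρ3 : ρ ^ 3 < 1 := pow_lt_one₀ zero_le hρ (by norm_num)
  have hρ32 : ρ ^ 3 ≤ ρ ^ 2 := pow_le_pow_right_of_le_one' hρ.le (by norm_num)
  have hρ21 : ρ ^ 2 ≤ ρ := by
    calc ρ ^ 2 ≤ ρ ^ 1 := pow_le_pow_right_of_le_one' hρ.le (by norm_num)
      _ = ρ := pow_one ρ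
  -- the unit `U = Q / N²`
  have hU : v (1 - (α * (L * N⁻¹) - β * (L * N⁻¹) ^ 2)) = 1 := by
    apply Valuation.map_one_sub_of_lt
    apply Valuation.map_sub_lt
    · rw [map_mul]
      calc v α * v (L * N⁻¹) ≤ 1 * ρ ^ 2 := by gcongr
        _ = ρ ^ 2 := one_mul _
        _ < 1 := hρ2
    · rw [map_mul, map_pow]
      calc v β * v (L * N⁻¹) ^ 2 ≤ 1 * (ρ ^ 2) ^ 2 := by gcongr
        _ = ρ ^ 4 := by rw [one_mul, ← pow_mul]
        _ < 1 := pow_lt_one₀ zero_le hρ (by norm_num)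
  have hU0 : 1 - (α * (L * N⁻¹) - β * (L * N⁻¹) ^ 2) ≠ 0 := by
    intro h0
    rw [h0, map_zero] at hU
    exact zero_ne_one hU
  have hQe : N ^ 2 - α * L * N + β * L ^ 2
      = N ^ 2 * (1 - (α * (L * N⁻¹) - β * (L * N⁻¹) ^ 2)) := by
    field_simp
    ring
  have hQ : N ^ 2 - α * L * N + β * L ^ 2 ≠ 0 := by
    rw [hQe]; exact mul_ne_zero (pow_ne_zero 2 hN) hU0
  have hE : v ((α * N - 2 * β * L + a * L * N) / (N ^ 2 - α * L * N + β * L ^ 2)) ≤ ρ ^ 2 := by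
    have e : (α * N - 2 * β * L + a * L * N) / (N ^ 2 - α * L * N + β * L ^ 2)
        = (N⁻¹ * (α - 2 * β * (L * N⁻¹)) + a * (L * N⁻¹))
          / (1 - (α * (L * N⁻¹) - β * (L * N⁻¹) ^ 2)) := by
      rw [hQe, div_eq_div_iff (mul_ne_zero (pow_ne_zero 2 hN) hU0) hU0]
      field_simp
    rw [e, map_div₀, hU, div_one]
    have h3 : v (α - 2 * β * (L * N⁻¹)) ≤ 1 := by
      apply Valuation.map_sub_le v hα
      rw [map_mul, map_mul]
      calc v 2 * v β * v (L * N⁻¹) ≤ 1 * 1 * ρ ^ 2 := by gcongr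
        _ = ρ ^ 2 := by rw [one_mul, one_mul]
        _ ≤ 1 := hρ2.le
    apply Valuation.map_add_le
    · rw [map_mul]
      calc v N⁻¹ * v (α - 2 * β * (L * N⁻¹)) ≤ ρ ^ 3 * 1 := by gcongr
        _ = ρ ^ 3 := mul_one _
        _ ≤ ρ ^ 2 := hρ32
    · rw [map_mul]
      calc v a * v (L * N⁻¹) ≤ 1 * ρ ^ 2 := by gcongr
        _ = ρ ^ 2 := one_mul _
  have hx₃ := third_point_z v₁ v₂ v₃ e₁ e₂ hy₁ hy₂ hQ
  have hY : L * x₃ + N ≠ 0 := by
    intro h0
    rw [h0, neg_zero, zero_mul] at hx₃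
    rw [hx₃] at h0
    apply hN
    linear_combination h0
  -- the `z`-coordinate of the third point of intersection
  have hz₃ : x₃ / (L * x₃ + N)
      = -(x₁ / y₁ + x₂ / y₂
          + (α * N - 2 * β * L + a * L * N) / (N ^ 2 - α * L * N + β * L ^ 2)) := by
    rw [div_eq_iff hY]
    linear_combination hx₃
  have hvs : v (x₁ / y₁ + x₂ / y₂
      + (α * N - 2 * β * L + a * L * N) / (N ^ 2 - α * L * N + β * L ^ 2)) ≤ ρ :=
    Valuation.map_add_le v (Valuation.map_add_le v hρ₁ hρ₂) (hE.trans hρ21)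
  have hvz₃ : v (x₃ / (L * x₃ + N)) ≤ ρ := by
    rw [hz₃, Valuation.map_neg]; exact hvs
  have hw₃ : v (1 / (L * x₃ + N)) ≤ ρ ^ 3 := by
    have e : 1 / (L * x₃ + N) = N⁻¹ - (L * N⁻¹) * (x₃ / (L * x₃ + N)) := by
      field_simp
      ring
    rw [e]
    apply Valuation.map_sub_le v hvN
    rw [map_mul]
    calc v (L * N⁻¹) * v (x₃ / (L * x₃ + N)) ≤ ρ ^ 2 * ρ := by gcongr
      _ = ρ ^ 3 := (pow_succ ρ 2).symm
  have eq₃' : (L * x₃ + N) ^ 2 + a * x₃ * (L * x₃ + N) = x₃ ^ 3 + α * x₃ ^ 2 + β * x₃ := by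
    linear_combination eq₃
  have hx₃lt : 1 < v x₃ := by
    by_contra hcon
    push Not at hcon
    have h5 : v (1 / (L * x₃ + N)) < 1 := hw₃.trans_lt hρ3
    rw [map_div₀, map_one] at h5
    have hv0 : (0 : Γ₀) < v (L * x₃ + N) :=
      zero_lt_iff.2 ((Valuation.ne_zero_iff v).2 hY)
    rw [div_lt_one₀ hv0] at h5
    -- `Y = L x₃ + N` has `1 < v Y`, so `Y²` dominates
    have h6 : v (a * x₃ * (L * x₃ + N)) < v ((L * x₃ + N) ^ 2) := by
      rw [map_mul, map_mul, map_pow, pow_two]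
      calc v a * v x₃ * v (L * x₃ + N) ≤ 1 * 1 * v (L * x₃ + N) := by gcongr
        _ = 1 * v (L * x₃ + N) := by rw [one_mul]
        _ < v (L * x₃ + N) * v (L * x₃ + N) := mul_lt_mul_of_pos_right h5 hv0
    have h7 : v ((L * x₃ + N) ^ 2 + a * x₃ * (L * x₃ + N)) = v ((L * x₃ + N) ^ 2) :=
      Valuation.map_add_eq_of_lt_left v h6
    have h8 : v (x₃ ^ 3 + α * x₃ ^ 2 + β * x₃) ≤ 1 := by
      refine Valuation.map_add_le v (Valuation.map_add_le v ?_ ?_) ?_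
      · rw [map_pow]; exact pow_le_one₀ zero_le hcon
      · rw [map_mul, map_pow]
        calc v α * v x₃ ^ 2 ≤ 1 * 1 := by
              gcongr
              exact pow_le_one₀ zero_le hcon
          _ = 1 := one_mul _
      · rw [map_mul]
        calc v β * v x₃ ≤ 1 * 1 := by gcongr
          _ = 1 := one_mul _
    rw [← eq₃', h7, map_pow] at h8
    exact absurd h8 (not_le.2 (one_lt_pow₀ h5 (by norm_num)))
  have k₃ : KerPt v a α β x₃ (-(L * x₃ + N) - a * x₃) := ⟨eq₃, hx₃lt⟩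
  refine ⟨k₃, ?_⟩
  have hy₃ := k₃.y_ne_zero ha hα hβ
  -- `s = z₁ + z₂ + E`, `z₃ = s / (1 - a s)`
  set s := x₁ / y₁ + x₂ / y₂
      + (α * N - 2 * β * L + a * L * N) / (N ^ 2 - α * L * N + β * L ^ 2) with hs
  have hvas : v (a * s) < 1 := by
    rw [map_mul]
    calc v a * v s ≤ 1 * ρ := by gcongr
      _ = ρ := one_mul _
      _ < 1 := hρ
  have hV : v (1 - a * s) = 1 := Valuation.map_one_sub_of_lt v hvas
  have hV0 : 1 - a * s ≠ 0 := by
    intro h0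
    rw [h0, map_zero] at hV
    exact zero_ne_one hV
  have hx₃s : x₃ = -s * (L * x₃ + N) := by
    have := hz₃
    rw [div_eq_iff hY] at this
    exact this
  have hzsum : x₃ / (-(L * x₃ + N) - a * x₃) = s / (1 - a * s) := by
    rw [div_eq_div_iff hy₃ hV0]
    linear_combination (1 - a * s + a * s) * hx₃s
  have hfrac : s / (1 - a * s) - s = a * s ^ 2 / (1 - a * s) := by
    rw [div_sub' hV0, div_left_inj' hV0]
    ring
  have hdiff : x₃ / (-(L * x₃ + N) - a * x₃) - x₁ / y₁ - x₂ / y₂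
      = a * s ^ 2 / (1 - a * s)
        + (α * N - 2 * β * L + a * L * N) / (N ^ 2 - α * L * N + β * L ^ 2) := by
    rw [hzsum, ← hfrac, hs]
    ring
  rw [hdiff]
  apply Valuation.map_add_le v _ hE
  rw [map_div₀, hV, div_one, map_mul, map_pow]
  calc v a * v s ^ 2 ≤ 1 * ρ ^ 2 := by gcongr
    _ = ρ ^ 2 := one_mul _

end line

section points

variable {W : Affine F}

/-- The `z`-coordinate `x / y` of a point (`0` at the origin). -/
noncomputable def zc : W.Point → F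
  | .zero => 0
  | .some x y _ => x / y

/-- The kernel of reduction: the origin and the points with `1 < v x`. -/
def InKer (v : Valuation F Γ₀) : W.Point → Prop
  | .zero => True
  | .some x _ _ => 1 < v x

@[simp] lemma zc_zero : zc (0 : W.Point) = 0 := rfl

@[simp] lemma zc_some {x y : F} (h : W.Nonsingular x y) : zc (Point.some x y h) = x / y := rfl

@[simp] lemma inKer_zero : InKer v (0 : W.Point) := trivial

@[simp] lemma inKer_some {x y : F} (h : W.Nonsingular x y) :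
    InKer v (Point.some x y h) ↔ 1 < v x := Iff.rfl

/-- A point of the kernel has `v z < 1`. -/
lemma v_zc_lt_one (hW : IsNodal W) (ha : v W.a₁ ≤ 1) (hα : v W.a₂ ≤ 1) (hβ : v W.a₄ ≤ 1)
    {P : W.Point} (hP : InKer v P) : v (zc P) < 1 := by
  rcases P with _ | ⟨x, y, h⟩
  · change v (0 : F) < 1
    rw [map_zero]; exact zero_lt_one
  · have k : KerPt v W.a₁ W.a₂ W.a₄ x y := ⟨(hW.equation_iff x y).1 h.1, hP⟩
    exact k.v_z_lt_one ha hα hβ

/-- A nonzero point of the kernel has `z ≠ 0`. -/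
lemma zc_ne_zero (hW : IsNodal W) (ha : v W.a₁ ≤ 1) (hα : v W.a₂ ≤ 1) (hβ : v W.a₄ ≤ 1)
    {P : W.Point} (hP : InKer v P) (hP0 : P ≠ 0) : zc P ≠ 0 := by
  rcases P with _ | ⟨x, y, h⟩
  · exact absurd rfl hP0
  · have k : KerPt v W.a₁ W.a₂ W.a₄ x y := ⟨(hW.equation_iff x y).1 h.1, hP⟩
    exact k.z_ne_zero ha hα hβ

variable [DecidableEq F]

/-- The kernel of reduction is stable under negation. -/
theorem inKer_neg (hW : IsNodal W) {P : W.Point} (hP : InKer v P) : InKer v (-P) := by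
  rcases P with _ | ⟨x, y, h⟩
  · exact trivial
  · rw [hW.neg_some h]
    exact hP

/-- The kernel of reduction is closed under addition, and `z` is additive up to second order
terms. -/
theorem inKer_add (hW : IsNodal W) (ha : v W.a₁ ≤ 1) (hα : v W.a₂ ≤ 1) (hβ : v W.a₄ ≤ 1)
    {P₁ P₂ : W.Point} {ρ : Γ₀} (hρ : ρ < 1) (hP₁ : InKer v P₁) (hP₂ : InKer v P₂)
    (hz₁ : v (zc P₁) ≤ ρ) (hz₂ : v (zc P₂) ≤ ρ) :
    InKer v (P₁ + P₂) ∧ v (zc (P₁ + P₂) - zc P₁ - zc P₂) ≤ ρ ^ 2 := by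
  rcases P₁ with _ | ⟨x₁, y₁, h₁⟩
  · have e : (Point.zero : W.Point) + P₂ = P₂ := zero_add P₂
    rw [e]
    refine ⟨hP₂, ?_⟩
    simp [zc]
  rcases P₂ with _ | ⟨x₂, y₂, h₂⟩
  · have e : Point.some x₁ y₁ h₁ + (Point.zero : W.Point) = Point.some x₁ y₁ h₁ := add_zero _
    rw [e]
    refine ⟨hP₁, ?_⟩
    simp [zc]
  have k₁ : KerPt v W.a₁ W.a₂ W.a₄ x₁ y₁ := ⟨(hW.equation_iff x₁ y₁).1 h₁.1, hP₁⟩
  have k₂ : KerPt v W.a₁ W.a₂ W.a₄ x₂ y₂ := ⟨(hW.equation_iff x₂ y₂).1 h₂.1, hP₂⟩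
  have hy₁ := k₁.y_ne_zero ha hα hβ
  have hy₂ := k₂.y_ne_zero ha hα hβ
  by_cases hxy : x₁ = x₂ ∧ y₁ = -y₂ - W.a₁ * x₂
  · have e : Point.some x₁ y₁ h₁ + Point.some x₂ y₂ h₂ = 0 :=
      Point.add_of_Y_eq hxy.1 (by rw [hW.negY]; exact hxy.2)
    rw [e]
    refine ⟨trivial, ?_⟩
    have e2 : zc (0 : W.Point) - zc (Point.some x₁ y₁ h₁) - zc (Point.some x₂ y₂ h₂)
        = W.a₁ * (x₁ / y₁) * (x₂ / y₂) := by
      change (0 : F) - x₁ / y₁ - x₂ / y₂ = W.a₁ * (x₁ / y₁) * (x₂ / y₂)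
      have hx := hxy.1
      have hy : y₁ + y₂ = -(W.a₁ * x₂) := by rw [hxy.2]; ring
      subst hx
      field_simp
      linear_combination (-x₁) * hy
    rw [e2, map_mul, map_mul, pow_two]
    change v (x₁ / y₁) ≤ ρ at hz₁
    change v (x₂ / y₂) ≤ ρ at hz₂
    calc v W.a₁ * v (x₁ / y₁) * v (x₂ / y₂) ≤ 1 * ρ * ρ := by gcongr
      _ = ρ * ρ := by rw [one_mul]
  · obtain ⟨L, N, x₃, h₃, hsum, hL, e₁, e₂, v₁, v₂, v₃⟩ := line_of_add_some hW h₁ h₂ hxy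
    have hrel : L * (1 + W.a₁ * (x₂ / y₂) - W.a₂ * (x₂ / y₂) ^ 2
          - W.a₄ * (x₂ / y₂) * (1 / y₁ + 1 / y₂))
        = -N * ((x₁ / y₁) ^ 2 + (x₁ / y₁) * (x₂ / y₂) + (x₂ / y₂) ^ 2
            + W.a₂ * (x₁ / y₁ + x₂ / y₂) * (1 / y₁) + W.a₄ * (1 / y₁) ^ 2
            - W.a₁ * (1 / y₁)) := by
      by_cases hx : x₁ = x₂
      · have hne : y₁ ≠ W.negY x₂ y₂ := by
          rw [hW.negY]
          intro h
          exact hxy ⟨hx, h⟩
        have hyy : y₁ = y₂ := Affine.Y_eq_of_Y_ne h₁.1 h₂.1 hx hne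
        subst hx
        subst hyy
        have hd : 2 * y₁ + W.a₁ * x₁ ≠ 0 := by
          intro h0
          apply hne
          rw [hW.negY]
          linear_combination h0
        have hL' : L = (3 * x₁ ^ 2 + 2 * W.a₂ * x₁ + W.a₄ - W.a₁ * y₁)
            / (2 * y₁ + W.a₁ * x₁) := by
          rw [hL, Affine.slope_of_Y_ne rfl hne, hW.negY]
          congr 1
          ring
        exact tangent_rel k₁.eq hy₁ hd hL' e₁
      · exact chord_rel ha hα hβ k₁ k₂ hx e₁ e₂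
    obtain ⟨hN, hvN, hvL⟩ := line_bounds ha hα hβ k₁ k₂ hz₁ hz₂ hρ e₁ hrel
    have eq₃ := (hW.equation_iff _ _).1 h₃.1
    obtain ⟨k₃, hz₃⟩ := third_point ha hα hβ k₁ k₂ hz₁ hz₂ hρ e₁ e₂ v₁ v₂ v₃ hN hvN hvL eq₃
    rw [hsum]
    exact ⟨k₃.hx, hz₃⟩

/-- The kernel of reduction is closed under subtraction. -/
theorem inKer_sub (hW : IsNodal W) (ha : v W.a₁ ≤ 1) (hα : v W.a₂ ≤ 1) (hβ : v W.a₄ ≤ 1)
    {P₁ P₂ : W.Point} (hP₁ : InKer v P₁) (hP₂ : InKer v P₂) : InKer v (P₁ - P₂) := by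
  have hn := inKer_neg hW hP₂
  have h1 := v_zc_lt_one hW ha hα hβ hP₁
  have h2 := v_zc_lt_one hW ha hα hβ hn
  rw [sub_eq_add_neg]
  exact (inKer_add hW ha hα hβ (max_lt h1 h2) hP₁ hn (le_max_left _ _) (le_max_right _ _)).1

/-- `z (n • P) ≡ n z(P)` up to second order, on the kernel of reduction. -/
theorem zc_nsmul (hW : IsNodal W) (ha : v W.a₁ ≤ 1) (hα : v W.a₂ ≤ 1) (hβ : v W.a₄ ≤ 1)
    {P : W.Point} (hP : InKer v P) (n : ℕ) :
    InKer v (n • P) ∧ v (zc (n • P) - n * zc P) ≤ v (zc P) ^ 2 := by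
  have hz : v (zc P) < 1 := v_zc_lt_one hW ha hα hβ hP
  induction n with
  | zero =>
    rw [zero_smul]
    refine ⟨trivial, ?_⟩
    have e : zc (0 : W.Point) - ((0 : ℕ) : F) * zc P = 0 := by
      change (0 : F) - ((0 : ℕ) : F) * zc P = 0
      simp
    rw [e, map_zero]
    exact zero_le
  | succ n ih =>
    obtain ⟨ih₁, ih₂⟩ := ih
    have hρ21 : v (zc P) ^ 2 ≤ v (zc P) := by
      calc v (zc P) ^ 2 ≤ v (zc P) ^ 1 := pow_le_pow_right_of_le_one' hz.le (by norm_num)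
        _ = v (zc P) := pow_one _
    have hzn : v (zc (n • P)) ≤ v (zc P) := by
      have e : zc (n • P) = (zc (n • P) - n * zc P) + n * zc P := by ring
      rw [e]
      apply Valuation.map_add_le v (ih₂.trans hρ21)
      rw [map_mul]
      calc v (n : F) * v (zc P) ≤ 1 * v (zc P) := by
            gcongr
            exact v_natCast_le_one v n
        _ = v (zc P) := one_mul _
    obtain ⟨k₁, k₂⟩ := inKer_add hW ha hα hβ hz ih₁ hP hzn le_rfl
    rw [succ_nsmul]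
    refine ⟨k₁, ?_⟩
    have e : zc (n • P + P) - ((n + 1 : ℕ) : F) * zc P
        = (zc (n • P + P) - zc (n • P) - zc P) + (zc (n • P) - n * zc P) := by
      push_cast
      ring
    rw [e]
    exact Valuation.map_add_le v k₂ ih₂

/-- On the kernel of reduction, multiplication by a unit `n` preserves `v z`. -/
theorem v_zc_nsmul (hW : IsNodal W) (ha : v W.a₁ ≤ 1) (hα : v W.a₂ ≤ 1) (hβ : v W.a₄ ≤ 1)
    {P : W.Point} (hP : InKer v P) {n : ℕ} (hn : v (n : F) = 1) :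
    v (zc (n • P)) = v (zc P) := by
  by_cases hP0 : P = 0
  · subst hP0
    rw [smul_zero]
  have hz1 : v (zc P) < 1 := v_zc_lt_one hW ha hα hβ hP
  have hz0 : zc P ≠ 0 := zc_ne_zero hW ha hα hβ hP hP0
  have hv0 : (0 : Γ₀) < v (zc P) := zero_lt_iff.2 ((Valuation.ne_zero_iff v).2 hz0)
  obtain ⟨-, h₂⟩ := zc_nsmul hW ha hα hβ hP n
  have h3 : v (zc P) ^ 2 < v (zc P) := by
    calc v (zc P) ^ 2 = v (zc P) * v (zc P) := pow_two _
      _ < 1 * v (zc P) := mul_lt_mul_of_pos_right hz1 hv0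
      _ = v (zc P) := one_mul _
  have h4 : v ((n : F) * zc P) = v (zc P) := by rw [map_mul, hn, one_mul]
  have e : zc (n • P) = (zc (n • P) - n * zc P) + n * zc P := by ring
  rw [e, Valuation.map_add_eq_of_lt_right v (by rw [h4]; exact h₂.trans_lt h3), h4]

/-- **No torsion in the kernel of reduction**: a nonzero point of the kernel is not killed by
a unit `n`. -/
theorem nsmul_ne_zero_of_inKer (hW : IsNodal W) (ha : v W.a₁ ≤ 1) (hα : v W.a₂ ≤ 1)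
    (hβ : v W.a₄ ≤ 1) {P : W.Point} (hP : InKer v P) (hP0 : P ≠ 0) {n : ℕ}
    (hn : v (n : F) = 1) : n • P ≠ 0 := by
  intro h0
  have h := v_zc_nsmul hW ha hα hβ hP hn
  rw [h0] at h
  have hz0 : zc P ≠ 0 := zc_ne_zero hW ha hα hβ hP hP0
  have : v (zc (0 : W.Point)) = 0 := by
    change v (0 : F) = 0
    exact map_zero v
  rw [this] at h
  exact hz0 ((Valuation.zero_iff v).1 h.symm)

/-- **No torsion in the kernel of reduction** (coordinate form). -/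
theorem nsmul_inKer (hW : IsNodal W) (ha : v W.a₁ ≤ 1) (hα : v W.a₂ ≤ 1) (hβ : v W.a₄ ≤ 1)
    {x y : F} (h : W.Nonsingular x y) (hx : 1 < v x) {n : ℕ} (hn : v (n : F) = 1) :
    ∃ (x' y' : F) (h' : W.Nonsingular x' y'),
      n • Point.some x y h = Point.some x' y' h' ∧ 1 < v x' := by
  have hP : InKer v (Point.some x y h) := hx
  have h₁ := (zc_nsmul hW ha hα hβ hP n).1
  have hne := nsmul_ne_zero_of_inKer hW ha hα hβ hP (Point.some_ne_zero h) hn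
  rcases hQ : n • Point.some x y h with _ | ⟨x', y', h'⟩
  · exact absurd hQ hne
  · refine ⟨x', y', h', rfl, ?_⟩
    rw [hQ] at h₁
    exact h₁

end points

end valuation

section subring

variable {F : Type*} [Field F] [DecidableEq F] (A : ValuationSubring F) {W : Affine F}

/-- **2-K: no torsion in the kernel of reduction.** On `y² + a₁ x y = x³ + a₂ x² + a₄ x` with
`a₁, a₂, a₄ ∈ A`: if `x ∉ A` and `n` is a unit of `A`, then `n • (x, y)` is again an affine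
point with abscissa outside `A`. -/
theorem nsmul_not_mem (hW : IsNodal W) (ha : W.a₁ ∈ A) (hα : W.a₂ ∈ A) (hβ : W.a₄ ∈ A)
    {x y : F} (h : W.Nonsingular x y) (hx : x ∉ A) {n : ℕ}
    (hn : A.valuation (n : F) = 1) :
    ∃ (x' y' : F) (h' : W.Nonsingular x' y'),
      n • Point.some x y h = Point.some x' y' h' ∧ x' ∉ A := by
  have hx' : 1 < A.valuation x := by
    rw [← not_le, ValuationSubring.valuation_le_one_iff]
    exact hx
  obtain ⟨x', y', h', e, hlt⟩ := nsmul_inKer (v := A.valuation) hW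
    ((ValuationSubring.valuation_le_one_iff A _).2 ha)
    ((ValuationSubring.valuation_le_one_iff A _).2 hα)
    ((ValuationSubring.valuation_le_one_iff A _).2 hβ) h hx' hn
  refine ⟨x', y', h', e, ?_⟩
  rw [← ValuationSubring.valuation_le_one_iff, not_le]
  exact hlt

/-- The form used by the inertia argument: a point killed by a unit `n` has integral
abscissa. -/
theorem mem_of_nsmul_eq_zero (hW : IsNodal W) (ha : W.a₁ ∈ A) (hα : W.a₂ ∈ A) (hβ : W.a₄ ∈ A)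
    {x y : F} (h : W.Nonsingular x y) {n : ℕ}
    (hn : A.valuation (n : F) = 1) (h0 : n • Point.some x y h = 0) : x ∈ A := by
  by_contra hx
  obtain ⟨x', y', h', e, -⟩ := nsmul_not_mem A hW ha hα hβ h hx hn
  rw [e] at h0
  exact Point.some_ne_zero h' h0

omit [DecidableEq F] in
/-- Integrality of the ordinate: an affine point with integral abscissa has integral
ordinate. -/
theorem y_mem_of_x_mem (hW : IsNodal W) (ha : W.a₁ ∈ A) (hα : W.a₂ ∈ A) (hβ : W.a₄ ∈ A)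
    {x y : F} (h : W.Equation x y) (hx : x ∈ A) : y ∈ A := by
  by_contra hy
  have hy' : 1 < A.valuation y := by
    rw [← not_le, ValuationSubring.valuation_le_one_iff]
    exact hy
  have hvx := (ValuationSubring.valuation_le_one_iff A _).2 hx
  have hva := (ValuationSubring.valuation_le_one_iff A _).2 ha
  have hvα := (ValuationSubring.valuation_le_one_iff A _).2 hα
  have hvβ := (ValuationSubring.valuation_le_one_iff A _).2 hβ
  have hv0 : (0 : _) < A.valuation y := lt_trans zero_lt_one hy'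
  have eq := (hW.equation_iff x y).1 h
  have h6 : A.valuation (W.a₁ * x * y) < A.valuation (y ^ 2) := by
    rw [map_mul, map_mul, map_pow, pow_two]
    calc A.valuation W.a₁ * A.valuation x * A.valuation y ≤ 1 * 1 * A.valuation y := by gcongr
      _ = 1 * A.valuation y := by rw [one_mul]
      _ < A.valuation y * A.valuation y := mul_lt_mul_of_pos_right hy' hv0
  have h7 : A.valuation (y ^ 2 + W.a₁ * x * y) = A.valuation (y ^ 2) :=
    Valuation.map_add_eq_of_lt_left _ h6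
  have h8 : A.valuation (x ^ 3 + W.a₂ * x ^ 2 + W.a₄ * x) ≤ 1 := by
    refine Valuation.map_add_le _ (Valuation.map_add_le _ ?_ ?_) ?_
    · rw [map_pow]; exact pow_le_one₀ zero_le hvx
    · rw [map_mul, map_pow]
      calc A.valuation W.a₂ * A.valuation x ^ 2 ≤ 1 * 1 := by
            gcongr
            exact pow_le_one₀ zero_le hvx
        _ = 1 := one_mul _
    · rw [map_mul]
      calc A.valuation W.a₄ * A.valuation x ≤ 1 * 1 := by gcongr
        _ = 1 := one_mul _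
  rw [← eq, h7, map_pow] at h8
  exact absurd h8 (not_le.2 (one_lt_pow₀ hy' (by norm_num)))

end subring

end Fermat.Agent.S13.L2.H7Ker
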