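import Fermat.Agent.S13.L2.H20_Vieta
import Fermat.Agent.S13.L2.H7_KerA1

/-!
# S13, package L2, leaves [K1] + [K2] (helper7): the kernel of reduction

The exact statements of findings #126 (helper20), as wrappers around the generic kernel file
`H7_KerA1.lean` (any valuation, any residue characteristic, model
`y² + a₁ x y = x³ + a₂ x² + a₄ x` with integral `a₁, a₂, a₄`).

* `inKer_add` [K1], `nsmul_ne_zero_of_inKer` [K2] : the deliverables of #126, verbatim.
* `h7_inKer_neg`, `h7_inKer_sub`, `h7_inKer_nsmul` : the kernel is a subgroup.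
* `h7_val_le_one_of_nsmul_eq_zero` : a point killed by a unit `n` has integral abscissa.
* `h7_val_y_le_one` : integral abscissa implies integral ordinate.
-/

set_option autoImplicit false

open WeierstrassCurve WeierstrassCurve.Affine

namespace Fermat.Agent.S13.L2

variable {K : Type*} [Field K] [DecidableEq K] {A : ValuationSubring K} {W : Affine K} {ρ : K}

omit [DecidableEq K] in
/-- The two definitions of the kernel of reduction agree. -/
lemma h7_inKer_iff (P : W.Point) : InKer A P ↔ H7Ker.InKer A.valuation P := by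
  rcases P with _ | ⟨x, y, h⟩ <;> exact Iff.rfl

/-- [K1] the kernel of reduction is closed under addition. -/
theorem inKer_add (h3 : W.a₃ = 0) (h6 : W.a₆ = 0) (h1 : A.valuation W.a₁ ≤ 1)
    (h2 : A.valuation W.a₂ ≤ 1) (h4 : A.valuation W.a₄ ≤ 1) {P Q : W.Point}
    (hP : InKer A P) (hQ : InKer A Q) : InKer A (P + Q) := by
  have hW : H7Vieta.IsNodal W := ⟨h3, h6⟩
  rw [h7_inKer_iff] at hP hQ ⊢
  have z₁ := H7Ker.v_zc_lt_one hW h1 h2 h4 hP
  have z₂ := H7Ker.v_zc_lt_one hW h1 h2 h4 hQ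
  exact (H7Ker.inKer_add hW h1 h2 h4 (max_lt z₁ z₂) hP hQ (le_max_left _ _)
    (le_max_right _ _)).1

/-- [K2] no torsion of order prime to the residue characteristic in the kernel of reduction. -/
theorem nsmul_ne_zero_of_inKer (h3 : W.a₃ = 0) (h6 : W.a₆ = 0) (h1 : A.valuation W.a₁ ≤ 1)
    (h2 : A.valuation W.a₂ ≤ 1) (h4 : A.valuation W.a₄ ≤ 1) {n : ℕ}
    (hn : A.valuation (n : K) = 1) {x y : K} (h : W.Nonsingular x y)
    (hx : 1 < A.valuation x) : n • Point.some x y h ≠ 0 := by
  have hW : H7Vieta.IsNodal W := ⟨h3, h6⟩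
  exact H7Ker.nsmul_ne_zero_of_inKer (v := A.valuation) hW h1 h2 h4
    (P := Point.some x y h) hx (Point.some_ne_zero h) hn

/-- The kernel of reduction is stable under negation. -/
theorem h7_inKer_neg (h3 : W.a₃ = 0) (h6 : W.a₆ = 0) {P : W.Point} (hP : InKer A P) :
    InKer A (-P) := by
  have hW : H7Vieta.IsNodal W := ⟨h3, h6⟩
  rw [h7_inKer_iff] at hP ⊢
  exact H7Ker.inKer_neg hW hP

/-- The kernel of reduction is closed under subtraction. -/
theorem h7_inKer_sub (h3 : W.a₃ = 0) (h6 : W.a₆ = 0) (h1 : A.valuation W.a₁ ≤ 1)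
    (h2 : A.valuation W.a₂ ≤ 1) (h4 : A.valuation W.a₄ ≤ 1) {P Q : W.Point}
    (hP : InKer A P) (hQ : InKer A Q) : InKer A (P - Q) := by
  rw [sub_eq_add_neg]
  exact inKer_add h3 h6 h1 h2 h4 hP (h7_inKer_neg h3 h6 hQ)

/-- The kernel of reduction is closed under multiples. -/
theorem h7_inKer_nsmul (h3 : W.a₃ = 0) (h6 : W.a₆ = 0) (h1 : A.valuation W.a₁ ≤ 1)
    (h2 : A.valuation W.a₂ ≤ 1) (h4 : A.valuation W.a₄ ≤ 1) {P : W.Point}
    (hP : InKer A P) (n : ℕ) : InKer A (n • P) := by
  have hW : H7Vieta.IsNodal W := ⟨h3, h6⟩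
  rw [h7_inKer_iff] at hP ⊢
  exact (H7Ker.zc_nsmul hW h1 h2 h4 hP n).1

/-- [K2], general form: a nonzero point of the kernel is not killed by a unit. -/
theorem h7_nsmul_ne_zero (h3 : W.a₃ = 0) (h6 : W.a₆ = 0) (h1 : A.valuation W.a₁ ≤ 1)
    (h2 : A.valuation W.a₂ ≤ 1) (h4 : A.valuation W.a₄ ≤ 1) {n : ℕ}
    (hn : A.valuation (n : K) = 1) {P : W.Point} (hP : InKer A P) (hP0 : P ≠ 0) :
    n • P ≠ 0 := by
  have hW : H7Vieta.IsNodal W := ⟨h3, h6⟩
  rw [h7_inKer_iff] at hP
  exact H7Ker.nsmul_ne_zero_of_inKer hW h1 h2 h4 hP hP0 hn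

/-- [K2], the form used by the inertia argument: an affine point killed by a unit `n` has
integral abscissa. -/
theorem h7_val_le_one_of_nsmul_eq_zero (h3 : W.a₃ = 0) (h6 : W.a₆ = 0)
    (h1 : A.valuation W.a₁ ≤ 1) (h2 : A.valuation W.a₂ ≤ 1) (h4 : A.valuation W.a₄ ≤ 1)
    {n : ℕ} (hn : A.valuation (n : K) = 1) {x y : K} (h : W.Nonsingular x y)
    (h0 : n • Point.some x y h = 0) : A.valuation x ≤ 1 := by
  by_contra hx
  exact nsmul_ne_zero_of_inKer h3 h6 h1 h2 h4 hn h (not_le.1 hx) h0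

omit [DecidableEq K] in
/-- An affine point with integral abscissa has integral ordinate. -/
theorem h7_val_y_le_one (h3 : W.a₃ = 0) (h6 : W.a₆ = 0) (h1 : A.valuation W.a₁ ≤ 1)
    (h2 : A.valuation W.a₂ ≤ 1) (h4 : A.valuation W.a₄ ≤ 1) {x y : K}
    (h : W.Equation x y) (hx : A.valuation x ≤ 1) : A.valuation y ≤ 1 := by
  have hW : H7Vieta.IsNodal W := ⟨h3, h6⟩
  rw [ValuationSubring.valuation_le_one_iff] at h1 h2 h4 hx ⊢
  exact H7Ker.y_mem_of_x_mem A hW h1 h2 h4 h hx

omit [DecidableEq K] in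
/-- A natural number prime to the residue characteristic is a unit: if `v q < 1` for a prime
`q` and `q ∤ n`, then `v n = 1`. -/
theorem h7_val_natCast_eq_one {q n : ℕ} (hq : A.valuation (q : K) < 1)
    (hqn : Nat.Coprime q n) : A.valuation (n : K) = 1 := by
  have hle : A.valuation (n : K) ≤ 1 := H7Ker.v_natCast_le_one A.valuation n
  rcases lt_or_eq_of_le hle with hlt | heq
  · exfalso
    -- Bezout: `q u + n w = 1` in `ℤ`
    have hb := Nat.Coprime.isCoprime hqn
    obtain ⟨u, w, huw⟩ := hb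
    have e : ((u : ℤ) : K) * (q : K) + ((w : ℤ) : K) * (n : K) = 1 := by
      have := congrArg (Int.cast : ℤ → K) huw
      push_cast at this
      exact this
    have hu : A.valuation ((u : ℤ) : K) ≤ 1 := by
      rw [ValuationSubring.valuation_le_one_iff]
      exact intCast_mem A u
    have hw : A.valuation ((w : ℤ) : K) ≤ 1 := by
      rw [ValuationSubring.valuation_le_one_iff]
      exact intCast_mem A w
    have h1 : A.valuation (((u : ℤ) : K) * (q : K) + ((w : ℤ) : K) * (n : K)) < 1 := by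
      apply Valuation.map_add_lt
      · rw [map_mul]
        calc A.valuation ((u : ℤ) : K) * A.valuation (q : K)
            ≤ 1 * A.valuation (q : K) := by gcongr
          _ = A.valuation (q : K) := one_mul _
          _ < 1 := hq
      · rw [map_mul]
        calc A.valuation ((w : ℤ) : K) * A.valuation (n : K)
            ≤ 1 * A.valuation (n : K) := by gcongr
          _ = A.valuation (n : K) := one_mul _
          _ < 1 := hlt
    rw [e, map_one] at h1
    exact lt_irrefl _ h1
  · exact heq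

end Fermat.Agent.S13.L2
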