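import Fermat.Agent.S13.L2.H21_L2a
import Fermat.Agent.S13.L2.H7_K

/-!
# S13, package L2: deliverable (L2a), hypothesis-free (helper21)

`Fermat.Agent.S13.L2.unipotent : ∀ P, Asm.StL2a P`: for every valuation subring `A` of `Kbar`
over `2`, every `σ` in the inertia subgroup of `A` and every `x ∈ E[p]`:
`σ • (σ • x - x) = σ • x - x`.

Inputs: K2 (`nsmul_ne_zero_of_inKer`, helper7), `not_far_of_odd_nsmul` (helper20),
pairs 2-U / 2-N and the Frey arithmetic at `2` (helper21).
-/

set_option autoImplicit false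

open WeierstrassCurve WeierstrassCurve.Affine

namespace Fermat.Agent.S13.L2

/-- The kernel statement K2 over `Kbar`. -/
theorem h21_K2 : L2a.K2Statement :=
  fun _ _ h3 h6 h1 h2 h4 _ hn _ _ h hx => nsmul_ne_zero_of_inKer h3 h6 h1 h2 h4 hn h hx

/-- **Deliverable (L2a)**: inertia at `2` is unipotent on the `p`-torsion of the Frey curve. -/
theorem unipotent (P : FreyPackage) : Asm.StL2a P :=
  L2a.stL2a_of_K2 h21_K2 P

end Fermat.Agent.S13.L2
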