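import Mathlib
import Fermat.Agent.S05.H8_Pair

/-!
# S13 / L2 (helper8): the `x`-only pair property in ANY residue characteristic

Port of `Fermat/Agent/S05/H8_Pair.lean` to the nodal model with `a₁`:
`W : y² + a₁ x y = x³ + a₂ x² + a₄ x`, `cb = b₂ = a₁² + 4 a₂` a unit, `be = a₄`, `E = v be < 1`.
The `x`-only identities are

* `(x₁ - x₂)² (x(P+Q) + x(P-Q)) = 2 (x₁ x₂ + be) (x₁ + x₂) + cb x₁ x₂`
* `(x₁ - x₂)² x(P+Q) x(P-Q) = (x₁ x₂ - be)²`
* `x(2P) η² = (x² - be)²`, `η² = x (4 x² + cb x + 4 be)`.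

The only hypothesis on `2` is `v 2 ≤ 1` (automatic for a valuation subring in characteristic
zero), so the statements hold in residue characteristic `2` as well.
-/

set_option autoImplicit false

namespace Fermat.Agent.S13.L2.XOnly

open Fermat.Agent.S05

variable {K : Type*} [Field K] {Γ₀ : Type*} [LinearOrderedCommGroupWithZero Γ₀]
  (v : Valuation K Γ₀)

theorem two_mul_le (h2 : v 2 ≤ 1) (a : K) : v (2 * a) ≤ v a := by
  rw [map_mul]
  exact mul_le_of_le_one_left' h2

theorem four_mul_le (h2 : v 2 ≤ 1) (a : K) : v (4 * a) ≤ v a := by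
  have : (4 : K) * a = 2 * (2 * a) := by ring
  rw [this]
  exact le_trans (two_mul_le v h2 _) (two_mul_le v h2 _)

theorem unit_mul (cb a : K) (hc : v cb = 1) : v (cb * a) = v a := by
  rw [map_mul, hc, one_mul]

/-- (III) first point of depth zero, second of positive depth. -/
theorem pair_unit {cb be x₁ x₂ Tp Tm : K} {E : Γ₀}
    (hc : v cb = 1) (hbe : v be = E) (hE1 : E < 1) (h2 : v 2 ≤ 1)
    (hS : (x₁ - x₂) ^ 2 * (Tp + Tm) =
      2 * (x₁ * x₂ + be) * (x₁ + x₂) + cb * (x₁ * x₂))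
    (hP : (x₁ - x₂) ^ 2 * (Tp * Tm) = (x₁ * x₂ - be) ^ 2)
    (h1 : v x₁ = 1) (h2' : v x₂ < 1) :
    max (v Tp) E = max (v x₂) E ∧ max (v Tm) E = max (v x₂) E := by
  have hD : v (x₁ - x₂) = 1 := by
    rw [Valuation.map_sub_eq_of_lt_left v (by rw [h1]; exact h2'), h1]
  have hx12 : v (x₁ * x₂) = v x₂ := by rw [map_mul, h1, one_mul]
  have hsum : v (x₁ + x₂) ≤ 1 :=
    Valuation.map_add_le (v := v) (le_of_eq h1) (le_of_lt h2')
  set c := max (v x₂) E with hcdef
  have hxc : v x₂ ≤ c := le_max_left _ _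
  have hEc : E ≤ c := le_max_right _ _
  have hc1 : c ≤ 1 := max_le (le_of_lt h2') (le_of_lt hE1)
  -- v (sum) ≤ c
  have hvS : v (Tp + Tm) ≤ c := by
    have e := congrArg v hS
    rw [map_mul, map_pow, hD, one_pow, one_mul] at e
    rw [e]
    apply Valuation.map_add_le
    · rw [mul_assoc]
      refine le_trans (two_mul_le v h2 _) ?_
      rw [map_mul]
      calc v (x₁ * x₂ + be) * v (x₁ + x₂) ≤ c * 1 := by
            apply mul_le_mul'
            · exact Valuation.map_add_le (v := v) (by rw [hx12]; exact hxc)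
                (by rw [hbe]; exact hEc)
            · exact hsum
        _ = c := mul_one c
    · rw [unit_mul v _ _ hc, hx12]
      exact hxc
  have hvN : v (x₁ * x₂ - be) ≤ c :=
    Valuation.map_sub_le (v := v) (by rw [hx12]; exact hxc) (by rw [hbe]; exact hEc)
  have hvP : v (Tp * Tm) = v (x₁ * x₂ - be) ^ 2 := by
    have e := congrArg v hP
    rw [map_mul, map_pow, hD, one_pow, one_mul, map_pow] at e
    exact e
  rcases le_or_gt (v x₂) E with hle | hgt
  · -- c = E
    have hcE : c = E := max_eq_right hle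
    have := h8_quad_le v hvS (by rw [hvP]; exact pow_le_pow_left' hvN 2)
    rw [hcE] at this ⊢
    exact ⟨max_eq_right this.1, max_eq_right this.2⟩
  · have hcx : c = v x₂ := max_eq_left (le_of_lt hgt)
    have hN' : v (x₁ * x₂ - be) = v x₂ := by
      rw [Valuation.map_sub_eq_of_lt_left v (by rw [hx12, hbe]; exact hgt), hx12]
    rw [hN', ← hcx] at hvP
    have := h8_quad_eq v hvS hvP
    rw [this.1, this.2]
    exact ⟨max_eq_left hEc, max_eq_left hEc⟩

/-- (V) both points of the same positive depth, not deep. -/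
theorem pair_eq {cb be x₁ x₂ Tp Tm : K} {E : Γ₀}
    (hc : v cb = 1) (hbe : v be = E) (hE0 : E ≠ 0) (hE1 : E < 1) (h2 : v 2 ≤ 1)
    (hTp : v Tp ≤ 1) (hTm : v Tm ≤ 1)
    (hS : (x₁ - x₂) ^ 2 * (Tp + Tm) =
      2 * (x₁ * x₂ + be) * (x₁ + x₂) + cb * (x₁ * x₂))
    (hP : (x₁ - x₂) ^ 2 * (Tp * Tm) = (x₁ * x₂ - be) ^ 2)
    (h1 : E < v x₁) (h1' : v x₁ < 1) (h2' : v x₂ = v x₁) :
    (v Tp = 1 ∧ (max (v Tm) E = v x₁ ^ 2 ∨ max (v Tm) E = E ^ 2 / v x₁ ^ 2)) ∨
    (v Tm = 1 ∧ (max (v Tp) E = v x₁ ^ 2 ∨ max (v Tp) E = E ^ 2 / v x₁ ^ 2)) := by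
  have hEpos : 0 < E := zero_lt_iff.mpr hE0
  set c := v x₁ with hcdef
  have hcpos : 0 < c := lt_trans hEpos h1
  have hc0 : c ≠ 0 := ne_of_gt hcpos
  have hcc : c ^ 2 < c := h8_sq_lt hc0 h1'
  have hc2pos : 0 < c ^ 2 := pow_pos hcpos 2
  have hx12 : v (x₁ * x₂) = c ^ 2 := by rw [map_mul, h2', pow_two]
  -- v N_S = c ^ 2
  have hTB : v (cb * (x₁ * x₂)) = c ^ 2 := by
    rw [unit_mul v _ _ hc, hx12]
  have hTA : v (2 * (x₁ * x₂ + be) * (x₁ + x₂)) < c ^ 2 := by
    rw [mul_assoc]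
    refine lt_of_le_of_lt (two_mul_le v h2 _) ?_
    rw [map_mul, pow_two]
    have e1 : v (x₁ * x₂ + be) < c :=
      Valuation.map_add_lt v (by rw [hx12]; exact hcc) (by rw [hbe]; exact h1)
    have e2 : v (x₁ + x₂) ≤ c :=
      Valuation.map_add_le (v := v) le_rfl (le_of_eq h2')
    calc v (x₁ * x₂ + be) * v (x₁ + x₂) ≤ v (x₁ * x₂ + be) * c := by gcongr
      _ < c * c := mul_lt_mul_of_pos_right e1 hcpos
  have hNS : v (2 * (x₁ * x₂ + be) * (x₁ + x₂) + cb * (x₁ * x₂)) = c ^ 2 := by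
    rw [Valuation.map_add_eq_of_lt_right v (by rw [hTB]; exact hTA), hTB]
  have hD : v (x₁ - x₂) ≤ c := Valuation.map_sub_le (v := v) le_rfl (le_of_eq h2')
  have hD2 : v (x₁ - x₂) ^ 2 ≤ c ^ 2 := pow_le_pow_left' hD 2
  have eS := congrArg v hS
  rw [map_mul, map_pow, hNS] at eS
  have hS1 : 1 ≤ v (Tp + Tm) := h8_one_le_of_mul hD2 (ne_of_gt hc2pos) eS
  have hS1' : v (Tp + Tm) = 1 :=
    le_antisymm (Valuation.map_add_le (v := v) hTp hTm) hS1
  rw [hS1', mul_one] at eS
  -- now v D = c ^ 2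
  have eP := congrArg v hP
  rw [map_mul, map_pow, eS, map_pow] at eP
  -- eP : c ^ 2 * v (Tp * Tm) = v (x₁ * x₂ - be) ^ 2
  have hE2 : E ^ 2 < E := h8_sq_lt hE0 hE1
  rcases lt_trichotomy (c ^ 2) E with hlt | heq | hgt
  · -- c² < E : v (x₁x₂ - be) = E, v Π = E² / c²
    have hN : v (x₁ * x₂ - be) = E := by
      rw [Valuation.map_sub_eq_of_lt_right v (by rw [hx12, hbe]; exact hlt), hbe]
    rw [hN] at eP
    have hPi : v (Tp * Tm) = 1 * (E ^ 2 / c ^ 2) := by
      rw [one_mul, eq_div_iff (ne_of_gt hc2pos), mul_comm]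
      exact eP
    have hh : E ^ 2 / c ^ 2 < 1 := by
      rw [div_lt_one₀ hc2pos]
      exact pow_lt_pow_left₀ h1 (le_of_lt hEpos) two_ne_zero
    have hmax : max (E ^ 2 / c ^ 2) E = E ^ 2 / c ^ 2 := by
      apply max_eq_left
      rw [le_div_iff₀ hc2pos, pow_two E]
      exact mul_le_mul' le_rfl (le_of_lt hlt)
    rcases h8_quad_split v hS1' hPi hh with ⟨a1, a2⟩ | ⟨a1, a2⟩
    · left
      exact ⟨a1, Or.inr (by rw [a2, hmax])⟩
    · right
      exact ⟨a2, Or.inr (by rw [a1, hmax])⟩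
  · -- c² = E : v Π ≤ E
    have hN : v (x₁ * x₂ - be) ≤ E :=
      Valuation.map_sub_le (v := v) (by rw [hx12, heq]) (le_of_eq hbe)
    have hPi : v (Tp * Tm) ≤ 1 * E := by
      rw [one_mul]
      have : c ^ 2 * v (Tp * Tm) ≤ c ^ 2 * E := by
        rw [eP, heq, pow_two]
        exact mul_le_mul' hN hN
      exact le_of_mul_le_mul_left this hc2pos
    rcases h8_quad_split_le v hS1' hPi hE1 with ⟨a1, a2⟩ | ⟨a1, a2⟩
    · left
      exact ⟨a1, Or.inl (by rw [max_eq_right a2, heq])⟩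
    · right
      exact ⟨a2, Or.inl (by rw [max_eq_right a1, heq])⟩
  · -- c² > E : v (x₁x₂ - be) = c², v Π = c²
    have hN : v (x₁ * x₂ - be) = c ^ 2 := by
      rw [Valuation.map_sub_eq_of_lt_left v (by rw [hx12, hbe]; exact hgt), hx12]
    rw [hN] at eP
    have hPi : v (Tp * Tm) = 1 * c ^ 2 := by
      rw [one_mul]
      have : c ^ 2 * v (Tp * Tm) = c ^ 2 * c ^ 2 := by rw [eP, pow_two]
      exact mul_left_cancel₀ (ne_of_gt hc2pos) this
    have hh : c ^ 2 < 1 := lt_trans hcc h1'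
    have hmax : max (c ^ 2) E = c ^ 2 := max_eq_left (le_of_lt hgt)
    rcases h8_quad_split v hS1' hPi hh with ⟨a1, a2⟩ | ⟨a1, a2⟩
    · left
      exact ⟨a1, Or.inl (by rw [a2, hmax])⟩
    · right
      exact ⟨a2, Or.inl (by rw [a1, hmax])⟩

/-- Corollary of (V) used for the inertia argument: one of `P + Q`, `P - Q` is a unit point. -/
theorem pair_eq_unit {cb be x₁ x₂ Tp Tm : K}
    (hc : v cb = 1) (hbe0 : be ≠ 0) (hbe1 : v be < 1) (h2 : v 2 ≤ 1)
    (hTp : v Tp ≤ 1) (hTm : v Tm ≤ 1)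
    (hS : (x₁ - x₂) ^ 2 * (Tp + Tm) =
      2 * (x₁ * x₂ + be) * (x₁ + x₂) + cb * (x₁ * x₂))
    (hP : (x₁ - x₂) ^ 2 * (Tp * Tm) = (x₁ * x₂ - be) ^ 2)
    (h1 : v be < v x₁) (h1' : v x₁ < 1) (h2' : v x₂ = v x₁) :
    v Tp = 1 ∨ v Tm = 1 := by
  rcases pair_eq v hc rfl ((map_ne_zero v).mpr hbe0) hbe1 h2 hTp hTm hS hP h1 h1' h2' with
    h | h
  · exact Or.inl h.1
  · exact Or.inr h.1

/-- (IV) first point shallower than the second, both of positive depth. -/
theorem pair_lt {cb be x₁ x₂ Tp Tm : K} {E : Γ₀}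
    (hc : v cb = 1) (hbe : v be = E) (hE0 : E ≠ 0) (hE1 : E < 1) (h2 : v 2 ≤ 1)
    (hS : (x₁ - x₂) ^ 2 * (Tp + Tm) =
      2 * (x₁ * x₂ + be) * (x₁ + x₂) + cb * (x₁ * x₂))
    (hP : (x₁ - x₂) ^ 2 * (Tp * Tm) = (x₁ * x₂ - be) ^ 2)
    (h1 : E < v x₁) (h1' : v x₁ < 1) (h2' : v x₂ < v x₁) :
    (max (v Tp) E = max (v x₂) E / v x₁ ∧
      (max (v Tm) E = v x₁ * max (v x₂) E ∨ max (v Tm) E = E ^ 2 / (v x₁ * max (v x₂) E))) ∨
    (max (v Tm) E = max (v x₂) E / v x₁ ∧
      (max (v Tp) E = v x₁ * max (v x₂) E ∨ max (v Tp) E = E ^ 2 / (v x₁ * max (v x₂) E))) := by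
  have hEpos : 0 < E := zero_lt_iff.mpr hE0
  set a := v x₁ with ha
  set b := v x₂ with hb
  have hapos : 0 < a := lt_trans hEpos h1
  have ha0 : a ≠ 0 := ne_of_gt hapos
  have ha2pos : 0 < a ^ 2 := pow_pos hapos 2
  have ha2 : a ^ 2 ≠ 0 := ne_of_gt ha2pos
  have haa : a ^ 2 < a := h8_sq_lt ha0 h1'
  have hD : v (x₁ - x₂) = a := Valuation.map_sub_eq_of_lt_left v h2'
  have hsum : v (x₁ + x₂) = a := Valuation.map_add_eq_of_lt_left v h2'
  have hx12 : v (x₁ * x₂) = a * b := map_mul v x₁ x₂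
  have eS := congrArg v hS
  rw [map_mul, map_pow, hD] at eS
  have eP := congrArg v hP
  rw [map_mul, map_pow, hD, map_pow] at eP
  have hTB : v (cb * (x₁ * x₂)) = a * b := by
    rw [unit_mul v _ _ hc, hx12]
  have hTA : v (2 * (x₁ * x₂ + be) * (x₁ + x₂)) ≤ v (x₁ * x₂ + be) * a := by
    rw [mul_assoc]
    refine le_trans (two_mul_le v h2 _) ?_
    rw [map_mul, hsum]
  have hEa : E / a ≠ 0 := div_ne_zero hE0 ha0
  rcases le_or_gt b E with hle | hgt
  · -- deep second point: c = E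
    have hcm : max b E = E := max_eq_right hle
    rw [hcm]
    have hab : a * b < E :=
      calc a * b ≤ a * E := by gcongr
        _ < 1 * E := mul_lt_mul_of_pos_right h1' hEpos
        _ = E := one_mul E
    have hNm : v (x₁ * x₂ - be) = E := by
      rw [Valuation.map_sub_eq_of_lt_right v (by rw [hx12, hbe]; exact hab), hbe]
    have hNp : v (x₁ * x₂ + be) = E := by
      rw [Valuation.map_add_eq_of_lt_right v (by rw [hx12, hbe]; exact hab), hbe]
    have hNS : v (2 * (x₁ * x₂ + be) * (x₁ + x₂) + cb * (x₁ * x₂)) ≤ E * a := by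
      apply Valuation.map_add_le
      · refine le_trans hTA ?_
        rw [hNp]
      · rw [hTB, mul_comm]
        gcongr
    rw [← eS] at hNS
    have hvS : v (Tp + Tm) ≤ E / a := by
      rw [le_div_iff₀ hapos]
      have : a * (v (Tp + Tm) * a) ≤ a * E := by
        calc a * (v (Tp + Tm) * a) = a ^ 2 * v (Tp + Tm) := by rw [pow_two]; ac_rfl
          _ ≤ E * a := hNS
          _ = a * E := mul_comm _ _
      exact le_of_mul_le_mul_left this hapos
    have hvP : v (Tp * Tm) = (E / a) ^ 2 := by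
      rw [hNm] at eP
      rw [div_pow, eq_div_iff ha2, mul_comm]
      exact eP
    obtain ⟨e1, e2⟩ := h8_quad_eq v hvS hvP
    have hmax : max (E / a) E = E / a := by
      apply max_eq_left
      rw [le_div_iff₀ hapos]
      calc E * a ≤ E * 1 := by gcongr
        _ = E := mul_one E
    left
    refine ⟨by rw [e1, hmax], Or.inr ?_⟩
    rw [e2, hmax]
    field_simp
  · -- c = b
    have hcm : max b E = b := max_eq_left (le_of_lt hgt)
    rw [hcm]
    have hbpos : 0 < b := lt_trans hEpos hgt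
    have hb0 : b ≠ 0 := ne_of_gt hbpos
    have habb : a * b < b :=
      calc a * b < 1 * b := mul_lt_mul_of_pos_right h1' hbpos
        _ = b := one_mul b
    have hNp : v (x₁ * x₂ + be) < b :=
      Valuation.map_add_lt v (by rw [hx12]; exact habb) (by rw [hbe]; exact hgt)
    have hTA' : v (2 * (x₁ * x₂ + be) * (x₁ + x₂)) < a * b := by
      refine lt_of_le_of_lt hTA ?_
      rw [mul_comm a b]
      exact mul_lt_mul_of_pos_right hNp hapos
    have hNS : v (2 * (x₁ * x₂ + be) * (x₁ + x₂) + cb * (x₁ * x₂)) = a * b := by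
      rw [Valuation.map_add_eq_of_lt_right v (by rw [hTB]; exact hTA'), hTB]
    rw [hNS] at eS
    have hvS : v (Tp + Tm) = b / a := by
      rw [eq_div_iff ha0]
      have : a * (v (Tp + Tm) * a) = a * b := by
        calc a * (v (Tp + Tm) * a) = a ^ 2 * v (Tp + Tm) := by rw [pow_two]; ac_rfl
          _ = a * b := eS
      exact mul_left_cancel₀ ha0 this
    have hba : b < b / a := by
      rw [lt_div_iff₀ hapos, mul_comm]
      exact habb
    have hmaxba : max (b / a) E = b / a := max_eq_left (le_of_lt (lt_trans hgt hba))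
    rcases lt_trichotomy (a * b) E with hlt | heq | hgt'
    · -- a b < E
      have hNm : v (x₁ * x₂ - be) = E := by
        rw [Valuation.map_sub_eq_of_lt_right v (by rw [hx12, hbe]; exact hlt), hbe]
      rw [hNm] at eP
      have hvP : v (Tp * Tm) = b / a * (E ^ 2 / (a * b)) := by
        have : a ^ 2 * v (Tp * Tm) = a ^ 2 * (b / a * (E ^ 2 / (a * b))) := by
          rw [eP]
          field_simp
        exact mul_left_cancel₀ ha2 this
      have hh : E ^ 2 / (a * b) < b / a := by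
        rw [div_lt_div_iff₀ (mul_pos hapos hbpos) hapos]
        calc E ^ 2 * a < b ^ 2 * a := by
              apply mul_lt_mul_of_pos_right _ hapos
              exact pow_lt_pow_left₀ hgt (le_of_lt hEpos) two_ne_zero
          _ = b * (a * b) := by rw [pow_two]; ac_rfl
      have hmax : max (E ^ 2 / (a * b)) E = E ^ 2 / (a * b) := by
        apply max_eq_left
        rw [le_div_iff₀ (mul_pos hapos hbpos), pow_two]
        exact mul_le_mul' le_rfl (le_of_lt hlt)
      rcases h8_quad_split v hvS hvP hh with ⟨e1, e2⟩ | ⟨e1, e2⟩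
      · left
        exact ⟨by rw [e1, hmaxba], Or.inr (by rw [e2, hmax])⟩
      · right
        exact ⟨by rw [e2, hmaxba], Or.inr (by rw [e1, hmax])⟩
    · -- a b = E
      have hNm : v (x₁ * x₂ - be) ≤ E :=
        Valuation.map_sub_le (v := v) (by rw [hx12, heq]) (le_of_eq hbe)
      have hvP : v (Tp * Tm) ≤ b / a * E := by
        have : a ^ 2 * v (Tp * Tm) ≤ a ^ 2 * (b / a * E) := by
          rw [eP]
          calc v (x₁ * x₂ - be) ^ 2 ≤ E ^ 2 := pow_le_pow_left' hNm 2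
            _ = a ^ 2 * (b / a * E) := by
              rw [← heq]
              field_simp
        exact le_of_mul_le_mul_left this ha2pos
      have hh : E < b / a := lt_trans hgt hba
      rcases h8_quad_split_le v hvS hvP hh with ⟨e1, e2⟩ | ⟨e1, e2⟩
      · left
        exact ⟨by rw [e1, hmaxba], Or.inl (by rw [max_eq_right e2, heq])⟩
      · right
        exact ⟨by rw [e2, hmaxba], Or.inl (by rw [max_eq_right e1, heq])⟩
    · -- a b > E
      have hNm : v (x₁ * x₂ - be) = a * b := by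
        rw [Valuation.map_sub_eq_of_lt_left v (by rw [hx12, hbe]; exact hgt'), hx12]
      rw [hNm] at eP
      have hvP : v (Tp * Tm) = b / a * (a * b) := by
        have : a ^ 2 * v (Tp * Tm) = a ^ 2 * (b / a * (a * b)) := by
          rw [eP]
          field_simp
        exact mul_left_cancel₀ ha2 this
      have hh : a * b < b / a := lt_trans habb hba
      have hmax : max (a * b) E = a * b := max_eq_left (le_of_lt hgt')
      rcases h8_quad_split v hvS hvP hh with ⟨e1, e2⟩ | ⟨e1, e2⟩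
      · left
        exact ⟨by rw [e1, hmaxba], Or.inl (by rw [e2, hmax])⟩
      · right
        exact ⟨by rw [e2, hmaxba], Or.inl (by rw [e1, hmax])⟩

/-- The pair property (from (I)-(V) and the symmetry `x₁ ↔ x₂`). -/
theorem pair {cb be x₁ x₂ Tp Tm : K} {E : Γ₀}
    (hc : v cb = 1) (hbe : v be = E) (hE0 : E ≠ 0) (hE1 : E < 1) (h2 : v 2 ≤ 1)
    (h1 : v x₁ ≤ 1) (h2' : v x₂ ≤ 1) (hTp : v Tp ≤ 1) (hTm : v Tm ≤ 1)
    (hS : (x₁ - x₂) ^ 2 * (Tp + Tm) =
      2 * (x₁ * x₂ + be) * (x₁ + x₂) + cb * (x₁ * x₂))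
    (hP : (x₁ - x₂) ^ 2 * (Tp * Tm) = (x₁ * x₂ - be) ^ 2) :
    H8Pair E (max (v Tp) E) (max (v Tm) E) (max (v x₁) E) (max (v x₂) E) := by
  have hEpos : 0 < E := zero_lt_iff.mpr hE0
  have hm1 : max (1 : Γ₀) E = 1 := max_eq_left (le_of_lt hE1)
  have hd0 : max (v x₁) E ≠ 0 := ne_of_gt (lt_of_lt_of_le hEpos (le_max_right _ _))
  have hc0 : max (v x₂) E ≠ 0 := ne_of_gt (lt_of_lt_of_le hEpos (le_max_right _ _))
  -- symmetric versions of the identities
  have hS' : (x₂ - x₁) ^ 2 * (Tp + Tm) =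
      2 * (x₂ * x₁ + be) * (x₂ + x₁) + cb * (x₂ * x₁) := by linear_combination hS
  have hP' : (x₂ - x₁) ^ 2 * (Tp * Tm) = (x₂ * x₁ - be) ^ 2 := by linear_combination hP
  by_cases hdeep : v x₁ ≤ E ∧ v x₂ ≤ E
  · -- (I)
    obtain ⟨e1, e2⟩ := h8_pair_deep v hbe hE0 hE1 hTp hTm hP hdeep.1 hdeep.2
    rw [e1, e2, hm1, max_eq_right hdeep.1, max_eq_right hdeep.2]
    left
    refine ⟨⟨-1, Or.inl ?_⟩, ⟨0, Or.inl ?_⟩⟩
    · rw [← pow_two, zpow_neg, zpow_one, mul_inv_cancel₀ (pow_ne_zero 2 hE0)]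
    · rw [zpow_zero, mul_one, div_self hE0]
  rcases eq_or_lt_of_le h1 with ha1 | ha1
  · rcases eq_or_lt_of_le h2' with hb1 | hb1
    · -- (II)
      obtain ⟨e1, e2⟩ := h8_pair_unit_unit v (by rw [hbe]; exact hE1) hTp hTm hP ha1 hb1
      rw [e1, e2, ha1, hb1, hm1]
      left
      exact ⟨H8Rel.of_eq (by rw [mul_one]), H8Rel.of_eq (by rw [div_one])⟩
    · -- (III)
      obtain ⟨e1, e2⟩ := pair_unit v hc hbe hE1 h2 hS hP ha1 hb1
      rw [e1, e2, ha1, hm1]
      left
      refine ⟨H8Rel.of_eq (by rw [one_mul]), ?_⟩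
      have := h8_rel_inv (E := E) hc0 (one_ne_zero)
      rw [div_one] at this
      exact this
  rcases eq_or_lt_of_le h2' with hb1 | hb1
  · -- (III) swapped
    obtain ⟨e1, e2⟩ := pair_unit v hc hbe hE1 h2 hS' hP' hb1 ha1
    rw [e1, e2, hb1, hm1]
    left
    exact ⟨H8Rel.of_eq (by rw [mul_one]), H8Rel.of_eq (by rw [div_one])⟩
  -- both of positive depth, not both deep
  rcases lt_trichotomy (v x₂) (v x₁) with hlt | heq | hgt
  · -- (IV)
    have haE : E < v x₁ := by
      by_contra hcon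
      rw [not_lt] at hcon
      exact hdeep ⟨hcon, le_trans (le_of_lt hlt) hcon⟩
    have hd : max (v x₁) E = v x₁ := max_eq_left (le_of_lt haE)
    have ha0 : v x₁ ≠ 0 := ne_of_gt (lt_trans hEpos haE)
    rw [hd]
    rcases pair_lt v hc hbe hE0 hE1 h2 hS hP haE ha1 hlt with ⟨e1, e2⟩ | ⟨e1, e2⟩
    · right
      refine ⟨?_, ?_⟩
      · rw [e1]
        exact h8_rel_inv hc0 ha0
      · rcases e2 with e2 | e2
        · exact H8Rel.of_eq e2
        · exact h8_rel_div (mul_ne_zero ha0 hc0) e2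
    · left
      refine ⟨?_, ?_⟩
      · rcases e2 with e2 | e2
        · exact H8Rel.of_eq e2
        · exact h8_rel_div (mul_ne_zero ha0 hc0) e2
      · rw [e1]
        exact h8_rel_inv hc0 ha0
  · -- (V)
    have haE : E < v x₁ := by
      by_contra hcon
      rw [not_lt] at hcon
      exact hdeep ⟨hcon, by rw [heq]; exact hcon⟩
    have hd : max (v x₁) E = v x₁ := max_eq_left (le_of_lt haE)
    have ha0 : v x₁ ≠ 0 := ne_of_gt (lt_trans hEpos haE)
    rw [heq, hd]
    have hsq : v x₁ * v x₁ = v x₁ ^ 2 := (pow_two _).symm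
    rcases pair_eq v hc hbe hE0 hE1 h2 hTp hTm hS hP haE ha1 heq with ⟨e1, e2⟩ | ⟨e1, e2⟩
    · right
      refine ⟨?_, ?_⟩
      · rw [e1, hm1, div_self ha0]
        exact H8Rel.refl E 1
      · rw [hsq]
        rcases e2 with e2 | e2
        · exact H8Rel.of_eq e2
        · exact h8_rel_div (pow_ne_zero 2 ha0) e2
    · left
      refine ⟨?_, ?_⟩
      · rw [hsq]
        rcases e2 with e2 | e2
        · exact H8Rel.of_eq e2
        · exact h8_rel_div (pow_ne_zero 2 ha0) e2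
      · rw [e1, hm1, div_self ha0]
        exact H8Rel.refl E 1
  · -- (IV) swapped
    have hbE : E < v x₂ := by
      by_contra hcon
      rw [not_lt] at hcon
      exact hdeep ⟨le_trans (le_of_lt hgt) hcon, hcon⟩
    have hcm : max (v x₂) E = v x₂ := max_eq_left (le_of_lt hbE)
    have hb0 : v x₂ ≠ 0 := ne_of_gt (lt_trans hEpos hbE)
    rw [hcm]
    rcases pair_lt v hc hbe hE0 hE1 h2 hS' hP' hbE hb1 hgt with ⟨e1, e2⟩ | ⟨e1, e2⟩
    · right
      refine ⟨H8Rel.of_eq e1, ?_⟩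
      rw [mul_comm]
      rcases e2 with e2 | e2
      · exact H8Rel.of_eq e2
      · exact h8_rel_div (mul_ne_zero hb0 hd0) e2
    · left
      refine ⟨?_, H8Rel.of_eq e1⟩
      rw [mul_comm]
      rcases e2 with e2 | e2
      · exact H8Rel.of_eq e2
      · exact h8_rel_div (mul_ne_zero hb0 hd0) e2

/-- Depth of the double. `η = 2 y + a₁ x`. -/
theorem dbl_depth {cb be x η T : K} {E : Γ₀}
    (hc : v cb = 1) (hbe : v be = E) (hE0 : E ≠ 0) (hE1 : E < 1) (h2 : v 2 ≤ 1)
    (hx1 : v x ≤ 1) (hT : v T ≤ 1)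
    (hY : η ^ 2 = x * (4 * x ^ 2 + cb * x + 4 * be))
    (hD : T * η ^ 2 = (x ^ 2 - be) ^ 2) :
    H8Rel E (max (v T) E) (max (v x) E ^ 2) := by
  have hEpos : 0 < E := zero_lt_iff.mpr hE0
  have hEE : E ^ 2 < E := h8_sq_lt hE0 hE1
  have hm1 : max (1 : Γ₀) E = 1 := max_eq_left (le_of_lt hE1)
  have eD := congrArg v hD
  rw [map_mul, map_pow (f := v) (x ^ 2 - be), hY, map_mul] at eD
  -- eD : v T * (v x * v (4 * x ^ 2 + cb * x + 4 * be)) = v (x ^ 2 - be) ^ 2
  rcases eq_or_lt_of_le hx1 with hx | hx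
  · -- v x = 1
    have hN : v (x ^ 2 - be) = 1 := by
      have hx2 : v (x ^ 2) = 1 := by rw [map_pow, hx, one_pow]
      rw [Valuation.map_sub_eq_of_lt_left v (by rw [hx2, hbe]; exact hE1), hx2]
    have hQ : v (4 * x ^ 2 + cb * x + 4 * be) ≤ 1 := by
      apply Valuation.map_add_le
      · apply Valuation.map_add_le
        · refine le_trans (four_mul_le v h2 _) ?_
          rw [map_pow, hx, one_pow]
        · rw [map_mul, hc, hx, one_mul]
      · refine le_trans (four_mul_le v h2 _) ?_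
        rw [hbe]; exact le_of_lt hE1
    rw [hN, one_pow, hx, one_mul, mul_comm] at eD
    have h1T : 1 ≤ v T := h8_one_le_of_mul hQ one_ne_zero eD
    have hT1 : v T = 1 := le_antisymm hT h1T
    rw [hT1, hx, hm1, one_pow]
    exact H8Rel.refl E 1
  rcases le_or_gt (v x) E with hle | hgt
  · -- v x ≤ E
    have hx2 : v (x ^ 2) ≤ E ^ 2 := by
      rw [map_pow]
      exact pow_le_pow_left' hle 2
    have hN : v (x ^ 2 - be) = E := by
      rw [Valuation.map_sub_eq_of_lt_right v (by rw [hbe]; exact lt_of_le_of_lt hx2 hEE), hbe]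
    have hQ : v (4 * x ^ 2 + cb * x + 4 * be) ≤ E := by
      apply Valuation.map_add_le
      · apply Valuation.map_add_le
        · refine le_trans (four_mul_le v h2 _) ?_
          exact le_trans hx2 (le_of_lt hEE)
        · rw [map_mul, hc, one_mul]; exact hle
      · refine le_trans (four_mul_le v h2 _) ?_
        rw [hbe]
    have hyy : v x * v (4 * x ^ 2 + cb * x + 4 * be) ≤ E ^ 2 := by
      rw [pow_two E]
      exact mul_le_mul' hle hQ
    rw [hN, mul_comm] at eD
    have h1T : 1 ≤ v T := h8_one_le_of_mul hyy (pow_ne_zero 2 hE0) eD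
    have hT1 : v T = 1 := le_antisymm hT h1T
    rw [hT1, hm1, max_eq_right hle]
    refine ⟨-1, Or.inl ?_⟩
    rw [zpow_neg, zpow_one, mul_inv_cancel₀ (pow_ne_zero 2 hE0)]
  · -- E < v x < 1
    set c := v x with hcdef
    have hcpos : 0 < c := lt_trans hEpos hgt
    have hc0 : c ≠ 0 := ne_of_gt hcpos
    have hcc : c ^ 2 < c := h8_sq_lt hc0 hx
    have hc2pos : 0 < c ^ 2 := pow_pos hcpos 2
    have hmc : max c E = c := max_eq_left (le_of_lt hgt)
    have hQ : v (4 * x ^ 2 + cb * x + 4 * be) = c := by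
      have e1 : v (cb * x) = c := by rw [map_mul, hc, one_mul]
      have e0 : v (4 * x ^ 2) < c := by
        refine lt_of_le_of_lt (four_mul_le v h2 _) ?_
        rw [map_pow]; exact hcc
      have e2 : v (4 * x ^ 2 + cb * x) = c := by
        rw [Valuation.map_add_eq_of_lt_right v (by rw [e1]; exact e0), e1]
      have e3 : v (4 * be) < c := by
        refine lt_of_le_of_lt (four_mul_le v h2 _) ?_
        rw [hbe]; exact hgt
      rw [Valuation.map_add_eq_of_lt_left v (by rw [e2]; exact e3), e2]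
    rw [hQ] at eD
    rw [hmc]
    have hx2 : v (x ^ 2) = c ^ 2 := map_pow v x 2
    rcases lt_trichotomy (c ^ 2) E with hlt | heq | hgt'
    · have hN : v (x ^ 2 - be) = E := by
        rw [Valuation.map_sub_eq_of_lt_right v (by rw [hx2, hbe]; exact hlt), hbe]
      rw [hN] at eD
      have hvT : v T = E ^ 2 / c ^ 2 := by
        rw [eq_div_iff (ne_of_gt hc2pos), pow_two c]
        exact eD
      have hmax : max (E ^ 2 / c ^ 2) E = E ^ 2 / c ^ 2 := by
        apply max_eq_left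
        rw [le_div_iff₀ hc2pos, pow_two E]
        exact mul_le_mul' le_rfl (le_of_lt hlt)
      rw [hvT, hmax]
      exact h8_rel_div (ne_of_gt hc2pos) rfl
    · have hN : v (x ^ 2 - be) ≤ E :=
        Valuation.map_sub_le (v := v) (by rw [hx2, heq]) (le_of_eq hbe)
      have hvT : v T ≤ E := by
        have : c ^ 2 * v T ≤ c ^ 2 * E := by
          calc c ^ 2 * v T = v T * (c * c) := by rw [pow_two, mul_comm]
            _ = v (x ^ 2 - be) ^ 2 := eD
            _ ≤ E ^ 2 := pow_le_pow_left' hN 2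
            _ = c ^ 2 * E := by rw [heq, pow_two]
        exact le_of_mul_le_mul_left this hc2pos
      rw [max_eq_right hvT, heq]
      exact H8Rel.refl E E
    · have hN : v (x ^ 2 - be) = c ^ 2 := by
        rw [Valuation.map_sub_eq_of_lt_left v (by rw [hx2, hbe]; exact hgt'), hx2]
      rw [hN] at eD
      have hvT : v T = c ^ 2 := by
        have : c ^ 2 * v T = c ^ 2 * c ^ 2 := by
          calc c ^ 2 * v T = v T * (c * c) := by rw [pow_two, mul_comm]
            _ = (c ^ 2) ^ 2 := eD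
            _ = c ^ 2 * c ^ 2 := pow_two _
        exact mul_left_cancel₀ (ne_of_gt hc2pos) this
      rw [hvT, max_eq_left (le_of_lt hgt')]
      exact H8Rel.refl E _

end Fermat.Agent.S13.L2.XOnly
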