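import Mathlib
import Fermat.Agent.S05.H8_Points

/-!
# S13 / L2 (helper8): `x`-only addition, subtraction and duplication on a general Weierstrass curve

`η(P) = 2 y + a₁ x + a₃`.  For a general Weierstrass curve over a field with `2 ≠ 0`:

* `4 (x₁ - x₂)² x(P ± Q) = (η₁ ∓ η₂)² - (b₂ + 4 x₁ + 4 x₂) (x₁ - x₂)²`
* `(x₁ - x₂)² (x(P+Q) + x(P-Q)) = 2 x₁ x₂ (x₁ + x₂) + b₂ x₁ x₂ + b₄ (x₁ + x₂) + b₆`
* `(x₁ - x₂)² x(P+Q) x(P-Q) = x₁² x₂² - b₄ x₁ x₂ - b₆ (x₁ + x₂) - b₈`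
* `x(2P) η² = x⁴ - b₄ x² - 2 b₆ x - b₈`

and their specialisations to the nodal model `a₃ = a₆ = 0` (`b₄ = 2 a₄`, `b₆ = 0`, `b₈ = - a₄²`).
The coordinate functions `h8xc`, `h8yc` and the torsion bookkeeping are those of
`Fermat/Agent/S05/H8_Points.lean` (which are model independent).
-/

set_option autoImplicit false
set_option linter.unusedSectionVars false

open WeierstrassCurve WeierstrassCurve.Affine

namespace Fermat.Agent.S13.L2.XOnly

open Fermat.Agent.S05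

variable {K : Type*} [Field K] [DecidableEq K]

/-- `η = 2 y + a₁ x + a₃` (junk value `0` at the origin). -/
def etac (W : Affine K) : W.Point → K
  | .zero => 0
  | .some x y _ => 2 * y + W.a₁ * x + W.a₃

variable {W : Affine K}

theorem etac_some {x y : K} (h : W.Nonsingular x y) :
    etac W (Point.some x y h) = 2 * y + W.a₁ * x + W.a₃ := rfl

theorem etac_eq {P : W.Point} (hP : P ≠ 0) :
    etac W P = 2 * h8yc W P + W.a₁ * h8xc W P + W.a₃ := by
  cases P with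
  | zero => exact absurd rfl hP
  | some x y h => rfl

theorem etac_neg (P : W.Point) : etac W (-P) = - etac W P := by
  cases P with
  | zero => simp [etac, ← Point.zero_def]
  | some x y h =>
    simp only [Point.neg_some, etac_some, negY]
    ring

theorem etac_sq {P : W.Point} (hP : P ≠ 0) :
    etac W P ^ 2 =
      4 * h8xc W P ^ 3 + W.b₂ * h8xc W P ^ 2 + 2 * W.b₄ * h8xc W P + W.b₆ := by
  cases P with
  | zero => exact absurd rfl hP
  | some x y h =>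
    have heq := (equation_iff x y).1 h.1
    simp only [etac_some, h8xc_some, b₂, b₄, b₆]
    linear_combination 4 * heq

/-- The curve equation for an affine point. -/
theorem curve_eq {P : W.Point} (hP : P ≠ 0) :
    h8yc W P ^ 2 + W.a₁ * h8xc W P * h8yc W P + W.a₃ * h8yc W P =
      h8xc W P ^ 3 + W.a₂ * h8xc W P ^ 2 + W.a₄ * h8xc W P + W.a₆ := by
  cases P with
  | zero => exact absurd rfl hP
  | some x y h => exact (equation_iff x y).1 h.1

/-- Addition formula in the `(x, η)` coordinates. -/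
theorem xadd {P Q : W.Point} (hP : P ≠ 0) (hQ : Q ≠ 0) (hX : h8xc W P ≠ h8xc W Q) :
    P + Q ≠ 0 ∧ 4 * (h8xc W P - h8xc W Q) ^ 2 * h8xc W (P + Q) =
      (etac W P - etac W Q) ^ 2 -
        (W.b₂ + 4 * h8xc W P + 4 * h8xc W Q) * (h8xc W P - h8xc W Q) ^ 2 := by
  cases P with
  | zero => exact absurd rfl hP
  | some x₁ y₁ h₁ =>
  cases Q with
  | zero => exact absurd rfl hQ
  | some x₂ y₂ h₂ =>
    have hx : x₁ ≠ x₂ := by
      intro h
      apply hX
      simp only [h8xc_some, h]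
    rw [Point.add_of_X_ne hx]
    refine ⟨Point.some_ne_zero _, ?_⟩
    simp only [h8xc_some, etac_some, addX, b₂]
    have hd : x₁ - x₂ ≠ 0 := sub_ne_zero.2 hx
    have hℓ : W.slope x₁ x₂ y₁ y₂ * (x₁ - x₂) = y₁ - y₂ := by
      rw [slope_of_X_ne hx]
      field_simp
    generalize W.slope x₁ x₂ y₁ y₂ = ℓ at hℓ
    linear_combination (4 * (ℓ * (x₁ - x₂) + (y₁ - y₂)) + 4 * W.a₁ * (x₁ - x₂)) * hℓ

/-- Subtraction formula in the `(x, η)` coordinates. -/
theorem xsub {P Q : W.Point} (hP : P ≠ 0) (hQ : Q ≠ 0) (hX : h8xc W P ≠ h8xc W Q) :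
    P - Q ≠ 0 ∧ 4 * (h8xc W P - h8xc W Q) ^ 2 * h8xc W (P - Q) =
      (etac W P + etac W Q) ^ 2 -
        (W.b₂ + 4 * h8xc W P + 4 * h8xc W Q) * (h8xc W P - h8xc W Q) ^ 2 := by
  have hQ' : -Q ≠ 0 := neg_ne_zero.2 hQ
  have hX' : h8xc W P ≠ h8xc W (-Q) := by rwa [h8xc_neg]
  have := xadd hP hQ' hX'
  rw [h8xc_neg, etac_neg, ← sub_eq_add_neg, sub_neg_eq_add] at this
  exact this

/-- The `x`-only sum and product identities on a general Weierstrass curve. -/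
theorem xaddsub (h2 : (2 : K) ≠ 0) {P Q : W.Point} (hP : P ≠ 0) (hQ : Q ≠ 0)
    (hX : h8xc W P ≠ h8xc W Q) :
    P + Q ≠ 0 ∧ P - Q ≠ 0 ∧
    (h8xc W P - h8xc W Q) ^ 2 * (h8xc W (P + Q) + h8xc W (P - Q)) =
      2 * (h8xc W P * h8xc W Q) * (h8xc W P + h8xc W Q) + W.b₂ * (h8xc W P * h8xc W Q) +
        W.b₄ * (h8xc W P + h8xc W Q) + W.b₆ ∧
    (h8xc W P - h8xc W Q) ^ 2 * (h8xc W (P + Q) * h8xc W (P - Q)) =
      (h8xc W P * h8xc W Q) ^ 2 - W.b₄ * (h8xc W P * h8xc W Q) -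
        W.b₆ * (h8xc W P + h8xc W Q) - W.b₈ := by
  obtain ⟨hne1, hadd⟩ := xadd hP hQ hX
  obtain ⟨hne2, hsub⟩ := xsub hP hQ hX
  have hsq1 := etac_sq hP
  have hsq2 := etac_sq hQ
  have hrel := W.b_relation
  have hd : h8xc W P - h8xc W Q ≠ 0 := sub_ne_zero.2 hX
  have h4 : (4 : K) ≠ 0 := by
    have : (4 : K) = 2 * 2 := by norm_num
    rw [this]
    exact mul_ne_zero h2 h2
  have h16 : (16 : K) ≠ 0 := by
    have : (16 : K) = 4 * 4 := by norm_num
    rw [this]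
    exact mul_ne_zero h4 h4
  refine ⟨hne1, hne2, ?_, ?_⟩
  · generalize h8xc W P = X₁ at *
    generalize h8xc W Q = X₂ at *
    generalize h8xc W (P + Q) = Xp at *
    generalize h8xc W (P - Q) = Xm at *
    generalize etac W P = Y₁ at *
    generalize etac W Q = Y₂ at *
    apply mul_left_cancel₀ h4
    linear_combination hadd + hsub + 2 * hsq1 + 2 * hsq2
  · generalize h8xc W P = X₁ at *
    generalize h8xc W Q = X₂ at *
    generalize h8xc W (P + Q) = Xp at *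
    generalize h8xc W (P - Q) = Xm at *
    generalize etac W P = Y₁ at *
    generalize etac W Q = Y₂ at *
    generalize W.b₂ = B₂ at *
    generalize W.b₄ = B₄ at *
    generalize W.b₆ = B₆ at *
    generalize W.b₈ = B₈ at *
    have hD : 16 * (X₁ - X₂) ^ 2 ≠ 0 := mul_ne_zero h16 (pow_ne_zero 2 hd)
    apply mul_left_cancel₀ hD
    linear_combination (4 * (X₁ - X₂) ^ 2 * Xm) * hadd +
      ((Y₁ - Y₂) ^ 2 - (B₂ + 4 * X₁ + 4 * X₂) * (X₁ - X₂) ^ 2) * hsub +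
      ((Y₁ ^ 2 - Y₂ ^ 2 + (4 * X₁ ^ 3 + B₂ * X₁ ^ 2 + 2 * B₄ * X₁ + B₆) -
          (4 * X₂ ^ 3 + B₂ * X₂ ^ 2 + 2 * B₄ * X₂ + B₆)) -
        2 * ((B₂ + 4 * X₁ + 4 * X₂) * (X₁ - X₂) ^ 2)) * hsq1 +
      (-(Y₁ ^ 2 - Y₂ ^ 2 + (4 * X₁ ^ 3 + B₂ * X₁ ^ 2 + 2 * B₄ * X₁ + B₆) -
          (4 * X₂ ^ 3 + B₂ * X₂ ^ 2 + 2 * B₄ * X₂ + B₆)) -
        2 * ((B₂ + 4 * X₁ + 4 * X₂) * (X₁ - X₂) ^ 2)) * hsq2 +
      4 * (X₁ - X₂) ^ 2 * hrel

/-- `2 P = 0` iff `η(P) = 0` for an affine point. -/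
theorem add_self_eq_zero_iff {P : W.Point} (hP : P ≠ 0) :
    P + P = 0 ↔ etac W P = 0 := by
  cases P with
  | zero => exact absurd rfl hP
  | some x y h =>
    rw [etac_some]
    constructor
    · intro h0
      by_contra hne
      have hy : y ≠ W.negY x y := by
        intro hy
        apply hne
        rw [negY] at hy
        linear_combination hy
      rw [Point.add_self_of_Y_ne hy] at h0
      exact Point.some_ne_zero _ h0
    · intro h0
      have hy : y = W.negY x y := by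
        rw [negY]
        linear_combination h0
      exact Point.add_self_of_Y_eq hy

/-- Duplication formula. -/
theorem xdouble (h2 : (2 : K) ≠ 0) {P : W.Point} (hP : P ≠ 0) (hη : etac W P ≠ 0) :
    P + P ≠ 0 ∧ h8xc W (P + P) * etac W P ^ 2 =
      h8xc W P ^ 4 - W.b₄ * h8xc W P ^ 2 - 2 * W.b₆ * h8xc W P - W.b₈ := by
  have hsq := etac_sq hP
  have hrel := W.b_relation
  have h4 : (4 : K) ≠ 0 := by
    have : (4 : K) = 2 * 2 := by norm_num
    rw [this]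
    exact mul_ne_zero h2 h2
  cases P with
  | zero => exact absurd rfl hP
  | some x y h =>
    rw [etac_some] at hη
    have hy : y ≠ W.negY x y := by
      intro hy
      apply hη
      rw [negY] at hy
      linear_combination hy
    rw [Point.add_self_of_Y_ne hy]
    refine ⟨Point.some_ne_zero _, ?_⟩
    simp only [h8xc_some, etac_some, addX] at hsq ⊢
    have hℓ : W.slope x x y y * (2 * y + W.a₁ * x + W.a₃) =
        3 * x ^ 2 + 2 * W.a₂ * x + W.a₄ - W.a₁ * y := by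
      rw [slope_of_Y_ne rfl hy, negY]
      have : y - (-y - W.a₁ * x - W.a₃) = 2 * y + W.a₁ * x + W.a₃ := by ring
      rw [this, div_mul_cancel₀ _ hη]
    generalize W.slope x x y y = ℓ at hℓ
    have hdbl : (2 * y + W.a₁ * x + W.a₃) ^ 2 * (4 * (ℓ ^ 2 + W.a₁ * ℓ - W.a₂ - x - x)) =
        (6 * x ^ 2 + W.b₂ * x + W.b₄) ^ 2 -
          (W.b₂ + 8 * x) * (2 * y + W.a₁ * x + W.a₃) ^ 2 := by
      simp only [b₂, b₄]
      linear_combination (4 * ((2 * y + W.a₁ * x + W.a₃) * ℓ +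
        (3 * x ^ 2 + 2 * W.a₂ * x + W.a₄ - W.a₁ * y)) + 4 * W.a₁ * (2 * y + W.a₁ * x + W.a₃)) * hℓ
    generalize W.b₂ = B₂ at *
    generalize W.b₄ = B₄ at *
    generalize W.b₆ = B₆ at *
    generalize W.b₈ = B₈ at *
    apply mul_left_cancel₀ h4
    linear_combination hdbl - (B₂ + 8 * x) * hsq + hrel

/-! ### The nodal model `a₃ = a₆ = 0` -/

section nodal

variable (h3 : W.a₃ = 0) (h6 : W.a₆ = 0)
include h3 h6

theorem nodal_b₄ : W.b₄ = 2 * W.a₄ := by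
  simp only [b₄, h3]; ring

theorem nodal_b₆ : W.b₆ = 0 := by
  simp only [b₆, h3, h6]; ring

theorem nodal_b₈ : W.b₈ = - W.a₄ ^ 2 := by
  simp only [b₈, h3, h6]; ring

/-- `x`-only sum and product identities on the nodal model. -/
theorem nodal_addsub (h2 : (2 : K) ≠ 0) {P Q : W.Point} (hP : P ≠ 0) (hQ : Q ≠ 0)
    (hX : h8xc W P ≠ h8xc W Q) :
    P + Q ≠ 0 ∧ P - Q ≠ 0 ∧
    (h8xc W P - h8xc W Q) ^ 2 * (h8xc W (P + Q) + h8xc W (P - Q)) =
      2 * (h8xc W P * h8xc W Q + W.a₄) * (h8xc W P + h8xc W Q) +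
        W.b₂ * (h8xc W P * h8xc W Q) ∧
    (h8xc W P - h8xc W Q) ^ 2 * (h8xc W (P + Q) * h8xc W (P - Q)) =
      (h8xc W P * h8xc W Q - W.a₄) ^ 2 := by
  obtain ⟨h1, h2', hS, hPr⟩ := xaddsub h2 hP hQ hX
  rw [nodal_b₄ h3 h6, nodal_b₆ h3 h6] at hS
  rw [nodal_b₄ h3 h6, nodal_b₆ h3 h6, nodal_b₈ h3 h6] at hPr
  refine ⟨h1, h2', ?_, ?_⟩
  · rw [hS]; ring
  · rw [hPr]; ring

theorem nodal_etac_sq {P : W.Point} (hP : P ≠ 0) :
    etac W P ^ 2 = h8xc W P * (4 * h8xc W P ^ 2 + W.b₂ * h8xc W P + 4 * W.a₄) := by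
  rw [etac_sq hP, nodal_b₄ h3 h6, nodal_b₆ h3 h6]
  ring

theorem nodal_double (h2 : (2 : K) ≠ 0) {P : W.Point} (hP : P ≠ 0) (hη : etac W P ≠ 0) :
    P + P ≠ 0 ∧ h8xc W (P + P) * etac W P ^ 2 = (h8xc W P ^ 2 - W.a₄) ^ 2 := by
  obtain ⟨h1, hD⟩ := xdouble h2 hP hη
  rw [nodal_b₄ h3 h6, nodal_b₆ h3 h6, nodal_b₈ h3 h6] at hD
  refine ⟨h1, ?_⟩
  rw [hD]; ring

end nodal

/-! ### Torsion bookkeeping (model independent parts not in `S05/H8_Points`) -/

section Torsion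

variable {p : ℕ} (pp : p.Prime) {P : W.Point} (hP : P ≠ 0) (hpP : p • P = 0)
include pp hP hpP

theorem etac_ne_zero (hp2 : p ≠ 2) : etac W P ≠ 0 := by
  intro hy
  have h2P : 2 • P = 0 := by
    rw [two_nsmul]
    exact (add_self_eq_zero_iff hP).2 hy
  have := (h8_nsmul_eq_zero_iff pp hP hpP 2).1 h2P
  have hle := Nat.le_of_dvd (by norm_num) this
  have := pp.two_le
  omega

end Torsion

end Fermat.Agent.S13.L2.XOnly
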