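import Mathlib
import Fermat.Agent.S05.H8_Node
import Fermat.Agent.S13.L2.H8_XPair
import Fermat.Agent.S13.L2.H8_XPoints

/-!
# S13 / L2 (helper8): `p`-torsion points near the node, any residue characteristic

`W : y² + a₁ x y = x³ + a₂ x² + a₄ x` over a field `K` with `2 ≠ 0`, `v` a valuation on `K` with
`v 2 ≤ 1`, `v b₂ = 1` (`b₂ = a₁² + 4 a₂`), `v a₄ < 1`, `a₄ ≠ 0`, and `p ≥ 5` a prime such that no
nonzero `p`-torsion point lies in the kernel of reduction (`v x ≤ 1` for all of them).  Then every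
nonzero `p`-torsion point `P = (x, y)` satisfies

* `max (v x) (v a₄) ^ p ∈ (v a₄ ^ 2) ^ ℤ`   (`node_point`),
* `v a₄ < v x`                              (`not_far`),
* `v x ^ p ∈ (v a₄ ^ 2) ^ ℤ`                (`mid_val`).

This is the `x`-only replacement of the component map (leaf 2-C of package L2): no
`y`-coordinates, no signs, no change of model.
-/

set_option autoImplicit false
set_option linter.unusedSectionVars false

open WeierstrassCurve WeierstrassCurve.Affine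

namespace Fermat.Agent.S13.L2.XOnly

open Fermat.Agent.S05

variable {K : Type*} [Field K] [DecidableEq K]
  {Γ₀ : Type*} [LinearOrderedCommGroupWithZero Γ₀]

theorem node_point {W : Affine K} (h3 : W.a₃ = 0) (h6 : W.a₆ = 0) (v : Valuation K Γ₀)
    (h2K : (2 : K) ≠ 0) (hv2 : v 2 ≤ 1) (hb2 : v W.b₂ = 1) (hbe1 : v W.a₄ < 1)
    (hbe0 : W.a₄ ≠ 0) {p : ℕ} (pp : p.Prime) (hp5 : 5 ≤ p)
    (hE1 : ∀ Q : W.Point, Q ≠ 0 → p • Q = 0 → v (h8xc W Q) ≤ 1)
    {P : W.Point} (hP : P ≠ 0) (hpP : p • P = 0) :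
    ∃ k : ℤ, max (v (h8xc W P)) (v W.a₄) ^ p = (v W.a₄ ^ 2) ^ k := by
  have hp2 : p ≠ 2 := by omega
  have hodd : Odd p := pp.odd_of_ne_two hp2
  set E := v W.a₄ with hE
  have hE0 : E ≠ 0 := (map_ne_zero v).mpr hbe0
  have hne0 : ∀ j, 1 ≤ j → j ≤ p - 1 → j • P ≠ 0 := fun j h1 h2 =>
    h8_nsmul_ne_zero pp hP hpP (by omega) (by omega)
  have hint : ∀ j, 1 ≤ j → j ≤ p - 1 → v (h8xc W (j • P)) ≤ 1 := fun j h1 h2 =>
    hE1 _ (hne0 j h1 h2) (h8_nsmul_torsion pp hP hpP j)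
  have key := h8_comb hE0 hbe1 hp5 hodd (fun j => max (v (h8xc W (j • P))) E)
    (fun j _ _ => le_max_right _ _)
    (fun j h1 h2 => max_le (hint j h1 h2) (le_of_lt hbe1))
    ?_ ?_ ?_ ?_
  · simpa only [one_nsmul] using key
  · -- doubling
    show H8Rel E (max (v (h8xc W (2 • P))) E) (max (v (h8xc W (1 • P))) E ^ 2)
    rw [one_nsmul, two_nsmul]
    have hy : etac W P ≠ 0 := etac_ne_zero pp hP hpP hp2
    obtain ⟨-, hD⟩ := nodal_double h3 h6 h2K hP hy
    have hT : v (h8xc W (P + P)) ≤ 1 := by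
      have := hint 2 (by omega) (by omega)
      rwa [two_nsmul] at this
    have hx : v (h8xc W P) ≤ 1 := by
      have := hint 1 le_rfl (by omega)
      rwa [one_nsmul] at this
    exact dbl_depth v hb2 rfl hE0 hbe1 hv2 hx hT (nodal_etac_sq h3 h6 hP) hD
  · -- pair property
    intro j hj2 hjp
    show H8Pair E (max (v (h8xc W ((j + 1) • P))) E) (max (v (h8xc W ((j - 1) • P))) E)
      (max (v (h8xc W (j • P))) E) (max (v (h8xc W (1 • P))) E)
    rw [one_nsmul]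
    have hR0 : j • P ≠ 0 := hne0 j (by omega) (by omega)
    have hne : h8xc W (j • P) ≠ h8xc W P := by
      intro h
      rcases (h8xc_eq_iff hR0 hP).1 h with h | h
      · exact h8_nsmul_ne_self pp hP hpP hj2 hjp h
      · exact h8_nsmul_ne_neg pp hP hpP (by omega) hjp h
    obtain ⟨-, -, hS, hPr⟩ := nodal_addsub h3 h6 h2K hR0 hP hne
    have hplus : j • P + P = (j + 1) • P := (succ_nsmul P j).symm
    have hminus : j • P - P = (j - 1) • P := by
      have : j • P = (j - 1) • P + P := by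
        rw [← succ_nsmul]
        congr 1
        omega
      rw [this, add_sub_cancel_right]
    rw [hplus, hminus] at hS hPr
    have hx : v (h8xc W P) ≤ 1 := by
      have := hint 1 le_rfl (by omega)
      rwa [one_nsmul] at this
    exact pair v hb2 rfl hE0 hbe1 hv2 (hint j (by omega) (by omega)) hx
      (hint (j + 1) (by omega) (by omega)) (hint (j - 1) (by omega) (by omega)) hS hPr
  · -- (p - 1) P = - P
    show max (v (h8xc W ((p - 1) • P))) E = max (v (h8xc W (1 • P))) E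
    rw [h8_pred_nsmul pp hP hpP, h8xc_neg, one_nsmul]
  · -- (p - 2) P = - 2 P
    show max (v (h8xc W ((p - 2) • P))) E = max (v (h8xc W (2 • P))) E
    rw [h8_pred_pred_nsmul pp hP hpP, h8xc_neg]

/-- A nonzero `p`-torsion point is never FAR: `v a₄ < v x`. -/
theorem not_far {W : Affine K} (h3 : W.a₃ = 0) (h6 : W.a₆ = 0) (v : Valuation K Γ₀)
    (h2K : (2 : K) ≠ 0) (hv2 : v 2 ≤ 1) (hb2 : v W.b₂ = 1) (hbe1 : v W.a₄ < 1)
    (hbe0 : W.a₄ ≠ 0) {p : ℕ} (pp : p.Prime) (hp5 : 5 ≤ p)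
    (hE1 : ∀ Q : W.Point, Q ≠ 0 → p • Q = 0 → v (h8xc W Q) ≤ 1)
    {P : W.Point} (hP : P ≠ 0) (hpP : p • P = 0) :
    v W.a₄ < v (h8xc W P) := by
  obtain ⟨k, hk⟩ := node_point h3 h6 v h2K hv2 hb2 hbe1 hbe0 pp hp5 hE1 hP hpP
  have hp2 : p ≠ 2 := by omega
  have hodd : Odd p := pp.odd_of_ne_two hp2
  set E := v W.a₄ with hE
  have hE0 : E ≠ 0 := (map_ne_zero v).mpr hbe0
  have hEpos : 0 < E := zero_lt_iff.mpr hE0
  by_contra hcon
  rw [not_lt] at hcon
  rw [max_eq_right hcon, ← zpow_natCast E p, ← zpow_natCast E 2, ← zpow_mul] at hk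
  have := zpow_right_injective₀ hEpos (ne_of_lt hbe1) hk
  obtain ⟨m, hm⟩ := hodd
  push_cast at this
  omega

/-- A nonzero `p`-torsion point has `(v x) ^ p ∈ (v a₄ ^ 2) ^ ℤ`. -/
theorem mid_val {W : Affine K} (h3 : W.a₃ = 0) (h6 : W.a₆ = 0) (v : Valuation K Γ₀)
    (h2K : (2 : K) ≠ 0) (hv2 : v 2 ≤ 1) (hb2 : v W.b₂ = 1) (hbe1 : v W.a₄ < 1)
    (hbe0 : W.a₄ ≠ 0) {p : ℕ} (pp : p.Prime) (hp5 : 5 ≤ p)
    (hE1 : ∀ Q : W.Point, Q ≠ 0 → p • Q = 0 → v (h8xc W Q) ≤ 1)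
    {P : W.Point} (hP : P ≠ 0) (hpP : p • P = 0) :
    ∃ k : ℤ, v (h8xc W P) ^ p = (v W.a₄ ^ 2) ^ k := by
  obtain ⟨k, hk⟩ := node_point h3 h6 v h2K hv2 hb2 hbe1 hbe0 pp hp5 hE1 hP hpP
  have hlt := not_far h3 h6 v h2K hv2 hb2 hbe1 hbe0 pp hp5 hE1 hP hpP
  rw [max_eq_left (le_of_lt hlt)] at hk
  exact ⟨k, hk⟩

/-- Version with a uniformiser-like element: if the value of `x` is a power `γ ^ j` and
`v a₄ = γ ^ m` with `p ∤ 2 m`, then a nonzero `p`-torsion point has `v x = 1`. -/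
theorem val_eq_one_of_pow {W : Affine K} (h3 : W.a₃ = 0) (h6 : W.a₆ = 0) (v : Valuation K Γ₀)
    (h2K : (2 : K) ≠ 0) (hv2 : v 2 ≤ 1) (hb2 : v W.b₂ = 1) (hbe1 : v W.a₄ < 1)
    (hbe0 : W.a₄ ≠ 0) {p : ℕ} (pp : p.Prime) (hp5 : 5 ≤ p)
    (hE1 : ∀ Q : W.Point, Q ≠ 0 → p • Q = 0 → v (h8xc W Q) ≤ 1)
    {P : W.Point} (hP : P ≠ 0) (hpP : p • P = 0)
    {γ : Γ₀} (hγ0 : γ ≠ 0) (hγ1 : γ < 1) {m : ℕ} (hm : v W.a₄ = γ ^ m) (hpm : ¬ p ∣ 2 * m)
    {j : ℤ} (hj : v (h8xc W P) = γ ^ j) :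
    v (h8xc W P) = 1 := by
  obtain ⟨k, hk⟩ := mid_val h3 h6 v h2K hv2 hb2 hbe1 hbe0 pp hp5 hE1 hP hpP
  have hlt := not_far h3 h6 v h2K hv2 hb2 hbe1 hbe0 pp hp5 hE1 hP hpP
  have hle : v (h8xc W P) ≤ 1 := hE1 P hP hpP
  have hγpos : 0 < γ := zero_lt_iff.mpr hγ0
  -- exponents: j * p = 2 * m * k
  rw [hj, hm, ← zpow_natCast (γ ^ j) p, ← zpow_mul, ← zpow_natCast (γ ^ m) 2,
    ← zpow_natCast γ m, ← zpow_mul, ← zpow_mul] at hk
  have hexp : j * (p : ℤ) = (m : ℤ) * (((2 : ℕ) : ℤ) * k) :=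
    zpow_right_injective₀ hγpos (ne_of_lt hγ1) hk
  -- 0 ≤ j < m
  have hj0 : 0 ≤ j := by
    by_contra hcon
    rw [not_le] at hcon
    have : (1 : Γ₀) < γ ^ j := one_lt_zpow_of_neg₀ hγpos hγ1 hcon
    rw [← hj] at this
    exact absurd hle (not_le.2 this)
  have hjm : j < m := by
    by_contra hcon
    rw [not_lt] at hcon
    have : γ ^ j ≤ γ ^ (m : ℤ) :=
      zpow_le_zpow_right_of_le_one₀ hγpos (le_of_lt hγ1) hcon
    rw [← hj, zpow_natCast, ← hm] at this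
    exact absurd hlt (not_lt.2 this)
  -- conclude j = 0
  have hj00 : j = 0 := by
    -- from `hexp` and `p ∤ 2 m`: `p ∣ k`, `j = 2 m k'`, and `0 ≤ j < m` forces `j = 0`
    have hdvd : (p : ℤ) ∣ (m : ℤ) * ((2 : ℕ) : ℤ) * k := ⟨j, by rw [mul_assoc, ← hexp]; ring⟩
    have hprime : Prime (p : ℤ) := Nat.prime_iff_prime_int.mp pp
    have hpk : (p : ℤ) ∣ k := by
      rcases hprime.dvd_or_dvd hdvd with h | h
      · exfalso
        apply hpm
        have : (p : ℤ) ∣ ((2 * m : ℕ) : ℤ) := by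
          push_cast
          rw [mul_comm]
          exact_mod_cast h
        exact Int.natCast_dvd_natCast.mp this
      · exact h
    obtain ⟨k', hk'⟩ := hpk
    have hp0 : (p : ℤ) ≠ 0 := by
      have := pp.pos
      positivity
    have hj' : j = (m : ℤ) * 2 * k' := by
      have : j * (p : ℤ) = ((m : ℤ) * 2 * k') * (p : ℤ) := by
        rw [hexp, hk']
        push_cast
        ring
      exact mul_right_cancel₀ hp0 this
    rcases Nat.eq_zero_or_pos m with hm0 | hmpos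
    · rw [hm0] at hj'
      simpa using hj'
    · have hmZ : (0 : ℤ) < m := by exact_mod_cast hmpos
      by_contra hne
      have hjpos : 0 < j := lt_of_le_of_ne hj0 (Ne.symm hne)
      have hk'pos : 0 < k' := by
        by_contra hcon
        rw [not_lt] at hcon
        have : (m : ℤ) * 2 * k' ≤ 0 := by
          apply mul_nonpos_of_nonneg_of_nonpos _ hcon
          positivity
        omega
      have : (m : ℤ) * 2 * 1 ≤ (m : ℤ) * 2 * k' := by
        apply mul_le_mul_of_nonneg_left _ (by positivity)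
        omega
      omega
  rw [hj, hj00, zpow_zero]

end Fermat.Agent.S13.L2.XOnly
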