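import Mathlib

/-!
# S13, package L2, leaf [2-U]: unit pairs (helper9)

Setting: `F` a field with a valuation `v` (multiplicative notation: `v x ≤ 1` integral,
`v x = 1` unit, `v x < 1` in the maximal ideal), ANY residue characteristic, `W` a Weierstrass
curve over `F` with integral coefficients.

If two distinct integral affine points `P₁ = (x₁, y₁)`, `P₂ = (x₂, y₂)` are congruent modulo the
maximal ideal and their common reduction is a NONSINGULAR point of the reduced curve (one of the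
two partial derivatives `W_Y = 2 y + a₁ x + a₃`, `W_X = a₁ y - (3 x² + 2 a₂ x + a₄)` is a unit
at `P₁`), then `P₂ - P₁` lies in the kernel of reduction: it is an affine point `(X, Y)` with
`1 < v X`.

* `sub_some_of_unit_Y`  : the case `v (W_Y) = 1` (chord with large slope);
* `sub_some_of_unit_X`  : the case `v (W_Y) < 1`, `v (W_X) = 1` (vertical tangent; covers
  `P₂ = -P₁`);
* `sub_some_of_unit`    : the combined statement;
* `sigma_sub_of_unit`   : the same for `P₂ = σ P₁` with `v (σ a - a) < 1` on integral `a`;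
* `val_psi2_of_nodal_two` : on a nodal model `a₃ = 0` in residue characteristic `2` with `a₁` a
  unit, `W_Y` is a unit at every point with unit abscissa;
* `val_Y_le_one` : integrality of `y` from integrality of `x`.
-/

set_option autoImplicit false
set_option linter.unusedSectionVars false

namespace Fermat.Agent.S13.L2.UnitPair

open WeierstrassCurve WeierstrassCurve.Affine

variable {F : Type*} [Field F] [DecidableEq F]
  {Γ₀ : Type*} [LinearOrderedCommGroupWithZero Γ₀]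

/-! ## Valuation helpers -/

lemma h9_val_add_le_one (v : Valuation F Γ₀) {a b : F} (ha : v a ≤ 1) (hb : v b ≤ 1) :
    v (a + b) ≤ 1 :=
  le_trans (v.map_add _ _) (max_le ha hb)

lemma h9_val_sub_le_one (v : Valuation F Γ₀) {a b : F} (ha : v a ≤ 1) (hb : v b ≤ 1) :
    v (a - b) ≤ 1 :=
  le_trans (v.map_sub _ _) (max_le ha hb)

lemma h9_val_mul_le_one (v : Valuation F Γ₀) {a b : F} (ha : v a ≤ 1) (hb : v b ≤ 1) :
    v (a * b) ≤ 1 := by
  rw [map_mul]
  exact mul_le_one' ha hb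

lemma h9_val_add_lt_one (v : Valuation F Γ₀) {a b : F} (ha : v a < 1) (hb : v b < 1) :
    v (a + b) < 1 :=
  lt_of_le_of_lt (v.map_add _ _) (max_lt ha hb)

lemma h9_val_mul_lt_one_left (v : Valuation F Γ₀) {a b : F} (ha : v a < 1) (hb : v b ≤ 1) :
    v (a * b) < 1 := by
  rw [map_mul]
  exact mul_lt_one_of_lt_of_le ha hb

lemma h9_val_mul_lt_one_right (v : Valuation F Γ₀) {a b : F} (ha : v a ≤ 1) (hb : v b < 1) :
    v (a * b) < 1 := by
  rw [map_mul, mul_comm]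
  exact mul_lt_one_of_lt_of_le hb ha

lemma h9_val_unit_add (v : Valuation F Γ₀) {a b : F} (ha : v a = 1) (hb : v b < 1) :
    v (a + b) = 1 := by
  rw [Valuation.map_add_eq_of_lt_left v (by rw [ha]; exact hb), ha]

/-- If `ℓ * m = u` with `u` a unit and `m` in the maximal ideal, then `1 < v ℓ`. -/
lemma h9_one_lt_val_of_mul_eq (v : Valuation F Γ₀) {ℓ m u : F} (h : ℓ * m = u)
    (hu : v u = 1) (hm : v m < 1) : 1 < v ℓ := by
  by_contra hcon
  push Not at hcon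
  have : v (ℓ * m) < 1 := h9_val_mul_lt_one_right v hcon hm
  rw [h, hu] at this
  exact lt_irrefl _ this

/-- **Large slope gives a point in the kernel of reduction.** -/
lemma h9_one_lt_val_addX (W : Affine F) (v : Valuation F Γ₀)
    (ha₁ : v W.a₁ ≤ 1) (ha₂ : v W.a₂ ≤ 1) {x₁ x₂ ℓ : F}
    (hx₁ : v x₁ ≤ 1) (hx₂ : v x₂ ≤ 1) (hℓ : 1 < v ℓ) :
    1 < v (W.addX x₁ x₂ ℓ) := by
  have hℓ2 : v ℓ < v (ℓ ^ 2) := by
    rw [map_pow, pow_two]
    exact lt_mul_of_one_lt_left (lt_trans zero_lt_one hℓ) hℓ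
  have hrest : v (W.a₁ * ℓ - W.a₂ - x₁ - x₂) ≤ v ℓ := by
    refine le_trans (v.map_sub _ _) (max_le ?_ (hx₂.trans hℓ.le))
    refine le_trans (v.map_sub _ _) (max_le ?_ (hx₁.trans hℓ.le))
    refine le_trans (v.map_sub _ _) (max_le ?_ (ha₂.trans hℓ.le))
    rw [map_mul]
    exact mul_le_of_le_one_left zero_le ha₁
  have heq : W.addX x₁ x₂ ℓ = ℓ ^ 2 + (W.a₁ * ℓ - W.a₂ - x₁ - x₂) := by
    simp only [addX]
    ring
  rw [heq, Valuation.map_add_eq_of_lt_left v (lt_of_le_of_lt hrest hℓ2)]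
  exact lt_trans hℓ hℓ2

/-! ## Integrality of `y` -/

/-- On an integral Weierstrass model, a point with integral abscissa has integral ordinate. -/
theorem val_Y_le_one (W : Affine F) (v : Valuation F Γ₀)
    (ha₁ : v W.a₁ ≤ 1) (ha₂ : v W.a₂ ≤ 1) (ha₃ : v W.a₃ ≤ 1) (ha₄ : v W.a₄ ≤ 1)
    (ha₆ : v W.a₆ ≤ 1) {x y : F} (h : W.Equation x y) (hx : v x ≤ 1) : v y ≤ 1 := by
  by_contra hcon
  push Not at hcon
  have heq := (equation_iff x y).mp h
  have hrhs : v (x ^ 3 + W.a₂ * x ^ 2 + W.a₄ * x + W.a₆) ≤ 1 := by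
    refine h9_val_add_le_one v (h9_val_add_le_one v (h9_val_add_le_one v ?_ ?_) ?_) ha₆
    · rw [map_pow]; exact pow_le_one₀ zero_le hx
    · refine h9_val_mul_le_one v ha₂ ?_
      rw [map_pow]; exact pow_le_one₀ zero_le hx
    · exact h9_val_mul_le_one v ha₄ hx
  have hy2 : v y < v (y ^ 2) := by
    rw [map_pow, pow_two]
    exact lt_mul_of_one_lt_left (lt_trans zero_lt_one hcon) hcon
  have hmid : v (W.a₁ * x * y + W.a₃ * y) ≤ v y := by
    refine le_trans (v.map_add _ _) (max_le ?_ ?_)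
    · rw [map_mul]
      exact mul_le_of_le_one_left zero_le (h9_val_mul_le_one v ha₁ hx)
    · rw [map_mul]
      exact mul_le_of_le_one_left zero_le ha₃
  have hlhs : v (y ^ 2 + W.a₁ * x * y + W.a₃ * y) = v (y ^ 2) := by
    rw [add_assoc]
    exact Valuation.map_add_eq_of_lt_left v (lt_of_le_of_lt hmid hy2)
  rw [heq] at hlhs
  have : (1 : Γ₀) < v (y ^ 2) := lt_trans hcon hy2
  rw [← hlhs] at this
  exact absurd hrhs (not_le.mpr this)

/-! ## The two cases -/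

/-- **Unit pairs, chord case.** `W_Y = 2 y₁ + a₁ x₁ + a₃` is a unit at `P₁`. -/
theorem sub_some_of_unit_Y (W : Affine F) (v : Valuation F Γ₀)
    (ha₁ : v W.a₁ ≤ 1) (ha₂ : v W.a₂ ≤ 1)
    {x₁ y₁ x₂ y₂ : F} (h₁ : W.Nonsingular x₁ y₁) (h₂ : W.Nonsingular x₂ y₂)
    (hx₁ : v x₁ ≤ 1) (hx : v (x₂ - x₁) < 1) (hy : v (y₂ - y₁) < 1)
    (hunit : v (2 * y₁ + W.a₁ * x₁ + W.a₃) = 1)
    (hne : Point.some x₂ y₂ h₂ ≠ Point.some x₁ y₁ h₁) :
    ∃ (X Y : F) (h : W.Nonsingular X Y),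
      Point.some x₂ y₂ h₂ - Point.some x₁ y₁ h₁ = Point.some X Y h ∧ 1 < v X := by
  have hx₂ : v x₂ ≤ 1 := by
    have : x₂ = x₁ + (x₂ - x₁) := by ring
    rw [this]
    exact h9_val_add_le_one v hx₁ hx.le
  have hxne : x₂ ≠ x₁ := by
    intro hxx
    rcases Y_eq_of_X_eq h₂.1 h₁.1 hxx with hyy | hyy
    · apply hne
      subst hxx
      subst hyy
      rfl
    · have : y₂ - y₁ = -(2 * y₁ + W.a₁ * x₁ + W.a₃) := by
        rw [hyy]
        simp only [negY]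
        ring
      rw [this, Valuation.map_neg, hunit] at hy
      exact lt_irrefl _ hy
  have hden : x₂ - x₁ ≠ 0 := sub_ne_zero.mpr hxne
  have key : Point.some x₂ y₂ h₂ - Point.some x₁ y₁ h₁ =
      Point.some _ _ (nonsingular_add h₂ ((nonsingular_neg ..).mpr h₁)
        (fun hxy => hxne hxy.1)) := by
    rw [sub_eq_add_neg, Point.neg_some, Point.add_of_X_ne hxne]
  refine ⟨_, _, _, key, ?_⟩
  apply h9_one_lt_val_addX W v ha₁ ha₂ hx₂ hx₁
  rw [slope_of_X_ne hxne]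
  have hnum : v (y₂ - W.negY x₁ y₁) = 1 := by
    have : y₂ - W.negY x₁ y₁ = (2 * y₁ + W.a₁ * x₁ + W.a₃) + (y₂ - y₁) := by
      simp only [negY]
      ring
    rw [this]
    exact h9_val_unit_add v hunit hy
  apply h9_one_lt_val_of_mul_eq v (div_mul_cancel₀ _ hden) hnum hx

/-- **Unit pairs, vertical tangent case.** `W_Y` is in the maximal ideal and
`W_X = a₁ y₁ - (3 x₁² + 2 a₂ x₁ + a₄)` is a unit at `P₁`. -/
theorem sub_some_of_unit_X (W : Affine F) (v : Valuation F Γ₀)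
    (ha₁ : v W.a₁ ≤ 1) (ha₂ : v W.a₂ ≤ 1)
    {x₁ y₁ x₂ y₂ : F} (h₁ : W.Nonsingular x₁ y₁) (h₂ : W.Nonsingular x₂ y₂)
    (hx₁ : v x₁ ≤ 1) (hx : v (x₂ - x₁) < 1) (hy : v (y₂ - y₁) < 1)
    (hY : v (2 * y₁ + W.a₁ * x₁ + W.a₃) < 1)
    (hunit : v (W.a₁ * y₁ - (3 * x₁ ^ 2 + 2 * W.a₂ * x₁ + W.a₄)) = 1)
    (hne : Point.some x₂ y₂ h₂ ≠ Point.some x₁ y₁ h₁) :
    ∃ (X Y : F) (h : W.Nonsingular X Y),
      Point.some x₂ y₂ h₂ - Point.some x₁ y₁ h₁ = Point.some X Y h ∧ 1 < v X := by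
  have hx₂ : v x₂ ≤ 1 := by
    have : x₂ = x₁ + (x₂ - x₁) := by ring
    rw [this]
    exact h9_val_add_le_one v hx₁ hx.le
  have hnegunit : v (-(W.a₁ * y₁ - (3 * x₁ ^ 2 + 2 * W.a₂ * x₁ + W.a₄))) = 1 := by
    rw [Valuation.map_neg, hunit]
  have heq₁ := (equation_iff x₁ y₁).mp h₁.1
  have heq₂ := (equation_iff x₂ y₂).mp h₂.1
  by_cases hxx : x₂ = x₁
  · -- `P₂ = -P₁`, doubling
    have hyne : y₂ ≠ y₁ := by
      intro hyy
      apply hne
      subst hxx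
      subst hyy
      rfl
    have hy₂ : y₂ = W.negY x₁ y₁ := by
      rcases Y_eq_of_X_eq h₂.1 h₁.1 hxx with hyy | hyy
      · exact absurd hyy hyne
      · exact hyy
    have hneg : W.negY x₂ y₂ = y₁ := by
      rw [hxx, hy₂, negY_negY]
    have hyne' : y₂ ≠ W.negY x₂ y₂ := by
      rw [hneg]
      exact hyne
    have hP : Point.some x₁ (W.negY x₁ y₁) ((nonsingular_neg ..).mpr h₁) =
        Point.some x₂ y₂ h₂ := by
      subst hxx
      subst hy₂
      rfl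
    have key : Point.some x₂ y₂ h₂ - Point.some x₁ y₁ h₁ =
        Point.some _ _ (nonsingular_add h₂ h₂ (fun hxy => hyne' hxy.2)) := by
      rw [sub_eq_add_neg, Point.neg_some, hP, Point.add_self_of_Y_ne hyne']
    refine ⟨_, _, _, key, ?_⟩
    apply h9_one_lt_val_addX W v ha₁ ha₂ hx₂ hx₂
    rw [slope_of_Y_ne rfl hyne', hneg]
    have hden : y₂ - y₁ ≠ 0 := sub_ne_zero.mpr hyne
    have hnum : v (3 * x₂ ^ 2 + 2 * W.a₂ * x₂ + W.a₄ - W.a₁ * y₂) = 1 := by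
      have : 3 * x₂ ^ 2 + 2 * W.a₂ * x₂ + W.a₄ - W.a₁ * y₂ =
          -(W.a₁ * y₁ - (3 * x₁ ^ 2 + 2 * W.a₂ * x₁ + W.a₄)) + (-W.a₁) * (y₂ - y₁) := by
        rw [hxx]
        ring
      rw [this]
      refine h9_val_unit_add v hnegunit (h9_val_mul_lt_one_right v ?_ hy)
      rw [Valuation.map_neg]
      exact ha₁
    exact h9_one_lt_val_of_mul_eq v (div_mul_cancel₀ _ hden) hnum hy
  · -- chord through `P₂` and `-P₁`
    have hden : x₂ - x₁ ≠ 0 := sub_ne_zero.mpr hxx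
    have key : Point.some x₂ y₂ h₂ - Point.some x₁ y₁ h₁ =
        Point.some _ _ (nonsingular_add h₂ ((nonsingular_neg ..).mpr h₁)
          (fun hxy => hxx hxy.1)) := by
      rw [sub_eq_add_neg, Point.neg_some, Point.add_of_X_ne hxx]
    refine ⟨_, _, _, key, ?_⟩
    apply h9_one_lt_val_addX W v ha₁ ha₂ hx₂ hx₁
    rw [slope_of_X_ne hxx]
    -- `ℓ * M = U` with `M` in the maximal ideal and `U` a unit
    have hLM : (y₂ - W.negY x₁ y₁) / (x₂ - x₁) * ((y₂ - y₁) + W.a₁ * (x₂ - x₁)) =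
        -(W.a₁ * y₁ - (3 * x₁ ^ 2 + 2 * W.a₂ * x₁ + W.a₄)) +
          (W.a₁ * (2 * y₁ + W.a₁ * x₁ + W.a₃) + (x₂ - x₁) * (x₂ + 2 * x₁ + W.a₂)) := by
      rw [div_mul_eq_mul_div, div_eq_iff hden]
      simp only [negY]
      linear_combination heq₂ - heq₁
    have hM : v ((y₂ - y₁) + W.a₁ * (x₂ - x₁)) < 1 :=
      h9_val_add_lt_one v hy (h9_val_mul_lt_one_right v ha₁ hx)
    have hU : v (-(W.a₁ * y₁ - (3 * x₁ ^ 2 + 2 * W.a₂ * x₁ + W.a₄)) +
        (W.a₁ * (2 * y₁ + W.a₁ * x₁ + W.a₃) + (x₂ - x₁) * (x₂ + 2 * x₁ + W.a₂))) = 1 := by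
      refine h9_val_unit_add v hnegunit (h9_val_add_lt_one v
        (h9_val_mul_lt_one_right v ha₁ hY) (h9_val_mul_lt_one_left v hx ?_))
      refine h9_val_add_le_one v (h9_val_add_le_one v hx₂ ?_) ha₂
      have h2 : v (2 : F) ≤ 1 := by
        have : (2 : F) = 1 + 1 := by norm_num
        rw [this]
        exact h9_val_add_le_one v (by rw [map_one]) (by rw [map_one])
      exact h9_val_mul_le_one v h2 hx₁
    exact h9_one_lt_val_of_mul_eq v hLM hU hM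

/-- **Unit pairs.** Two distinct integral points which are congruent modulo the maximal ideal,
with nonsingular reduction, differ by a point of the kernel of reduction. -/
theorem sub_some_of_unit (W : Affine F) (v : Valuation F Γ₀)
    (ha₁ : v W.a₁ ≤ 1) (ha₂ : v W.a₂ ≤ 1) (ha₃ : v W.a₃ ≤ 1)
    {x₁ y₁ x₂ y₂ : F} (h₁ : W.Nonsingular x₁ y₁) (h₂ : W.Nonsingular x₂ y₂)
    (hx₁ : v x₁ ≤ 1) (hy₁ : v y₁ ≤ 1) (hx : v (x₂ - x₁) < 1) (hy : v (y₂ - y₁) < 1)
    (hunit : v (2 * y₁ + W.a₁ * x₁ + W.a₃) = 1 ∨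
      v (W.a₁ * y₁ - (3 * x₁ ^ 2 + 2 * W.a₂ * x₁ + W.a₄)) = 1)
    (hne : Point.some x₂ y₂ h₂ ≠ Point.some x₁ y₁ h₁) :
    ∃ (X Y : F) (h : W.Nonsingular X Y),
      Point.some x₂ y₂ h₂ - Point.some x₁ y₁ h₁ = Point.some X Y h ∧ 1 < v X := by
  by_cases hY : v (2 * y₁ + W.a₁ * x₁ + W.a₃) = 1
  · exact sub_some_of_unit_Y W v ha₁ ha₂ h₁ h₂ hx₁ hx hy hY hne
  · have hYle : v (2 * y₁ + W.a₁ * x₁ + W.a₃) ≤ 1 := by
      have h2 : v (2 : F) ≤ 1 := by
        have : (2 : F) = 1 + 1 := by norm_num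
        rw [this]
        exact h9_val_add_le_one v (by rw [map_one]) (by rw [map_one])
      exact h9_val_add_le_one v (h9_val_add_le_one v (h9_val_mul_le_one v h2 hy₁)
        (h9_val_mul_le_one v ha₁ hx₁)) ha₃
    rcases hunit with hu | hu
    · exact absurd hu hY
    · exact sub_some_of_unit_X W v ha₁ ha₂ h₁ h₂ hx₁ hx hy (lt_of_le_of_ne hYle hY) hu hne

/-- **Unit pairs, `σ`-form.** `σ` is any map with `v (σ a - a) < 1` for integral `a` (e.g. an
element of the inertia group); `(σ x, σ y)` is again a point of `W`. -/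
theorem sigma_sub_of_unit (W : Affine F) (v : Valuation F Γ₀)
    (ha₁ : v W.a₁ ≤ 1) (ha₂ : v W.a₂ ≤ 1) (ha₃ : v W.a₃ ≤ 1)
    (σ : F → F) (hσ : ∀ a : F, v a ≤ 1 → v (σ a - a) < 1)
    {x y : F} (h : W.Nonsingular x y) (h' : W.Nonsingular (σ x) (σ y))
    (hx : v x ≤ 1) (hy : v y ≤ 1)
    (hunit : v (2 * y + W.a₁ * x + W.a₃) = 1 ∨
      v (W.a₁ * y - (3 * x ^ 2 + 2 * W.a₂ * x + W.a₄)) = 1) :
    Point.some (σ x) (σ y) h' = Point.some x y h ∨
      ∃ (X Y : F) (hXY : W.Nonsingular X Y),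
        Point.some (σ x) (σ y) h' - Point.some x y h = Point.some X Y hXY ∧ 1 < v X := by
  by_cases hne : Point.some (σ x) (σ y) h' = Point.some x y h
  · exact Or.inl hne
  · exact Or.inr (sub_some_of_unit W v ha₁ ha₂ ha₃ h h' hx hy (hσ x hx) (hσ y hy) hunit hne)

/-! ## The nodal model in residue characteristic `2` -/

/-- On a model with `a₃ = 0`, `a₁` a unit, in residue characteristic `2`: `W_Y = 2 y + a₁ x`
is a unit at every integral point with unit abscissa. -/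
theorem val_psi2_of_nodal_two (W : Affine F) (v : Valuation F Γ₀)
    (h₃ : W.a₃ = 0) (hv2 : v (2 : F) < 1) (ha₁ : v W.a₁ = 1)
    {x y : F} (hx : v x = 1) (hy : v y ≤ 1) :
    v (2 * y + W.a₁ * x + W.a₃) = 1 := by
  have h1 : v (W.a₁ * x) = 1 := by rw [map_mul, ha₁, hx, one_mul]
  have h2 : v (2 * y) < 1 := h9_val_mul_lt_one_left v hv2 hy
  have : 2 * y + W.a₁ * x + W.a₃ = W.a₁ * x + 2 * y := by
    rw [h₃]
    ring
  rw [this]
  exact h9_val_unit_add v h1 h2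

/-- **Unit pairs on the nodal model at `2`.** `a₃ = 0`, `v 2 < 1`, `a₁` a unit, `a₂` integral:
two distinct points with unit abscissa which are congruent modulo the maximal ideal differ by a
point of the kernel of reduction. -/
theorem sub_some_of_nodal_two (W : Affine F) (v : Valuation F Γ₀)
    (h₃ : W.a₃ = 0) (hv2 : v (2 : F) < 1) (ha₁ : v W.a₁ = 1) (ha₂ : v W.a₂ ≤ 1)
    {x₁ y₁ x₂ y₂ : F} (h₁ : W.Nonsingular x₁ y₁) (h₂ : W.Nonsingular x₂ y₂)
    (hx₁ : v x₁ = 1) (hy₁ : v y₁ ≤ 1) (hx : v (x₂ - x₁) < 1) (hy : v (y₂ - y₁) < 1)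
    (hne : Point.some x₂ y₂ h₂ ≠ Point.some x₁ y₁ h₁) :
    ∃ (X Y : F) (h : W.Nonsingular X Y),
      Point.some x₂ y₂ h₂ - Point.some x₁ y₁ h₁ = Point.some X Y h ∧ 1 < v X :=
  sub_some_of_unit_Y W v ha₁.le ha₂ h₁ h₂ hx₁.le hx hy
    (val_psi2_of_nodal_two W v h₃ hv2 ha₁ hx₁ hy₁) hne

end Fermat.Agent.S13.L2.UnitPair
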