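import Fermat.Agent.S13.L2.H20_Defs
import Fermat.Agent.S13.L2.H9_UnitPair

/-!
# S13, package L2, leaf [U] (helper9): `inKer_sub_of_congr`

The exact statement of findings #126 (helper20), as a wrapper around the generic unit-pair lemma
`UnitPair.sub_some_of_unit_Y` of `H9_UnitPair.lean`.

Also the `σ`-form `inKer_sigma_sub` and the residue-characteristic-`2` variant
`inKer_sub_of_congr_two` (`v 2 < 1`, `a₁` a unit, unit abscissa: the hypothesis on `2 y + a₁ x`
is automatic).
-/

set_option autoImplicit false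
set_option linter.unusedSectionVars false
set_option linter.unusedVariables false

open WeierstrassCurve WeierstrassCurve.Affine

namespace Fermat.Agent.S13.L2

variable {K : Type*} [Field K] [DecidableEq K] {A : ValuationSubring K} {W : Affine K}

lemma h9_inKer_zero : InKer A (0 : W.Point) := trivial

lemma h9_inKer_some {x y : K} (h : W.Nonsingular x y) :
    InKer A (Point.some x y h) ↔ 1 < A.valuation x := Iff.rfl

/-- [U] two integral points with the same reduction, which is not a 2-torsion point of the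
reduction (`2 y + a₁ x` is a unit): the difference lies in the kernel of reduction. -/
theorem inKer_sub_of_congr (h3 : W.a₃ = 0) (h6 : W.a₆ = 0) (h1 : A.valuation W.a₁ ≤ 1)
    (h2 : A.valuation W.a₂ ≤ 1) (h4 : A.valuation W.a₄ ≤ 1) {x y x' y' : K}
    (h : W.Nonsingular x y) (h' : W.Nonsingular x' y')
    (hx : A.valuation x ≤ 1) (hy : A.valuation y ≤ 1)
    (hψ : A.valuation (2 * y + W.a₁ * x) = 1)
    (hxx : A.valuation (x' - x) < 1) (hyy : A.valuation (y' - y) < 1) :
    InKer A (Point.some x' y' h' - Point.some x y h) := by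
  by_cases hne : Point.some x' y' h' = Point.some x y h
  · rw [hne, sub_self]
    exact h9_inKer_zero
  · have hψ' : A.valuation (2 * y + W.a₁ * x + W.a₃) = 1 := by
      rw [h3, add_zero]
      exact hψ
    obtain ⟨X, Y, hXY, heq, hX⟩ :=
      UnitPair.sub_some_of_unit_Y W A.valuation h1 h2 h h' hx hxx hyy hψ' hne
    rw [heq]
    exact hX

/-- [U], residue characteristic `2`: if `v 2 < 1` and `a₁` is a unit, every point with unit
abscissa qualifies. -/
theorem inKer_sub_of_congr_two (h3 : W.a₃ = 0) (hv2 : A.valuation (2 : K) < 1)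
    (h1 : A.valuation W.a₁ = 1) (h2 : A.valuation W.a₂ ≤ 1) {x y x' y' : K}
    (h : W.Nonsingular x y) (h' : W.Nonsingular x' y')
    (hx : A.valuation x = 1) (hy : A.valuation y ≤ 1)
    (hxx : A.valuation (x' - x) < 1) (hyy : A.valuation (y' - y) < 1) :
    InKer A (Point.some x' y' h' - Point.some x y h) := by
  by_cases hne : Point.some x' y' h' = Point.some x y h
  · rw [hne, sub_self]
    exact h9_inKer_zero
  · obtain ⟨X, Y, hXY, heq, hX⟩ :=
      UnitPair.sub_some_of_nodal_two W A.valuation h3 hv2 h1 h2 h h' hx hy hxx hyy hne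
    rw [heq]
    exact hX

/-- [U], `σ`-form: `σ` any map with `v (σ a - a) < 1` for integral `a` (an element of the
inertia group), `(σ x, σ y)` again a point of `W`. -/
theorem inKer_sigma_sub (h3 : W.a₃ = 0) (h1 : A.valuation W.a₁ ≤ 1)
    (h2 : A.valuation W.a₂ ≤ 1) (σ : K → K)
    (hσ : ∀ a : K, A.valuation a ≤ 1 → A.valuation (σ a - a) < 1) {x y : K}
    (h : W.Nonsingular x y) (h' : W.Nonsingular (σ x) (σ y))
    (hx : A.valuation x ≤ 1) (hy : A.valuation y ≤ 1)
    (hψ : A.valuation (2 * y + W.a₁ * x) = 1) :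
    InKer A (Point.some (σ x) (σ y) h' - Point.some x y h) := by
  by_cases hne : Point.some (σ x) (σ y) h' = Point.some x y h
  · rw [hne, sub_self]
    exact h9_inKer_zero
  · have hψ' : A.valuation (2 * y + W.a₁ * x + W.a₃) = 1 := by
      rw [h3, add_zero]
      exact hψ
    obtain ⟨X, Y, hXY, heq, hX⟩ :=
      UnitPair.sub_some_of_unit_Y W A.valuation h1 h2 h h' hx (hσ x hx) (hσ y hy) hψ' hne
    rw [heq]
    exact hX

/-- Integrality of the ordinate on the nodal model. -/
theorem val_Y_le_one_of_nodal (h3 : W.a₃ = 0) (h6 : W.a₆ = 0) (h1 : A.valuation W.a₁ ≤ 1)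
    (h2 : A.valuation W.a₂ ≤ 1) (h4 : A.valuation W.a₄ ≤ 1) {x y : K}
    (h : W.Equation x y) (hx : A.valuation x ≤ 1) : A.valuation y ≤ 1 :=
  UnitPair.val_Y_le_one W A.valuation h1 h2 (by rw [h3, map_zero]; exact zero_le_one) h4
    (by rw [h6, map_zero]; exact zero_le_one) h hx

end Fermat.Agent.S13.L2
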