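import Mathlib
import Fermat.Agent.S13.L2.H9_U
import Fermat.Agent.S13.L2.H8_XNode

/-!
# S13 / L2 (helper8): hedge of L2b, generic core (no Galois theory, no Frey package)

`K` a field with `2 ≠ 0`, `A` a valuation subring of residue characteristic `2` (`v 2 < 1`),
`W : y² + a₁ x y = x³ + a₂ x² + a₄ x` with `a₁` a unit, `a₂` integral, `b₂` a unit,
`a₄ ≠ 0`, `v a₄ = (v 2) ^ m`, `m ≥ 1`, and `p ≥ 5` a prime with `p ∤ 2 m` such that the kernel
of reduction contains no nonzero `p`-torsion point (leaf K2).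

`R ⊆ K` is a set of "rational" elements: the valuation of a nonzero element of `R` is a power
of `v 2`, and an integral element of `R` is congruent to `0` or `1` modulo the maximal ideal.
`S` is a subgroup of `W.Point` all of whose affine points have coordinates in `R`.

Then `S` contains no nonzero `p`-torsion point (`no_torsion`).

Proof: a nonzero `p`-torsion point of `S` is GOOD with unit abscissa (`XOnly.val_eq_one_of_pow`),
so its reduction is `(1, 0)` or `(1, 1)`; two of `P, 2P, 3P` have the same reduction, hence their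
difference lies in the kernel of reduction (leaf U), contradiction.
-/

set_option autoImplicit false
set_option linter.unusedSectionVars false

open WeierstrassCurve WeierstrassCurve.Affine

namespace Fermat.Agent.S13.L2.H8

open Fermat.Agent.S05 Fermat.Agent.S13.L2.XOnly

variable {K : Type*} [Field K] [DecidableEq K] {A : ValuationSubring K} {W : Affine K}

/-- The standing hypotheses of the core. -/
structure CoreData (A : ValuationSubring K) (W : Affine K) (p m : ℕ) (R : Set K)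
    (S : AddSubgroup W.Point) : Prop where
  a₃ : W.a₃ = 0
  a₆ : W.a₆ = 0
  a₁ : A.valuation W.a₁ = 1
  a₂ : A.valuation W.a₂ ≤ 1
  b₂ : A.valuation W.b₂ = 1
  be0 : W.a₄ ≠ 0
  be : A.valuation W.a₄ = A.valuation (2 : K) ^ m
  m_pos : 0 < m
  two : A.valuation (2 : K) < 1
  two_ne : (2 : K) ≠ 0
  pp : p.Prime
  p5 : 5 ≤ p
  pm : ¬ p ∣ 2 * m
  ker : ∀ {x y : K} (h : W.Nonsingular x y), 1 < A.valuation x → p • Point.some x y h ≠ 0
  rat_val : ∀ r ∈ R, r ≠ 0 → ∃ j : ℤ, A.valuation r = A.valuation (2 : K) ^ j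
  rat_res : ∀ r ∈ R, A.valuation r ≤ 1 → A.valuation r < 1 ∨ A.valuation (r - 1) < 1
  coord : ∀ {x y : K} (h : W.Nonsingular x y), Point.some x y h ∈ S → x ∈ R ∧ y ∈ R

namespace CoreData

variable {p m : ℕ} {R : Set K} {S : AddSubgroup W.Point}

lemma val_two_ne_zero (hC : CoreData A W p m R S) : A.valuation (2 : K) ≠ 0 :=
  (map_ne_zero _).mpr hC.two_ne

lemma val_be_lt (hC : CoreData A W p m R S) : A.valuation W.a₄ < 1 := by
  rw [hC.be]
  exact pow_lt_one₀ zero_le' hC.two hC.m_pos.ne'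

lemma kernel_hyp (hC : CoreData A W p m R S) :
    ∀ Q : W.Point, Q ≠ 0 → p • Q = 0 → A.valuation (h8xc W Q) ≤ 1 := by
  intro Q hQ hpQ
  obtain ⟨hq, hQe⟩ := h8_exists_some hQ
  by_contra hcon
  rw [not_le] at hcon
  rw [hQe] at hpQ
  exact hC.ker hq hcon hpQ

/-- A nonzero `p`-torsion point of `S` is integral with unit abscissa `≡ 1`. -/
lemma good (hC : CoreData A W p m R S) {Q : W.Point} (hQS : Q ∈ S) (hQ : Q ≠ 0)
    (hpQ : p • Q = 0) :
    ∃ (x y : K) (h : W.Nonsingular x y), Q = Point.some x y h ∧ A.valuation x = 1 ∧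
      A.valuation y ≤ 1 ∧ A.valuation (x - 1) < 1 ∧
      (A.valuation y < 1 ∨ A.valuation (y - 1) < 1) := by
  obtain ⟨h, hQe⟩ := h8_exists_some hQ
  set x := h8xc W Q with hx
  set y := h8yc W Q with hy
  have hS : Point.some x y h ∈ S := by rw [← hQe]; exact hQS
  obtain ⟨hxR, hyR⟩ := hC.coord h hS
  have hv2 : A.valuation (2 : K) ≤ 1 := le_of_lt hC.two
  have hfar := not_far hC.a₃ hC.a₆ A.valuation hC.two_ne hv2 hC.b₂ hC.val_be_lt hC.be0 hC.pp
    hC.p5 hC.kernel_hyp hQ hpQ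
  have hx0 : x ≠ 0 := by
    intro h0
    rw [← hx, h0, map_zero] at hfar
    exact not_lt_zero' hfar
  obtain ⟨j, hj⟩ := hC.rat_val x hxR hx0
  have hx1 : A.valuation x = 1 :=
    val_eq_one_of_pow hC.a₃ hC.a₆ A.valuation hC.two_ne hv2 hC.b₂ hC.val_be_lt hC.be0 hC.pp
      hC.p5 hC.kernel_hyp hQ hpQ hC.val_two_ne_zero hC.two hC.be hC.pm hj
  have hy1 : A.valuation y ≤ 1 :=
    val_Y_le_one_of_nodal hC.a₃ hC.a₆ (le_of_eq hC.a₁) hC.a₂ (le_of_lt hC.val_be_lt) h.1
      (le_of_eq hx1)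
  refine ⟨x, y, h, hQe, hx1, hy1, ?_, hC.rat_res y hyR hy1⟩
  rcases hC.rat_res x hxR (le_of_eq hx1) with h' | h'
  · rw [hx1] at h'
    exact absurd h' (lt_irrefl _)
  · exact h'

/-- Two nonzero `p`-torsion points of `S` with the same reduction are equal. -/
lemma eq_of_congr (hC : CoreData A W p m R S) {Q₁ Q₂ : W.Point}
    (h₁S : Q₁ ∈ S) (h₁ : Q₁ ≠ 0) (hp₁ : p • Q₁ = 0)
    (h₂S : Q₂ ∈ S) (h₂ : Q₂ ≠ 0) (hp₂ : p • Q₂ = 0)
    (hcls : (A.valuation (h8yc W Q₁) < 1 ↔ A.valuation (h8yc W Q₂) < 1)) :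
    Q₂ = Q₁ := by
  obtain ⟨x₁, y₁, g₁, e₁, hx₁, hy₁, hx₁', hy₁'⟩ := hC.good h₁S h₁ hp₁
  obtain ⟨x₂, y₂, g₂, e₂, hx₂, hy₂, hx₂', hy₂'⟩ := hC.good h₂S h₂ hp₂
  subst e₁ e₂
  rw [h8yc_some, h8yc_some] at hcls
  have hxx : A.valuation (x₂ - x₁) < 1 := by
    have : x₂ - x₁ = (x₂ - 1) - (x₁ - 1) := by ring
    rw [this]
    exact Valuation.map_sub_lt _ hx₂' hx₁'
  have hyy : A.valuation (y₂ - y₁) < 1 := by
    by_cases hc : A.valuation y₁ < 1
    · exact Valuation.map_sub_lt _ (hcls.mp hc) hc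
    · have hc₂ : ¬ A.valuation y₂ < 1 := fun h => hc (hcls.mpr h)
      have e₁ : A.valuation (y₁ - 1) < 1 := hy₁'.resolve_left hc
      have e₂ : A.valuation (y₂ - 1) < 1 := hy₂'.resolve_left hc₂
      have : y₂ - y₁ = (y₂ - 1) - (y₁ - 1) := by ring
      rw [this]
      exact Valuation.map_sub_lt _ e₂ e₁
  have hker := inKer_sub_of_congr_two (A := A) hC.a₃ hC.two hC.a₁ hC.a₂ g₁ g₂ hx₁ hy₁ hxx hyy
  by_contra hne
  have hD0 : Point.some x₂ y₂ g₂ - Point.some x₁ y₁ g₁ ≠ 0 := sub_ne_zero.mpr hne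
  have hpD : p • (Point.some x₂ y₂ g₂ - Point.some x₁ y₁ g₁) = 0 := by
    rw [smul_sub, hp₁, hp₂, sub_zero]
  obtain ⟨hd, hDe⟩ := h8_exists_some hD0
  rw [hDe] at hker hpD
  exact hC.ker hd hker hpD

/-- **Core of L2b**: `S` contains no nonzero `p`-torsion point. -/
theorem no_torsion (hC : CoreData A W p m R S) {P : W.Point} (hPS : P ∈ S)
    (hpP : p • P = 0) : P = 0 := by
  by_contra hP
  have pp := hC.pp
  have hp5 := hC.p5
  have h2S : 2 • P ∈ S := S.nsmul_mem hPS 2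
  have h3S : 3 • P ∈ S := S.nsmul_mem hPS 3
  have h20 : 2 • P ≠ 0 := h8_nsmul_ne_zero pp hP hpP (by omega) (by omega)
  have h30 : 3 • P ≠ 0 := h8_nsmul_ne_zero pp hP hpP (by omega) (by omega)
  have hp2 : p • (2 • P) = 0 := h8_nsmul_torsion pp hP hpP 2
  have hp3 : p • (3 • P) = 0 := h8_nsmul_torsion pp hP hpP 3
  have h21 : 2 • P ≠ P := h8_nsmul_ne_self pp hP hpP le_rfl (by omega)
  have h31 : 3 • P ≠ P := h8_nsmul_ne_self pp hP hpP (by omega) (by omega)
  have h32 : 3 • P ≠ 2 • P := by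
    intro h
    have : P = 0 := by
      have e : 3 • P = 2 • P + P := by rw [succ_nsmul]
      rw [e] at h
      exact add_eq_left.mp h
    exact hP this
  by_cases c1 : A.valuation (h8yc W P) < 1 <;>
  by_cases c2 : A.valuation (h8yc W (2 • P)) < 1 <;>
  by_cases c3 : A.valuation (h8yc W (3 • P)) < 1
  · exact h21 (hC.eq_of_congr hPS hP hpP h2S h20 hp2 ⟨fun _ => c2, fun _ => c1⟩)
  · exact h21 (hC.eq_of_congr hPS hP hpP h2S h20 hp2 ⟨fun _ => c2, fun _ => c1⟩)
  · exact h31 (hC.eq_of_congr hPS hP hpP h3S h30 hp3 ⟨fun _ => c3, fun _ => c1⟩)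
  · exact h32 (hC.eq_of_congr h2S h20 hp2 h3S h30 hp3
      ⟨fun h => absurd h c2, fun h => absurd h c3⟩)
  · exact h32 (hC.eq_of_congr h2S h20 hp2 h3S h30 hp3 ⟨fun _ => c3, fun _ => c2⟩)
  · exact h31 (hC.eq_of_congr hPS hP hpP h3S h30 hp3
      ⟨fun h => absurd h c1, fun h => absurd h c3⟩)
  · exact h21 (hC.eq_of_congr hPS hP hpP h2S h20 hp2
      ⟨fun h => absurd h c1, fun h => absurd h c2⟩)
  · exact h21 (hC.eq_of_congr hPS hP hpP h2S h20 hp2
      ⟨fun h => absurd h c1, fun h => absurd h c2⟩)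

end CoreData

end Fermat.Agent.S13.L2.H8
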