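import Mathlib
import Fermat.Prelude.Def_FLTPrelim_FreyPackage
import Fermat.Prelude.Def_FLTPrelim_GaloisRep
import Fermat.Prelude.Def_FLTPrelim_Ramification
import Fermat.Agent.S05.H7_Inertia
import Fermat.Agent.S54.Frobenius
import Fermat.Agent.S13.Asm.H11_Interfaces
import Fermat.Agent.S13.L2.H8_L2bCore

/-!
# S13 / L2 (helper8): hedge of the deliverable L2b

`StL2b P`: the `p`-torsion of the Frey curve over `ℚ̄` contains no nonzero `Gal(ℚ̄/ℚ)`-fixed
point.  Proved from leaf K2 of package L2 (no `p`-torsion in the kernel of reduction at a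
valuation subring over `2`), stated here as the hypothesis `K2Statement`.

Ingredients: the generic core `CoreData.no_torsion` (`H8_L2bCore`), the arithmetic of the Frey
curve at `2` (`a₂ ∈ ℤ`, `b₂ = b^p - a^p` odd, `a₄ = 2^m u` with `u` odd, `m = p v₂(b) - 4 ≥ 1`,
`p ∤ 2 m`), the valuation of rational numbers at a valuation subring over `2`, and the fact that
`Gam`-fixed points have rational coordinates.
-/

set_option autoImplicit false
set_option linter.style.haveILetI false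

open WeierstrassCurve WeierstrassCurve.Affine WeierstrassCurve.Affine.Point

namespace Fermat.Agent.S13.L2.H8

open Fermat.Agent.S13.Asm Fermat.Agent.S05

/-! ### Integer arithmetic of the Frey package at `2` -/

lemma h8_a_odd (P : FreyPackage) : ¬ (2 : ℤ) ∣ P.a := by
  intro h
  have h4 := P.ha4
  obtain ⟨k, hk⟩ := h
  have : ((P.a : ZMod 4)) = 2 * (k : ZMod 4) := by rw [hk]; push_cast; ring
  rw [this] at h4
  have key : ∀ z : ZMod 4, 2 * z ≠ 3 := by decide
  exact key _ h4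

lemma h8_b_even (P : FreyPackage) : (2 : ℤ) ∣ P.b :=
  (ZMod.intCast_zmod_eq_zero_iff_dvd P.b 2).1 P.hb2

lemma h8_four_dvd (P : FreyPackage) : (4 : ℤ) ∣ P.b ^ P.p - 1 - P.a ^ P.p := by
  have hp5 := P.hp5
  have key : ((P.b ^ P.p - 1 - P.a ^ P.p : ℤ) : ZMod 4) = 0 := by
    push_cast
    rw [P.ha4]
    obtain ⟨k, hk⟩ := h8_b_even P
    obtain ⟨j, hj⟩ := P.hp_odd
    have hb : ((P.b : ZMod 4)) ^ P.p = 0 := by
      have h2 : (2 : ℤ) ^ 2 ∣ P.b ^ P.p := by
        have : P.b ^ P.p = P.b ^ 2 * P.b ^ (P.p - 2) := by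
          rw [← pow_add]; congr 1; omega
        rw [this, hk, mul_pow]
        exact Dvd.intro _ (mul_assoc _ _ _).symm
      have h4 : ((P.b ^ P.p : ℤ) : ZMod 4) = 0 :=
        (ZMod.intCast_zmod_eq_zero_iff_dvd _ 4).2 (by norm_num at h2; exact_mod_cast h2)
      push_cast at h4
      exact h4
    have h3 : (3 : ZMod 4) ^ P.p = 3 := by
      rw [hj, pow_succ, pow_mul]
      have : (3 : ZMod 4) ^ 2 = 1 := by decide
      rw [this, one_pow, one_mul]
    rw [hb, h3]
    decide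
  have := (ZMod.intCast_zmod_eq_zero_iff_dvd _ 4).1 key
  exact_mod_cast this
  
/-- `a₄ = 2 ^ m * u` with `m ≥ 1`, `p ∤ 2 m` and `u` odd. -/
lemma h8_a₄_arith (P : FreyPackage) :
    ∃ (m : ℕ) (u : ℤ), 0 < m ∧ ¬ P.p ∣ 2 * m ∧ ¬ (2 : ℤ) ∣ u ∧
      -(P.a ^ P.p) * (P.b ^ P.p) = 16 * (2 ^ m * u) := by
  have hp5 := P.hp5
  have h2irr : Irreducible (2 : ℤ) := Int.prime_two.irreducible
  obtain ⟨e, b', hb', hbe⟩ := WfDvdMonoid.max_power_factor P.hb0 h2irr
  have he : 0 < e := by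
    rcases Nat.eq_zero_or_pos e with h0 | h
    · exfalso
      rw [h0, pow_zero, one_mul] at hbe
      exact hb' (hbe ▸ h8_b_even P)
    · exact h
  have hpe : 5 ≤ P.p * e := by nlinarith
  refine ⟨P.p * e - 4, -(P.a * b') ^ P.p, by omega, ?_, ?_, ?_⟩
  · intro hdvd
    have h1 : P.p ∣ 2 * (P.p * e - 4) + 8 := by
      have : 2 * (P.p * e - 4) + 8 = P.p * (2 * e) := by
        have : P.p * e - 4 + 4 = P.p * e := by omega
        nlinarith
      rw [this]
      exact Dvd.intro _ rfl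
    have h8 : P.p ∣ 8 := (Nat.dvd_add_right hdvd).mp h1
    have : P.p ∣ 2 := by
      have h8' : P.p ∣ 2 ^ 3 := by norm_num; exact h8
      exact P.pp.dvd_of_dvd_pow h8'
    have := Nat.le_of_dvd (by norm_num) this
    omega
  · intro h
    rw [dvd_neg] at h
    have := Int.prime_two.dvd_of_dvd_pow h
    rcases Int.prime_two.dvd_or_dvd this with h | h
    · exact h8_a_odd P h
    · exact hb' h
  · have h16 : (16 : ℤ) * 2 ^ (P.p * e - 4) = 2 ^ (P.p * e) := by
      have : (16 : ℤ) = 2 ^ 4 := by norm_num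
      rw [this, ← pow_add]
      congr 1
      omega
    calc -(P.a ^ P.p) * (P.b ^ P.p) = -(P.a ^ P.p) * ((2 ^ e * b') ^ P.p) := by rw [← hbe]
      _ = (2 ^ (P.p * e)) * (-(P.a * b') ^ P.p) := by
        rw [mul_pow, mul_pow, ← pow_mul, mul_comm e P.p]; ring
      _ = 16 * (2 ^ (P.p * e - 4) * -(P.a * b') ^ P.p) := by rw [← h16]; ring

/-! ### Rational numbers inside `Kbar` at a valuation subring over `2` -/

section rat

variable {A : ValuationSubring Kbar} (hA : A.LiesOverPrime 2)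
include hA

lemma h8_val_two_lt : A.valuation (2 : Kbar) < 1 := by
  have := H7.valuation_natCast_lt_one (L := Kbar) (A := A) hA
  simpa using this

lemma h8_val_int_odd {n : ℤ} (hn : ¬ (2 : ℤ) ∣ n) : A.valuation (n : Kbar) = 1 :=
  H7.valuation_intCast_eq_one (L := Kbar) (A := A) Nat.prime_two hA (by exact_mod_cast hn)

lemma h8_val_int_even {n : ℤ} (hn : (2 : ℤ) ∣ n) : A.valuation (n : Kbar) < 1 :=
  (H7.valuation_intCast_lt_one_iff (L := Kbar) (A := A) Nat.prime_two hA n).2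
    (by exact_mod_cast hn)

lemma h8_val_int_pow {n : ℤ} (hn : n ≠ 0) :
    ∃ k : ℕ, A.valuation (n : Kbar) = A.valuation (2 : Kbar) ^ k := by
  obtain ⟨k, m, -, -, h⟩ :=
    H7.valuation_intCast_eq_pow (L := Kbar) (A := A) Nat.prime_two hA hn
  exact ⟨k, by simpa using h⟩

/-- The valuation of a nonzero rational number is an integral power of `v 2`. -/
lemma h8_rat_val (r : Kbar) (hr : r ∈ Set.range (algebraMap ℚ Kbar)) (hr0 : r ≠ 0) :
    ∃ j : ℤ, A.valuation r = A.valuation (2 : Kbar) ^ j := by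
  obtain ⟨q, rfl⟩ := hr
  have hq0 : q ≠ 0 := by
    rintro rfl
    exact hr0 (map_zero _)
  have hnum : q.num ≠ 0 := Rat.num_ne_zero.mpr hq0
  have hden : (q.den : ℤ) ≠ 0 := by exact_mod_cast q.den_nz
  obtain ⟨k, hk⟩ := h8_val_int_pow hA hnum
  obtain ⟨l, hl⟩ := h8_val_int_pow hA hden
  refine ⟨(k : ℤ) - l, ?_⟩
  have hq : algebraMap ℚ Kbar q = (q.num : Kbar) / ((q.den : ℤ) : Kbar) := by
    conv_lhs => rw [← Rat.num_div_den q]
    simp
  have h20 : A.valuation (2 : Kbar) ≠ 0 := (map_ne_zero _).mpr two_ne_zero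
  rw [hq, map_div₀, hk, hl, zpow_sub₀ h20, zpow_natCast, zpow_natCast]

/-- An integral rational number is congruent to `0` or `1` modulo the maximal ideal. -/
lemma h8_rat_res (r : Kbar) (hr : r ∈ Set.range (algebraMap ℚ Kbar))
    (hr1 : A.valuation r ≤ 1) : A.valuation r < 1 ∨ A.valuation (r - 1) < 1 := by
  obtain ⟨q, rfl⟩ := hr
  have hq : algebraMap ℚ Kbar q = (q.num : Kbar) / ((q.den : ℤ) : Kbar) := by
    conv_lhs => rw [← Rat.num_div_den q]
    simp
  have hdenK : ((q.den : ℤ) : Kbar) ≠ 0 := by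
    have := q.den_nz
    exact_mod_cast this
  -- the denominator is odd
  have hden_odd : ¬ (2 : ℤ) ∣ (q.den : ℤ) := by
    intro hd
    have hnum_odd : ¬ (2 : ℤ) ∣ q.num := by
      intro hn
      have hcop := q.reduced
      have h1 : (2 : ℕ) ∣ q.num.natAbs := by
        have := Int.natAbs_dvd_natAbs.mpr hn
        simpa using this
      have h2 : (2 : ℕ) ∣ q.den := by exact_mod_cast hd
      have := Nat.dvd_gcd h1 h2
      rw [Nat.Coprime] at hcop
      rw [hcop] at this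
      omega
    have e1 := h8_val_int_odd hA hnum_odd
    have e2 := h8_val_int_even hA hd
    rw [hq, map_div₀, e1] at hr1
    have hpos : 0 < A.valuation ((q.den : ℤ) : Kbar) :=
      zero_lt_iff.mpr ((map_ne_zero _).mpr hdenK)
    rw [div_le_one₀ hpos] at hr1
    exact absurd e2 (not_lt.2 hr1)
  have e2 := h8_val_int_odd hA hden_odd
  by_cases hn : (2 : ℤ) ∣ q.num
  · left
    rw [hq, map_div₀, e2, div_one]
    exact h8_val_int_even hA hn
  · right
    have hsub : (2 : ℤ) ∣ q.num - (q.den : ℤ) := by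
      have h1 : q.num % 2 = 1 := by omega
      have h2 : (q.den : ℤ) % 2 = 1 := by omega
      omega
    have : algebraMap ℚ Kbar q - 1 = ((q.num - (q.den : ℤ) : ℤ) : Kbar) / ((q.den : ℤ) : Kbar) := by
      rw [hq]
      push_cast
      field_simp
    rw [this, map_div₀, e2, div_one]
    exact h8_val_int_even hA hsub

end rat

/-! ### Galois-fixed points have rational coordinates -/

/-- The subgroup of `Gam`-fixed points. -/
noncomputable def fixedPoints (P : FreyPackage) : AddSubgroup (P.freyCurve⁄Kbar).Point where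
  carrier := {Q | ∀ σ : Gam, σ • Q = Q}
  zero_mem' := fun σ => smul_zero σ
  add_mem' := by
    intro Q₁ Q₂ h₁ h₂ σ
    have e : σ • (Q₁ + Q₂) = σ • Q₁ + σ • Q₂ := smul_add σ Q₁ Q₂
    rw [e, h₁ σ, h₂ σ]
  neg_mem' := by
    intro Q h σ
    have e : σ • (-Q) = -(σ • Q) := smul_neg σ Q
    rw [e, h σ]

lemma mem_fixedPoints {P : FreyPackage} {Q : (P.freyCurve⁄Kbar).Point} :
    Q ∈ fixedPoints P ↔ ∀ σ : Gam, σ • Q = Q := Iff.rfl

theorem h8_isGalois_rat : IsGalois ℚ (AlgebraicClosure ℚ) := by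
  haveI : Algebra.IsAlgebraic ℚ (AlgebraicClosure ℚ) := AlgebraicClosure.isAlgebraic ℚ
  haveI : IsAlgClosure ℚ (AlgebraicClosure ℚ) :=
    (inferInstance :
      @IsAlgClosure ℚ (AlgebraicClosure ℚ) _ _ (AlgebraicClosure.instAlgebra ℚ) _)
  haveI : Normal ℚ (AlgebraicClosure ℚ) := IsAlgClosure.normal ℚ (AlgebraicClosure ℚ)
  exact IsGalois.mk

lemma h8_coord_rat {P : FreyPackage} {x y : Kbar}
    (h : (P.freyCurve⁄Kbar).toAffine.Nonsingular x y)
    (hS : (Point.some x y h : (P.freyCurve⁄Kbar).Point) ∈ fixedPoints P) :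
    x ∈ Set.range (algebraMap ℚ Kbar) ∧ y ∈ Set.range (algebraMap ℚ Kbar) := by
  have hfix : ∀ σ : Gam, σ x = x ∧ σ y = y := by
    intro σ
    have := hS σ
    rw [algEquiv_smul_def, Point.map_some] at this
    have h' := Point.some.inj this
    exact ⟨h'.1, h'.2⟩
  haveI := h8_isGalois_rat
  constructor
  · exact (InfiniteGalois.mem_range_algebraMap_iff_fixed x).mpr fun σ => (hfix σ).1
  · exact (InfiniteGalois.mem_range_algebraMap_iff_fixed y).mpr fun σ => (hfix σ).2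

section coeffs

variable (P : FreyPackage)

lemma h8_a₁ : (P.freyCurve⁄Kbar).a₁ = 1 := by
  simp [WeierstrassCurve.baseChange, FreyPackage.freyCurve]

lemma h8_a₃ : (P.freyCurve⁄Kbar).a₃ = 0 := by
  simp [WeierstrassCurve.baseChange, FreyPackage.freyCurve]

lemma h8_a₆ : (P.freyCurve⁄Kbar).a₆ = 0 := by
  simp [WeierstrassCurve.baseChange, FreyPackage.freyCurve]

lemma h8_a₂_eq : (P.freyCurve⁄Kbar).a₂ =
    algebraMap ℚ Kbar (((P.b : ℚ) ^ P.p - 1 - (P.a : ℚ) ^ P.p) / 4) := by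
  simp [WeierstrassCurve.baseChange, FreyPackage.freyCurve]

lemma h8_a₄_eq : (P.freyCurve⁄Kbar).a₄ =
    algebraMap ℚ Kbar (-((P.a : ℚ) ^ P.p) * ((P.b : ℚ) ^ P.p) / 16) := by
  simp [WeierstrassCurve.baseChange, FreyPackage.freyCurve]

end coeffs

/-! ### The Frey curve at a valuation subring over `2` -/

section frey

variable (P : FreyPackage)

lemma h8_a₂_int : ∃ n : ℤ, (P.freyCurve⁄Kbar).a₂ = (n : Kbar) := by
  obtain ⟨n, hn⟩ := h8_four_dvd P
  refine ⟨n, ?_⟩
  rw [h8_a₂_eq]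
  have h := congrArg (fun z : ℤ => (z : ℚ)) hn
  push_cast at h
  have : ((P.b : ℚ) ^ P.p - 1 - (P.a : ℚ) ^ P.p) / 4 = (n : ℚ) := by
    rw [h]
    field_simp
  rw [this]
  simp

lemma h8_b₂_eq : (P.freyCurve⁄Kbar).b₂ = ((P.b ^ P.p - P.a ^ P.p : ℤ) : Kbar) := by
  have e : (P.freyCurve⁄Kbar).b₂ =
      algebraMap ℚ Kbar ((P.b : ℚ) ^ P.p - (P.a : ℚ) ^ P.p) := by
    simp only [b₂]
    rw [h8_a₁, h8_a₂_eq]
    have : (P.b : ℚ) ^ P.p - (P.a : ℚ) ^ P.p =
        1 ^ 2 + 4 * (((P.b : ℚ) ^ P.p - 1 - (P.a : ℚ) ^ P.p) / 4) := by ring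
    rw [this, map_add, map_mul, map_pow, map_one, map_ofNat]
  rw [e]
  simp

lemma h8_b₂_odd : ¬ (2 : ℤ) ∣ P.b ^ P.p - P.a ^ P.p := by
  intro h
  have hb : (2 : ℤ) ∣ P.b ^ P.p := dvd_pow (h8_b_even P) P.hp0
  have ha : (2 : ℤ) ∣ P.a ^ P.p := by
    have := dvd_sub hb h
    simpa using this
  exact h8_a_odd P (Int.prime_two.dvd_of_dvd_pow ha)

lemma h8_a₄_pow : ∃ (m : ℕ) (u : ℤ), 0 < m ∧ ¬ P.p ∣ 2 * m ∧ ¬ (2 : ℤ) ∣ u ∧
    (P.freyCurve⁄Kbar).a₄ = (2 : Kbar) ^ m * (u : Kbar) := by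
  obtain ⟨m, u, hm, hpm, hu, h⟩ := h8_a₄_arith P
  refine ⟨m, u, hm, hpm, hu, ?_⟩
  rw [h8_a₄_eq]
  have hq := congrArg (fun z : ℤ => (z : ℚ)) h
  push_cast at hq
  have : -((P.a : ℚ) ^ P.p) * ((P.b : ℚ) ^ P.p) / 16 = (2 : ℚ) ^ m * (u : ℚ) := by
    rw [hq]
    field_simp
  rw [this]
  simp

lemma h8_p_odd : ¬ (2 : ℤ) ∣ (P.p : ℤ) := by
  intro h
  have h2 : (2 : ℕ) ∣ P.p := by exact_mod_cast h
  have := (Nat.prime_dvd_prime_iff_eq Nat.prime_two P.pp).mp h2
  have := P.hp5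
  omega

end frey

/-- Leaf K2 of package L2 over `Kbar` (statement of findings #126), as a proposition. -/
def K2Statement : Prop :=
  ∀ (A : ValuationSubring Kbar) (W : Affine Kbar), W.a₃ = 0 → W.a₆ = 0 →
    A.valuation W.a₁ ≤ 1 → A.valuation W.a₂ ≤ 1 → A.valuation W.a₄ ≤ 1 →
    ∀ n : ℕ, A.valuation (n : Kbar) = 1 →
    ∀ (x y : Kbar) (h : W.Nonsingular x y), 1 < A.valuation x → n • Point.some x y h ≠ 0

/-- The hypotheses of the generic core hold for the Frey curve at any valuation subring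
over `2`. -/
theorem coreData (hK2 : K2Statement) (P : FreyPackage) {A : ValuationSubring Kbar}
    (hA : A.LiesOverPrime 2) :
    ∃ m : ℕ, CoreData A (P.freyCurve⁄Kbar).toAffine P.p m (Set.range (algebraMap ℚ Kbar))
      (fixedPoints P) := by
  obtain ⟨m, u, hm, hpm, hu, ha₄⟩ := h8_a₄_pow P
  obtain ⟨n₂, hn₂⟩ := h8_a₂_int P
  have hv2 := h8_val_two_lt hA
  have hvu : A.valuation (u : Kbar) = 1 := h8_val_int_odd hA hu
  have hbe : A.valuation (P.freyCurve⁄Kbar).a₄ = A.valuation (2 : Kbar) ^ m := by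
    rw [ha₄, map_mul, map_pow, hvu, mul_one]
  have hbe1 : A.valuation (P.freyCurve⁄Kbar).a₄ ≤ 1 := by
    rw [hbe]
    exact pow_le_one₀ zero_le (le_of_lt hv2)
  have hu0 : (u : Kbar) ≠ 0 := by
    intro h0
    rw [h0, _root_.map_zero] at hvu
    exact zero_ne_one hvu
  have ha₁ : A.valuation (P.freyCurve⁄Kbar).a₁ = 1 := by rw [h8_a₁, map_one]
  have ha₂ : A.valuation (P.freyCurve⁄Kbar).a₂ ≤ 1 := by
    rw [hn₂]
    exact H7.valuation_intCast_le_one n₂
  have hvp : A.valuation ((P.p : ℕ) : Kbar) = 1 := by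
    have := h8_val_int_odd hA (h8_p_odd P)
    simpa using this
  refine ⟨m,
    { a₃ := h8_a₃ P
      a₆ := h8_a₆ P
      a₁ := ha₁
      a₂ := ha₂
      b₂ := by rw [h8_b₂_eq]; exact h8_val_int_odd hA (h8_b₂_odd P)
      be0 := by rw [ha₄]; exact mul_ne_zero (pow_ne_zero _ two_ne_zero) hu0
      be := hbe
      m_pos := hm
      two := hv2
      two_ne := two_ne_zero
      pp := P.pp
      p5 := P.hp5
      pm := hpm
      ker := fun {x y} h hx =>
        hK2 A _ (h8_a₃ P) (h8_a₆ P) (le_of_eq ha₁) ha₂ hbe1 P.p hvp x y h hx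
      rat_val := fun r hr hr0 => h8_rat_val hA r hr hr0
      rat_res := fun r hr hr1 => h8_rat_res hA r hr hr1
      coord := fun {x y} h hS => h8_coord_rat h hS }⟩

/-- **Hedge of deliverable L2b**: no nonzero `Gam`-fixed point in `E[p]`, from leaf K2. -/
theorem stL2b_of_K2 (hK2 : K2Statement) (P : FreyPackage) : StL2b P := by
  intro x hx
  obtain ⟨A, hA⟩ := S54.exists_liesOverPrime 2 Nat.prime_two
  obtain ⟨m, hC⟩ := coreData hK2 P hA
  have hxS : (x : (P.freyCurve⁄Kbar).Point) ∈ fixedPoints P := fun σ =>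
    congrArg Subtype.val (hx σ)
  have hpx : P.p • (x : (P.freyCurve⁄Kbar).Point) = 0 := by
    have := (Submodule.mem_torsionBy_iff _ _).mp x.2
    rwa [natCast_zsmul] at this
  exact Subtype.ext (hC.no_torsion hxS hpx)

end Fermat.Agent.S13.L2.H8
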