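import Mathlib
import Fermat.Agent.S13.L2.H7_K
import Fermat.Agent.S13.L2.H8_L2b

/-!
# S13 / L2 (helper8): deliverable L2b (hedge), hypothesis free

`Fermat.Agent.S13.L2.H8.stL2b : ∀ P, Asm.StL2b P` - the `p`-torsion of the Frey curve has no
nonzero `Gal(ℚ̄/ℚ)`-fixed point - from `stL2b_of_K2` and helper7's landed leaf K2
(`nsmul_ne_zero_of_inKer`).
-/

set_option autoImplicit false

open WeierstrassCurve WeierstrassCurve.Affine

namespace Fermat.Agent.S13.L2.H8

open Fermat.Agent.S13.Asm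

theorem k2Statement : K2Statement :=
  fun _ _ h3 h6 h1 h2 h4 _ hn _ _ h hx => nsmul_ne_zero_of_inKer h3 h6 h1 h2 h4 hn h hx

/-- **Deliverable L2b** (hedge): no nonzero `Gam`-fixed point in `E[p]`. -/
theorem stL2b (P : FreyPackage) : StL2b P := stL2b_of_K2 k2Statement P

end Fermat.Agent.S13.L2.H8
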