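import Fermat.Agent.S13.L2.H20_Vieta

/-!
# S13, package L2, leaf GG (helper19): good + good = good

On the nodal model `y² + a₁ x y = x³ + a₂ x² + a₄ x` (`a₁, a₂` integral, `a₄` a nonunit), the sum
of two affine points with `1 ≤ v x` (points not reducing to the node) again satisfies `1 ≤ v x`,
as soon as the sum is an affine point.  Port of `Fermat.Agent.S05.W3.leaf_GG`; the key identity
is `x₃ (x₂ y₁ + x₁ y₂ + a₁ x₁ x₂)² = x₁ x₂ (x₁ x₂ - a₄)²`.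
-/

open WeierstrassCurve WeierstrassCurve.Affine

namespace Fermat.Agent.S13.L2

variable {K : Type*} [Field K]
variable {A : ValuationSubring K}

/-- For the line `y = L x + N` through `(x₁, y₁)` and `(x₂, y₂)`:
`N (x₂ y₁ + x₁ y₂ + a₁ x₁ x₂) = x₁ x₂ (a₄ - x₁ x₂)`. -/
theorem h19_N_mul {a1 be x₁ y₁ x₂ y₂ x₃ L N : K}
    (e₁ : y₁ = L * x₁ + N) (e₂ : y₂ = L * x₂ + N)
    (V₂ : x₁ * x₂ + x₁ * x₃ + x₂ * x₃ = be - (2 * L + a1) * N)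
    (V₃ : x₁ * x₂ * x₃ = N ^ 2) :
    N * (x₂ * y₁ + x₁ * y₂ + a1 * x₁ * x₂) = x₁ * x₂ * (be - x₁ * x₂) := by
  rw [e₁, e₂]
  linear_combination x₁ * x₂ * V₂ - (x₁ + x₂) * V₃

/-- The key identity in denominator-free form: for the third point `x₃` of the line
`y = L x + N` through `(x₁, y₁)` and `(x₂, y₂)`,
`x₃ (x₂ y₁ + x₁ y₂ + a₁ x₁ x₂)² = x₁ x₂ (x₁ x₂ - a₄)²` (for `x₁ x₂ ≠ 0`). -/
theorem h19_key_identity {a1 be x₁ y₁ x₂ y₂ x₃ L N : K} (hx : x₁ * x₂ ≠ 0)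
    (e₁ : y₁ = L * x₁ + N) (e₂ : y₂ = L * x₂ + N)
    (V₂ : x₁ * x₂ + x₁ * x₃ + x₂ * x₃ = be - (2 * L + a1) * N)
    (V₃ : x₁ * x₂ * x₃ = N ^ 2) :
    x₃ * (x₂ * y₁ + x₁ * y₂ + a1 * x₁ * x₂) ^ 2 = x₁ * x₂ * (x₁ * x₂ - be) ^ 2 := by
  have hN := h19_N_mul e₁ e₂ V₂ V₃
  apply mul_left_cancel₀ hx
  linear_combination (x₂ * y₁ + x₁ * y₂ + a1 * x₁ * x₂) ^ 2 * V₃ +
    (N * (x₂ * y₁ + x₁ * y₂ + a1 * x₁ * x₂) + x₁ * x₂ * (be - x₁ * x₂)) * hN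

/-- On the nodal model, `v y ^ 2 ≤ v x ^ 3` for a point with `1 ≤ v x`, when `a₁`, `a₂`, `a₄`
are integral. -/
theorem h19_val_y_sq_le {a1 al be x y : K} (ha1 : A.valuation a1 ≤ 1)
    (hal : A.valuation al ≤ 1) (hbe : A.valuation be ≤ 1)
    (heq : y ^ 2 + a1 * x * y = x ^ 3 + al * x ^ 2 + be * x) (hx : 1 ≤ A.valuation x) :
    A.valuation y ^ 2 ≤ A.valuation x ^ 3 := by
  set v := A.valuation with hv
  have h1 : v (x ^ 3) = v x ^ 3 := map_pow _ _ _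
  have hx2 : v x ^ 2 ≤ v x ^ 3 := pow_le_pow_right₀ hx (by norm_num)
  have hx1 : v x ≤ v x ^ 3 := by
    simpa using pow_le_pow_right₀ hx (show 1 ≤ 3 by norm_num)
  have h2 : v (al * x ^ 2) ≤ v x ^ 3 := by
    rw [map_mul, map_pow]
    calc v al * v x ^ 2 ≤ 1 * v x ^ 2 := mul_le_mul_left hal _
      _ = v x ^ 2 := one_mul _
      _ ≤ v x ^ 3 := hx2
  have h3 : v (be * x) ≤ v x ^ 3 := by
    rw [map_mul]
    calc v be * v x ≤ 1 * v x := mul_le_mul_left hbe _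
      _ = v x := one_mul _
      _ ≤ v x ^ 3 := hx1
  have hR : v (x ^ 3 + al * x ^ 2 + be * x) ≤ v x ^ 3 :=
    v.map_add_le (v.map_add_le h1.le h2) h3
  by_contra hcon
  rw [not_le] at hcon
  -- `v x < v y`
  have hxy : v x < v y := by
    by_contra h
    rw [not_lt] at h
    have : v y ^ 2 ≤ v x ^ 3 := (pow_le_pow_left' h 2).trans hx2
    exact absurd hcon (not_lt.mpr this)
  have hy0 : 0 < v y := lt_of_le_of_lt zero_le hxy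
  have hlt : v (a1 * x * y) < v (y ^ 2) := by
    rw [map_mul, map_mul, map_pow, sq]
    calc v a1 * v x * v y ≤ 1 * v x * v y := by
          gcongr
      _ = v x * v y := by rw [one_mul]
      _ < v y * v y := mul_lt_mul_of_pos_right hxy hy0
  have hL : v (y ^ 2 + a1 * x * y) = v y ^ 2 := by
    rw [Valuation.map_add_eq_of_lt_left v hlt, map_pow]
  rw [heq] at hL
  rw [hL] at hR
  exact absurd hcon (not_lt.mpr hR)

end Fermat.Agent.S13.L2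

namespace Fermat.Agent.S13.L2

variable {K : Type*} [Field K] [DecidableEq K] {A : ValuationSubring K} {W : Affine K} {ρ : K}

variable {x₁ y₁ x₂ y₂ x₃ y₃ : K}
  {h₁ : W.Nonsingular x₁ y₁} {h₂ : W.Nonsingular x₂ y₂} {h₃ : W.Nonsingular x₃ y₃}

/-- **Leaf GG**: good + good = good. -/
theorem leaf_GG (hD : Nodal A W ρ)
    (hsum : Point.some x₁ y₁ h₁ + Point.some x₂ y₂ h₂ = Point.some x₃ y₃ h₃)
    (hG₁ : 1 ≤ A.valuation x₁) (hG₂ : 1 ≤ A.valuation x₂) :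
    1 ≤ A.valuation x₃ := by
  -- `P₁ ≠ -P₂`
  have hxy : ¬(x₁ = x₂ ∧ y₁ = -y₂ - W.a₁ * x₂) := by
    rintro ⟨hx, hy⟩
    have h0 : Point.some x₁ y₁ h₁ + Point.some x₂ y₂ h₂ = 0 :=
      Point.add_of_Y_eq hx (by rw [h20_negY hD.a₃]; exact hy)
    rw [h0] at hsum
    exact Point.some_ne_zero h₃ hsum.symm
  obtain ⟨L, N, x₃', h₃', hs, -, e₁, e₂, -, V₂, V₃⟩ :=
    line_of_add_some hD.a₃ hD.a₆ h₁ h₂ hxy
  rw [hsum] at hs
  have hx₃ : x₃ = x₃' := by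
    have := hs
    simp only [Point.some.injEq] at this
    exact this.1
  subst hx₃
  set v := A.valuation with hv
  have hX : 1 ≤ v (x₁ * x₂) := by
    rw [map_mul]; exact one_le_mul_of_one_le_of_one_le hG₁ hG₂
  have hx12 : x₁ * x₂ ≠ 0 := by
    intro h0
    rw [h0, map_zero] at hX
    exact absurd hX (not_le.mpr zero_lt_one)
  have key := h19_key_identity hx12 e₁ e₂ V₂ V₃
  -- valuations
  have ha1 : v W.a₁ ≤ 1 := hD.a₁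
  have hal : v W.a₂ ≤ 1 := hD.val_a₂_le
  have hbe : v W.a₄ ≤ 1 := hD.be.le
  have hy₁ : v y₁ ^ 2 ≤ v x₁ ^ 3 :=
    h19_val_y_sq_le ha1 hal hbe ((h20_equation_iff hD.a₃ hD.a₆ x₁ y₁).mp h₁.1) hG₁
  have hy₂ : v y₂ ^ 2 ≤ v x₂ ^ 3 :=
    h19_val_y_sq_le ha1 hal hbe ((h20_equation_iff hD.a₃ hD.a₆ x₂ y₂).mp h₂.1) hG₂
  -- `v (x₁ x₂ - a₄) = v (x₁ x₂)`
  have hXbe : v (x₁ * x₂ - W.a₄) = v (x₁ * x₂) := by
    rw [sub_eq_add_neg]
    refine Valuation.map_add_eq_of_lt_left v ?_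
    rw [Valuation.map_neg]
    exact lt_of_lt_of_le hD.be hX
  -- `v (x₂ y₁ + x₁ y₂ + a₁ x₁ x₂) ^ 2 ≤ v (x₁ x₂) ^ 3`
  have hY₁ : v (x₂ * y₁) ^ 2 ≤ v (x₁ * x₂) ^ 3 := by
    rw [map_mul, map_mul, mul_pow, mul_pow]
    calc v x₂ ^ 2 * v y₁ ^ 2 ≤ v x₂ ^ 3 * v x₁ ^ 3 :=
          mul_le_mul' (pow_le_pow_right₀ hG₂ (by norm_num)) hy₁
      _ = v x₁ ^ 3 * v x₂ ^ 3 := mul_comm _ _
  have hY₂ : v (x₁ * y₂) ^ 2 ≤ v (x₁ * x₂) ^ 3 := by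
    rw [map_mul, map_mul, mul_pow, mul_pow]
    exact mul_le_mul' (pow_le_pow_right₀ hG₁ (by norm_num)) hy₂
  have hY₃ : v (W.a₁ * x₁ * x₂) ^ 2 ≤ v (x₁ * x₂) ^ 3 := by
    have e : W.a₁ * x₁ * x₂ = W.a₁ * (x₁ * x₂) := by ring
    rw [e, map_mul, mul_pow]
    calc v W.a₁ ^ 2 * v (x₁ * x₂) ^ 2 ≤ 1 * v (x₁ * x₂) ^ 2 := by
          gcongr
          exact pow_le_one₀ zero_le ha1
      _ = v (x₁ * x₂) ^ 2 := one_mul _
      _ ≤ v (x₁ * x₂) ^ 3 := pow_le_pow_right₀ hX (by norm_num)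
  have hY : v (x₂ * y₁ + x₁ * y₂ + W.a₁ * x₁ * x₂) ^ 2 ≤ v (x₁ * x₂) ^ 3 := by
    have hmax : v (x₂ * y₁ + x₁ * y₂ + W.a₁ * x₁ * x₂) ≤
        max (max (v (x₂ * y₁)) (v (x₁ * y₂))) (v (W.a₁ * x₁ * x₂)) :=
      (v.map_add _ _).trans (max_le_max (v.map_add _ _) le_rfl)
    rcases le_max_iff.mp hmax with h | h
    · rcases le_max_iff.mp h with h | h
      · exact (pow_le_pow_left' h 2).trans hY₁
      · exact (pow_le_pow_left' h 2).trans hY₂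
    · exact (pow_le_pow_left' h 2).trans hY₃
  -- take valuations in the key identity
  have hkey : v x₃ * v (x₂ * y₁ + x₁ * y₂ + W.a₁ * x₁ * x₂) ^ 2 = v (x₁ * x₂) ^ 3 := by
    have := congrArg v key
    rw [map_mul, map_pow, map_mul (f := v) (x₁ * x₂), map_pow, hXbe] at this
    rw [this, ← pow_succ']
  by_contra hlt
  rw [not_le] at hlt
  have hX0 : v (x₁ * x₂) ^ 3 ≠ 0 := by
    refine pow_ne_zero _ ?_
    exact (lt_of_lt_of_le zero_lt_one hX).ne'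
  have hY0 : v (x₂ * y₁ + x₁ * y₂ + W.a₁ * x₁ * x₂) ^ 2 ≠ 0 := by
    intro h0
    rw [h0, mul_zero] at hkey
    exact hX0 hkey.symm
  have : v x₃ * v (x₂ * y₁ + x₁ * y₂ + W.a₁ * x₁ * x₂) ^ 2 < v (x₁ * x₂) ^ 3 := by
    calc v x₃ * v (x₂ * y₁ + x₁ * y₂ + W.a₁ * x₁ * x₂) ^ 2
          < 1 * v (x₂ * y₁ + x₁ * y₂ + W.a₁ * x₁ * x₂) ^ 2 :=
          mul_lt_mul_of_pos_right hlt (zero_lt_iff.mpr hY0)
      _ = v (x₂ * y₁ + x₁ * y₂ + W.a₁ * x₁ * x₂) ^ 2 := one_mul _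
      _ ≤ v (x₁ * x₂) ^ 3 := hY
  exact this.ne hkey

end Fermat.Agent.S13.L2
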