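import Fermat.Agent.S13.L2.H20_Vieta

/-!
# S13, package L2, leaf GM (helper19): good + middle = middle

On the nodal model `y² + a₁ x y = x³ + a₂ x² + a₄ x` (`ρ² + a₁ ρ = a₂`, `a₁ + 2 ρ` a unit,
`v a₄ < 1`): if `P₁` is a good point (`1 ≤ v x₁`) and `P₂` is a middle point (`v a₄ < v x₂ < 1`)
of sign `+` (`v (y₂ / x₂ - ρ) < 1`), then `P₃ = P₁ + P₂` is a middle point with `v x₃ = v x₂` and
the same sign.  Port of `Fermat.Agent.S05.W3.leaf_GM`.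

With `tᵢ = yᵢ / xᵢ`, `D = t₂ - t₁`, `S = t₁ + t₂ + a₁` and the line `y = L x + N` through
`P₁`, `P₂`:
`D S x₁ x₂ = (x₁ - x₂) (a₄ - x₁ x₂)`, `D + S = (a₁ + 2 ρ) + 2 (t₂ - ρ)` is a unit,
`N (x₁ - x₂) = x₁ x₂ D`, `x₁ x₂ x₃ = N²` and `t₃ - ρ = (t₂ - ρ) + N / x₁ - a₄ / N`.
-/

open WeierstrassCurve WeierstrassCurve.Affine

namespace Fermat.Agent.S13.L2

section Core

variable {K : Type*} [Field K] {Γ₀ : Type*} [LinearOrderedCommGroupWithZero Γ₀]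

/-- The valuation core of leaf GM, in terms of `t_i = y_i / x_i`. -/
lemma h19_GM_core (v : Valuation K Γ₀) {a1 al be ρ x₁ x₂ x₃ t₁ t₂ t₃ L N : K}
    (hu : v (a1 + 2 * ρ) = 1)
    (E₁ : (t₁ ^ 2 + a1 * t₁) * x₁ = x₁ ^ 2 + al * x₁ + be)
    (E₂ : (t₂ ^ 2 + a1 * t₂) * x₂ = x₂ ^ 2 + al * x₂ + be)
    (e₁ : x₁ * t₁ = L * x₁ + N) (e₂ : x₂ * t₂ = L * x₂ + N)
    (V2 : x₁ * x₂ + x₁ * x₃ + x₂ * x₃ = be - (2 * L + a1) * N)
    (V3 : x₁ * x₂ * x₃ = N ^ 2)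
    (e₃ : t₃ = (-(L * x₃ + N) - a1 * x₃) / x₃)
    (hG₁ : 1 ≤ v x₁) (hM₂ : v be < v x₂) (hM₂' : v x₂ < 1) (hs₂ : v (t₂ - ρ) < 1) :
    v x₃ = v x₂ ∧ v (t₃ - ρ) < 1 := by
  -- basic nonvanishing
  have hx₁pos : 0 < v x₁ := lt_of_lt_of_le zero_lt_one hG₁
  have hx₁ : x₁ ≠ 0 := (Valuation.ne_zero_iff v).mp hx₁pos.ne'
  have hx₂pos : 0 < v x₂ := lt_of_le_of_lt zero_le hM₂
  have hx₂ : x₂ ≠ 0 := (Valuation.ne_zero_iff v).mp hx₂pos.ne'
  have hlt : v x₂ < v x₁ := lt_of_lt_of_le hM₂' hG₁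
  have hX : v (x₁ - x₂) = v x₁ := Valuation.map_sub_eq_of_lt_left v hlt
  -- D = t₂ - t₁, S = t₁ + t₂ + a₁
  have hDS : (t₂ - t₁) * (t₁ + t₂ + a1) * (x₁ * x₂) = (x₁ - x₂) * (be - x₁ * x₂) := by
    linear_combination x₁ * E₂ - x₂ * E₁
  have hbx : v (be - x₁ * x₂) = v x₁ * v x₂ := by
    have h1 : v be < v (x₁ * x₂) := by
      rw [map_mul]
      calc v be < v x₂ := hM₂
        _ = 1 * v x₂ := (one_mul _).symm
        _ ≤ v x₁ * v x₂ := mul_le_mul_left hG₁ _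
    rw [Valuation.map_sub_eq_of_lt_right v h1, map_mul]
  have hDSv : v (t₂ - t₁) * v (t₁ + t₂ + a1) = v x₁ := by
    have h := congrArg v hDS
    rw [map_mul, map_mul, map_mul, map_mul, hX, hbx] at h
    have hne : v x₁ * v x₂ ≠ 0 := mul_ne_zero hx₁pos.ne' hx₂pos.ne'
    exact mul_right_cancel₀ hne h
  have hv2 : v (2 : K) ≤ 1 := by
    have : (2 : K) = 1 + 1 := by norm_num
    rw [this]
    exact le_trans (v.map_add _ _) (by rw [map_one, max_self])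
  have hsum1 : v ((t₂ - t₁) + (t₁ + t₂ + a1)) = 1 := by
    have e : (t₂ - t₁) + (t₁ + t₂ + a1) = (a1 + 2 * ρ) + 2 * (t₂ - ρ) := by ring
    have h2 : v (2 * (t₂ - ρ)) < 1 := by
      rw [map_mul]
      exact lt_of_le_of_lt (mul_le_of_le_one_left zero_le hv2) hs₂
    rw [e, Valuation.map_add_eq_of_lt_left v (by rw [hu]; exact h2), hu]
  have hDeqS : v (t₂ - t₁) = v (t₁ + t₂ + a1) := by
    by_contra hne
    have hsum : v ((t₂ - t₁) + (t₁ + t₂ + a1)) = max (v (t₂ - t₁)) (v (t₁ + t₂ + a1)) :=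
      Valuation.map_add_of_distinct_val v hne
    rw [hsum1] at hsum
    have hD1 : v (t₂ - t₁) ≤ 1 := hsum ▸ le_max_left _ _
    have hS1 : v (t₁ + t₂ + a1) ≤ 1 := hsum ▸ le_max_right _ _
    have hprod : 1 ≤ v (t₂ - t₁) * v (t₁ + t₂ + a1) := by rw [hDSv]; exact hG₁
    have hD1' : v (t₂ - t₁) = 1 := by
      apply le_antisymm hD1
      by_contra hcon
      push Not at hcon
      have : v (t₂ - t₁) * v (t₁ + t₂ + a1) < 1 := mul_lt_one_of_lt_of_le hcon hS1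
      exact absurd hprod (not_le.mpr this)
    have hS1' : v (t₁ + t₂ + a1) = 1 := by
      apply le_antisymm hS1
      by_contra hcon
      push Not at hcon
      have : v (t₂ - t₁) * v (t₁ + t₂ + a1) < 1 := by
        rw [mul_comm]; exact mul_lt_one_of_lt_of_le hcon hD1
      exact absurd hprod (not_le.mpr this)
    exact hne (hD1'.trans hS1'.symm)
  have hD2 : v (t₂ - t₁) * v (t₂ - t₁) = v x₁ := by
    rw [← hDSv, ← hDeqS]
  have hD1 : 1 ≤ v (t₂ - t₁) := by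
    by_contra hcon
    push Not at hcon
    have : v (t₂ - t₁) * v (t₂ - t₁) < 1 := mul_lt_one_of_lt_of_le hcon hcon.le
    rw [hD2] at this
    exact absurd hG₁ (not_le.mpr this)
  have hDpos : 0 < v (t₂ - t₁) := lt_of_lt_of_le zero_lt_one hD1
  -- N (x₁ - x₂) = x₁ x₂ (t₂ - t₁)
  have hN : N * (x₁ - x₂) = x₁ * x₂ * (t₂ - t₁) := by
    linear_combination x₂ * e₁ - x₁ * e₂
  have hNv : v N = v x₂ * v (t₂ - t₁) := by
    have h := congrArg v hN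
    rw [map_mul, map_mul, map_mul, hX] at h
    have : v N * v x₁ = (v x₂ * v (t₂ - t₁)) * v x₁ := by
      rw [h]; simp only [mul_comm, mul_left_comm]
    exact mul_right_cancel₀ hx₁pos.ne' this
  have hx₃v : v x₃ = v x₂ := by
    have h := congrArg v V3
    rw [map_mul, map_mul, map_pow, hNv] at h
    have : v x₃ * (v x₁ * v x₂) = v x₂ * (v x₁ * v x₂) := by
      calc v x₃ * (v x₁ * v x₂) = v x₁ * v x₂ * v x₃ := by
            simp only [mul_comm, mul_left_comm]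
        _ = (v x₂ * v (t₂ - t₁)) ^ 2 := h
        _ = v x₂ * v x₂ * (v (t₂ - t₁) * v (t₂ - t₁)) := by
            rw [sq]; simp only [mul_comm, mul_left_comm]
        _ = v x₂ * (v x₁ * v x₂) := by
            rw [hD2]; simp only [mul_comm, mul_left_comm]
    exact mul_right_cancel₀ (mul_ne_zero hx₁pos.ne' hx₂pos.ne') this
  refine ⟨hx₃v, ?_⟩
  -- the sign
  have hx₃ : x₃ ≠ 0 := (Valuation.ne_zero_iff v).mp (by rw [hx₃v]; exact hx₂pos.ne')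
  have hNpos : 0 < v N := by rw [hNv]; exact mul_pos hx₂pos hDpos
  have hN0 : N ≠ 0 := (Valuation.ne_zero_iff v).mp hNpos.ne'
  have ht₂ : t₂ = (L * x₂ + N) / x₂ := by
    rw [← e₂, mul_div_cancel_left₀ _ hx₂]
  have hform : t₃ - ρ = (t₂ - ρ) + N / x₁ - be / N := by
    rw [e₃, ht₂]
    field_simp
    linear_combination (x₁ * x₂ + x₁ * x₃ + x₂ * x₃) * V3 - (x₁ * x₂ * x₃) * V2
  rw [hform]
  refine Valuation.map_sub_lt v (Valuation.map_add_lt v hs₂ ?_) ?_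
  · -- `v (N / x₁) = v x₂ / v D < 1`
    rw [map_div₀, hNv, ← hD2, div_lt_one₀ (mul_pos hDpos hDpos)]
    calc v x₂ * v (t₂ - t₁) < 1 * v (t₂ - t₁) := mul_lt_mul_of_pos_right hM₂' hDpos
      _ = v (t₂ - t₁) := one_mul _
      _ = 1 * v (t₂ - t₁) := (one_mul _).symm
      _ ≤ v (t₂ - t₁) * v (t₂ - t₁) := mul_le_mul_left hD1 _
  · -- `v (a₄ / N) < 1`
    rw [map_div₀, hNv, div_lt_one₀ (mul_pos hx₂pos hDpos)]
    calc v be < v x₂ := hM₂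
      _ = v x₂ * 1 := (mul_one _).symm
      _ ≤ v x₂ * v (t₂ - t₁) := mul_le_mul_right hD1 _

end Core

variable {K : Type*} [Field K] [DecidableEq K] {A : ValuationSubring K} {W : Affine K} {ρ : K}

variable {x₁ y₁ x₂ y₂ x₃ y₃ : K}
  {h₁ : W.Nonsingular x₁ y₁} {h₂ : W.Nonsingular x₂ y₂} {h₃ : W.Nonsingular x₃ y₃}

/-- **Leaf GM**: good + middle = middle, with the same `v x` and the same sign. -/
theorem leaf_GM (hD : Nodal A W ρ)
    (hsum : Point.some x₁ y₁ h₁ + Point.some x₂ y₂ h₂ = Point.some x₃ y₃ h₃)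
    (hG₁ : 1 ≤ A.valuation x₁) (hM₂ : A.valuation W.a₄ < A.valuation x₂)
    (hM₂' : A.valuation x₂ < 1) (hs₂ : A.valuation (y₂ / x₂ - ρ) < 1) :
    A.valuation x₃ = A.valuation x₂ ∧ A.valuation (y₃ / x₃ - ρ) < 1 := by
  have hx₁pos : 0 < A.valuation x₁ := lt_of_lt_of_le zero_lt_one hG₁
  have hx₁ : x₁ ≠ 0 := (Valuation.ne_zero_iff _).mp hx₁pos.ne'
  have hx₂pos : 0 < A.valuation x₂ := lt_of_le_of_lt zero_le hM₂
  have hx₂ : x₂ ≠ 0 := (Valuation.ne_zero_iff _).mp hx₂pos.ne'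
  have hne : x₁ ≠ x₂ := by
    intro h
    rw [h] at hG₁
    exact absurd hM₂' (not_lt.mpr hG₁)
  obtain ⟨L, N, x, hns, hs, -, e₁, e₂, -, V2, V3⟩ :=
    line_of_add_some hD.a₃ hD.a₆ h₁ h₂ (fun h => hne h.1)
  rw [hs, Point.some.injEq] at hsum
  obtain ⟨rfl, rfl⟩ := hsum
  have E₁ := (h20_equation_iff hD.a₃ hD.a₆ x₁ y₁).mp h₁.1
  have E₂ := (h20_equation_iff hD.a₃ hD.a₆ x₂ y₂).mp h₂.1
  have hcore := h19_GM_core A.valuation (a1 := W.a₁) (al := W.a₂) (be := W.a₄) (ρ := ρ)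
    (x₁ := x₁) (x₂ := x₂) (x₃ := x) (t₁ := y₁ / x₁) (t₂ := y₂ / x₂)
    (t₃ := (-(L * x + N) - W.a₁ * x) / x) (L := L) (N := N)
    hD.unit ?_ ?_ ?_ ?_ V2 V3 rfl hG₁ hM₂ hM₂' hs₂
  · exact hcore
  · field_simp
    linear_combination E₁
  · field_simp
    linear_combination E₂
  · rw [mul_div_cancel₀ _ hx₁]; exact e₁
  · rw [mul_div_cancel₀ _ hx₂]; exact e₂

end Fermat.Agent.S13.L2
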