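import Fermat.Agent.S13.L2.H19_T
import Fermat.Agent.S13.L2.H19_GG

/-!
# S13, package L2 (helper19): odd torsion is never far

On the nodal model `y² + a₁ x y = x³ + a₂ x² + a₄ x` the good points (`0` and the affine points
with `1 ≤ v x`) form a subgroup (`leaf_GG`), and translation by `T = (0, 0)` exchanges good and
far points (`leaf_T`).  Hence a point `P` of odd order `p` is not far: otherwise `Q = P + T` is
good and `p • Q = T` is not.
-/

open WeierstrassCurve WeierstrassCurve.Affine

namespace Fermat.Agent.S13.L2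

variable {K : Type*} [Field K] [DecidableEq K] {A : ValuationSubring K} {W : Affine K} {ρ : K}

/-- Good points are closed under addition. -/
theorem h19_isGood_add (hD : Nodal A W ρ) {P Q : W.Point} (hP : IsGood A P) (hQ : IsGood A Q) :
    IsGood A (P + Q) := by
  rcases P with _ | ⟨x₁, y₁, h₁⟩
  · have e : (Point.zero : W.Point) = 0 := rfl
    rw [e, zero_add]
    exact hQ
  rcases Q with _ | ⟨x₂, y₂, h₂⟩
  · have e : (Point.zero : W.Point) = 0 := rfl
    rw [e, add_zero]
    exact hP
  rcases hsum : Point.some x₁ y₁ h₁ + Point.some x₂ y₂ h₂ with _ | ⟨x₃, y₃, h₃⟩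
  · trivial
  · exact leaf_GG hD hsum hP hQ

omit [DecidableEq K] in
/-- Good points are closed under negation. -/
theorem h19_isGood_neg {P : W.Point} (hP : IsGood A P) : IsGood A (-P) := by
  rcases P with _ | ⟨x, y, h⟩
  · exact hP
  · rw [Point.neg_some]
    exact hP

/-- Good points are closed under multiplication by a natural number. -/
theorem h19_isGood_nsmul (hD : Nodal A W ρ) (n : ℕ) {P : W.Point} (hP : IsGood A P) :
    IsGood A (n • P) := by
  induction n with
  | zero =>
    rw [zero_nsmul]
    trivial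
  | succ n ih =>
    rw [succ_nsmul]
    exact h19_isGood_add hD ih hP

omit [DecidableEq K] in
/-- The point `T = (0, 0)` is not good. -/
theorem h19_not_isGood_T (hD : Nodal A W ρ) : ¬ IsGood A (pointT A hD) := by
  intro h
  have h1 : (1 : A.ValueGroup) ≤ A.valuation (0 : K) := h
  rw [map_zero] at h1
  exact absurd h1 (not_le.mpr zero_lt_one)

/-- `p • T = T` for odd `p`. -/
theorem h19_odd_nsmul_T (hD : Nodal A W ρ) {p : ℕ} (hp : Odd p) :
    p • pointT A hD = pointT A hD := by
  obtain ⟨k, rfl⟩ := hp
  rw [add_nsmul, one_nsmul, mul_nsmul, two_nsmul, h19_T_add_T hD, nsmul_zero, zero_add]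

namespace H19

/-- **Odd torsion is never far**: a point of odd order `p` satisfies `v a₄ < v x`.
(Hedge copy: the primary `Fermat.Agent.S13.L2.not_far_of_odd_nsmul` is in `H20_CompCor`.) -/
theorem not_far_of_odd_nsmul (hD : Nodal A W ρ) {p : ℕ} (hp : Odd p) {x y : K}
    (h : W.Nonsingular x y) (hP : p • Point.some x y h = 0) :
    A.valuation W.a₄ < A.valuation x := by
  by_contra hfar
  rw [not_lt] at hfar
  by_cases hx : x = 0
  · subst hx
    rw [h19_eq_T_of_x_eq_zero hD h, h19_odd_nsmul_T hD hp] at hP
    exact h19_T_ne_zero hD hP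
  · obtain ⟨h', hsum⟩ := leaf_T hD h hx
    have hvx : A.valuation x ≠ 0 := (map_ne_zero _).mpr hx
    have hQ : IsGood A (Point.some x y h + pointT A hD) := by
      rw [hsum]
      show 1 ≤ A.valuation (W.a₄ / x)
      rw [map_div₀]
      exact (one_le_div₀ (zero_lt_iff.mpr hvx)).mpr hfar
    have hpQ := h19_isGood_nsmul hD p hQ
    rw [nsmul_add, hP, zero_add, h19_odd_nsmul_T hD hp] at hpQ
    exact h19_not_isGood_T hD hpQ

end H19

end Fermat.Agent.S13.L2
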