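import Fermat.Agent.S13.L2.H20_Vieta

/-!
# S13, package L2, leaf T (helper19): translation by the 2-torsion point `T = (0, 0)`

On the nodal model `y² + a₁ x y = x³ + a₂ x² + a₄ x` the point `T = (0, 0)` has order `2`, and
`(x, y) + T = (a₄ / x, -(a₄ y / x²) - a₁ (a₄ / x))` for `x ≠ 0`.
Port of `Fermat.Agent.S05.W3.leaf_T`.
-/

open WeierstrassCurve WeierstrassCurve.Affine

namespace Fermat.Agent.S13.L2

variable {K : Type*} [Field K] [DecidableEq K] {A : ValuationSubring K} {W : Affine K} {ρ : K}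

/-- `T + T = 0`. -/
theorem h19_T_add_T (hD : Nodal A W ρ) : pointT A hD + pointT A hD = 0 := by
  rw [pointT]
  exact Point.add_self_of_Y_eq (by rw [h20_negY hD.a₃]; ring)

omit [DecidableEq K] in
/-- `T ≠ 0`. -/
theorem h19_T_ne_zero (hD : Nodal A W ρ) : pointT A hD ≠ 0 := by
  rw [pointT]
  exact Point.some_ne_zero _

omit [DecidableEq K] in
/-- An affine point with `x = 0` is `T`. -/
theorem h19_eq_T_of_x_eq_zero (hD : Nodal A W ρ) {y : K} (h : W.Nonsingular 0 y) :
    Point.some 0 y h = pointT A hD := by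
  have E := (h20_equation_iff hD.a₃ hD.a₆ 0 y).mp h.1
  have hy2 : y ^ 2 = 0 := by linear_combination E
  have hy : y = 0 := by simpa using hy2
  subst hy
  rfl

/-- **Leaf T**: translation by the 2-torsion point `T = (0, 0)`. -/
theorem leaf_T (hD : Nodal A W ρ) {x y : K} (h : W.Nonsingular x y) (hx : x ≠ 0) :
    ∃ (h' : W.Nonsingular (W.a₄ / x) (-(W.a₄ * y / x ^ 2) - W.a₁ * (W.a₄ / x))),
      Point.some x y h + pointT A hD = Point.some _ _ h' := by
  have hxy : ¬(x = 0 ∧ y = -0 - W.a₁ * 0) := fun h0 => hx h0.1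
  obtain ⟨L, N, x₃, h₃, hsum, -, e₁, e₂, -, v₂, -⟩ :=
    line_of_add_some hD.a₃ hD.a₆ h hD.nonsingular_T hxy
  have hN : N = 0 := by linear_combination -e₂
  subst hN
  have hL : L = y / x := by
    field_simp
    linear_combination -e₁
  have hx₃ : x₃ = W.a₄ / x := by
    rw [eq_div_iff hx]
    linear_combination v₂
  have hy₃ : -(L * x₃ + 0) - W.a₁ * x₃ = -(W.a₄ * y / x ^ 2) - W.a₁ * (W.a₄ / x) := by
    rw [hx₃, hL]
    field_simp
    ring
  have h' : W.Nonsingular (W.a₄ / x) (-(W.a₄ * y / x ^ 2) - W.a₁ * (W.a₄ / x)) := by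
    rw [← hy₃, ← hx₃]; exact h₃
  refine ⟨h', ?_⟩
  rw [pointT, hsum]
  congr 1

end Fermat.Agent.S13.L2
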