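import Mathlib

/-!
# S13, package L2, leaf W1 (helper19): Vieta / collinearity on nodal-type curves with `a₁`

A Weierstrass curve is of *nodal type* when `a₃ = a₆ = 0`, i.e. it is
`y² + a₁ x y = x³ + a₂ x² + a₄ x`; the point `(0, 0)` lies on it.  No hypothesis on the
characteristic is made.  All statements are about Mathlib's `WeierstrassCurve.Affine.Point`.

Main results (namespace `Fermat.Agent.S13.L2.Vieta`):
* `IsNodal`, `IsNodal.equation_iff`, `IsNodal.negY`, `IsNodal.neg_some`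
* `line_of_add_some` : the sum of two affine points that are not opposite, with the line through
  them and the three Vieta relations
* `line_of_add_eq_zero` : three affine points summing to zero are collinear, with Vieta
* `line_of_sub_some` : the same for a difference
* `add_self_of_ne`, `add_self_of_eq` : doubling
* `add_origin` : translation by the point `(0, 0)`
* `xonly_add_sub` : the `x`-only sum and product identities for `P + Q`, `P - Q`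
* `slope_sq_add` : `t = y / x` satisfies `t² + a₁ t = x + a₂ + a₄ / x`
-/

open WeierstrassCurve WeierstrassCurve.Affine

namespace Fermat.Agent.S13.L2.Vieta

variable {F : Type*} [Field F]

/-- The curve is `y² + a₁ x y = x³ + a₂ x² + a₄ x`. -/
structure IsNodal (W : Affine F) : Prop where
  a₃ : W.a₃ = 0
  a₆ : W.a₆ = 0

namespace IsNodal

variable {W : Affine F} (hW : IsNodal W)
include hW

lemma equation_iff (x y : F) :
    W.Equation x y ↔ y ^ 2 + W.a₁ * x * y = x ^ 3 + W.a₂ * x ^ 2 + W.a₄ * x := by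
  rw [Affine.equation_iff, hW.a₃, hW.a₆]
  constructor <;> intro h <;> linear_combination h

lemma negY (x y : F) : W.negY x y = -y - W.a₁ * x := by
  simp [Affine.negY, hW.a₃]

lemma nonsingular_iff (x y : F) :
    W.Nonsingular x y ↔ y ^ 2 + W.a₁ * x * y = x ^ 3 + W.a₂ * x ^ 2 + W.a₄ * x ∧
      (W.a₁ * y ≠ 3 * x ^ 2 + 2 * W.a₂ * x + W.a₄ ∨ 2 * y + W.a₁ * x ≠ 0) := by
  rw [Affine.nonsingular_iff, hW.equation_iff, hW.a₃]
  refine and_congr_right fun _ => or_congr Iff.rfl ?_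
  rw [sub_zero, ne_eq, ne_eq, not_iff_not]
  constructor <;> intro h <;> linear_combination h

lemma nonsingular_neg {x y : F} (h : W.Nonsingular x y) :
    W.Nonsingular x (-y - W.a₁ * x) := by
  have := (Affine.nonsingular_neg x y).mpr h
  rwa [hW.negY] at this

lemma neg_some [DecidableEq F] {x y : F} (h : W.Nonsingular x y) :
    -(Point.some x y h) = Point.some x (-y - W.a₁ * x) (hW.nonsingular_neg h) := by
  rw [Point.neg_some]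
  congr 1
  exact hW.negY x y

omit hW in
lemma addX (x₁ x₂ ℓ : F) : W.addX x₁ x₂ ℓ = ℓ ^ 2 + W.a₁ * ℓ - W.a₂ - x₁ - x₂ := by
  simp [Affine.addX]

lemma addY (x₁ x₂ y₁ ℓ : F) :
    W.addY x₁ x₂ y₁ ℓ =
      -(ℓ * (W.addX x₁ x₂ ℓ - x₁) + y₁) - W.a₁ * W.addX x₁ x₂ ℓ := by
  rw [Affine.addY, hW.negY, Affine.negAddY]

/-- The origin `(0, 0)` is a nonsingular point iff `a₄ ≠ 0`. -/
lemma nonsingular_origin (h4 : W.a₄ ≠ 0) : W.Nonsingular 0 0 := by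
  rw [hW.nonsingular_iff]
  refine ⟨by ring, Or.inl ?_⟩
  intro h
  apply h4
  linear_combination -h

end IsNodal

section Line

variable [DecidableEq F] {W : Affine F}

/-- **Sum of two affine points** on a nodal-type curve: if `P₁ ≠ -P₂`, there is a line
`y = L x + N` through `P₁` and `P₂` (tangent if `P₁ = P₂`), the sum is
`(x₃, -(L x₃ + N) - a₁ x₃)`, and the Vieta relations hold. -/
theorem line_of_add_some (hW : IsNodal W) {x₁ y₁ x₂ y₂ : F} (h₁ : W.Nonsingular x₁ y₁)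
    (h₂ : W.Nonsingular x₂ y₂) (hxy : ¬(x₁ = x₂ ∧ y₁ = -y₂ - W.a₁ * x₂)) :
    ∃ (L N x₃ : F) (h₃ : W.Nonsingular x₃ (-(L * x₃ + N) - W.a₁ * x₃)),
      Point.some x₁ y₁ h₁ + Point.some x₂ y₂ h₂ =
        Point.some x₃ (-(L * x₃ + N) - W.a₁ * x₃) h₃ ∧
      L = W.slope x₁ x₂ y₁ y₂ ∧
      y₁ = L * x₁ + N ∧ y₂ = L * x₂ + N ∧
      x₁ + x₂ + x₃ = L ^ 2 + W.a₁ * L - W.a₂ ∧
      x₁ * x₂ + x₁ * x₃ + x₂ * x₃ = W.a₄ - 2 * L * N - W.a₁ * N ∧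
      x₁ * x₂ * x₃ = N ^ 2 := by
  have hxy' : ¬(x₁ = x₂ ∧ y₁ = W.negY x₂ y₂) := by rwa [hW.negY]
  set L := W.slope x₁ x₂ y₁ y₂ with hL
  set x₃ := W.addX x₁ x₂ L with hx₃
  have hx₃' : x₃ = L ^ 2 + W.a₁ * L - W.a₂ - x₁ - x₂ := IsNodal.addX x₁ x₂ L
  have hsum := Point.add_some hxy' (h₁ := h₁) (h₂ := h₂)
  have hY : W.addY x₁ x₂ y₁ L = -(L * x₃ + (y₁ - L * x₁)) - W.a₁ * x₃ := by
    rw [hW.addY]; ring
  have hns : W.Nonsingular x₃ (-(L * x₃ + (y₁ - L * x₁)) - W.a₁ * x₃) := by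
    rw [← hY]; exact Affine.nonsingular_add h₁ h₂ hxy'
  have hy₂ : y₂ = L * x₂ + (y₁ - L * x₁) := by
    by_cases hx : x₁ = x₂
    · have hy : y₁ ≠ W.negY x₂ y₂ := fun h => hxy' ⟨hx, h⟩
      have := Affine.Y_eq_of_Y_ne h₁.1 h₂.1 hx hy
      rw [← this, hx]; ring
    · have hx' : x₁ - x₂ ≠ 0 := sub_ne_zero.mpr hx
      rw [hL, Affine.slope_of_X_ne hx]
      field_simp
      ring
  -- Vieta from the factorisation of the addition polynomial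
  have hpoly := Affine.addPolynomial_slope h₁.1 h₂.1 hxy'
  rw [Affine.addPolynomial_eq, neg_inj, Cubic.prod_X_sub_C_eq, Cubic.toPoly_injective] at hpoly
  have hc := congrArg Cubic.c hpoly
  have hd := congrArg Cubic.d hpoly
  simp only [hW.a₃, hW.a₆] at hc hd
  refine ⟨L, y₁ - L * x₁, x₃, hns, ?_, rfl, by ring, hy₂, by rw [hx₃']; ring, ?_, ?_⟩
  · rw [hsum]
    congr 1
  · rw [← hx₃, ← hL] at hc
    linear_combination -hc
  · rw [← hx₃, ← hL] at hd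
    linear_combination hd

/-- **Collinearity**: three affine points on a nodal-type curve with `P₁ + P₂ + P₃ = 0` lie on
a line `y = L x + N`, and the Vieta relations hold. -/
theorem line_of_add_eq_zero (hW : IsNodal W) {x₁ y₁ x₂ y₂ x₃ y₃ : F}
    {h₁ : W.Nonsingular x₁ y₁} {h₂ : W.Nonsingular x₂ y₂} {h₃ : W.Nonsingular x₃ y₃}
    (h : Point.some x₁ y₁ h₁ + Point.some x₂ y₂ h₂ + Point.some x₃ y₃ h₃ = 0) :
    ∃ L N : F, y₁ = L * x₁ + N ∧ y₂ = L * x₂ + N ∧ y₃ = L * x₃ + N ∧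
      x₁ + x₂ + x₃ = L ^ 2 + W.a₁ * L - W.a₂ ∧
      x₁ * x₂ + x₁ * x₃ + x₂ * x₃ = W.a₄ - 2 * L * N - W.a₁ * N ∧
      x₁ * x₂ * x₃ = N ^ 2 := by
  have h12 : Point.some x₁ y₁ h₁ + Point.some x₂ y₂ h₂ = -Point.some x₃ y₃ h₃ :=
    eq_neg_of_add_eq_zero_left h
  have hxy : ¬(x₁ = x₂ ∧ y₁ = -y₂ - W.a₁ * x₂) := by
    rintro ⟨hx, hy⟩
    rw [Point.add_of_Y_eq hx (by rw [hW.negY]; exact hy)] at h12
    exact Point.some_ne_zero _ (neg_eq_zero.mp h12.symm)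
  obtain ⟨L, N, x, hns, hsum, -, e₁, e₂, v₁, v₂, v₃⟩ := line_of_add_some hW h₁ h₂ hxy
  rw [hsum, hW.neg_some, Point.some.injEq] at h12
  obtain ⟨rfl, hy⟩ := h12
  exact ⟨L, N, e₁, e₂, by linear_combination hy, v₁, v₂, v₃⟩

/-- **Difference of two affine points** on a nodal-type curve: `line_of_add_some` for
`P₁ + (-P₂)`; the line passes through `P₁` and `-P₂ = (x₂, -y₂ - a₁ x₂)`. -/
theorem line_of_sub_some (hW : IsNodal W) {x₁ y₁ x₂ y₂ : F} (h₁ : W.Nonsingular x₁ y₁)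
    (h₂ : W.Nonsingular x₂ y₂) (hxy : ¬(x₁ = x₂ ∧ y₁ = y₂)) :
    ∃ (L N x₃ : F) (h₃ : W.Nonsingular x₃ (-(L * x₃ + N) - W.a₁ * x₃)),
      Point.some x₁ y₁ h₁ - Point.some x₂ y₂ h₂ =
        Point.some x₃ (-(L * x₃ + N) - W.a₁ * x₃) h₃ ∧
      L = W.slope x₁ x₂ y₁ (-y₂ - W.a₁ * x₂) ∧
      y₁ = L * x₁ + N ∧ -y₂ - W.a₁ * x₂ = L * x₂ + N ∧
      x₁ + x₂ + x₃ = L ^ 2 + W.a₁ * L - W.a₂ ∧
      x₁ * x₂ + x₁ * x₃ + x₂ * x₃ = W.a₄ - 2 * L * N - W.a₁ * N ∧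
      x₁ * x₂ * x₃ = N ^ 2 := by
  have hxy' : ¬(x₁ = x₂ ∧ y₁ = -(-y₂ - W.a₁ * x₂) - W.a₁ * x₂) := by
    rintro ⟨hx, hy⟩
    exact hxy ⟨hx, by rw [hy]; ring⟩
  obtain ⟨L, N, x₃, h₃, hsum, hL, r⟩ :=
    line_of_add_some hW h₁ (hW.nonsingular_neg h₂) hxy'
  refine ⟨L, N, x₃, h₃, ?_, hL, r⟩
  rw [sub_eq_add_neg, hW.neg_some, hsum]

/-- **Doubling** on a nodal-type curve, `2 y + a₁ x ≠ 0`. -/
theorem add_self_of_ne (hW : IsNodal W) {x y : F}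
    (h : W.Nonsingular x y) (hy : 2 * y + W.a₁ * x ≠ 0) :
    ∃ (x' y' : F) (h' : W.Nonsingular x' y'),
      Point.some x y h + Point.some x y h = Point.some x' y' h' ∧
      x' * (2 * y + W.a₁ * x) ^ 2 = (x ^ 2 - W.a₄) ^ 2 ∧
      x' = ((3 * x ^ 2 + 2 * W.a₂ * x + W.a₄ - W.a₁ * y) / (2 * y + W.a₁ * x)) ^ 2 +
        W.a₁ * ((3 * x ^ 2 + 2 * W.a₂ * x + W.a₄ - W.a₁ * y) / (2 * y + W.a₁ * x)) -
        W.a₂ - 2 * x := by
  have hxy : ¬(x = x ∧ y = -y - W.a₁ * x) := by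
    rintro ⟨-, hy'⟩
    apply hy
    linear_combination hy'
  obtain ⟨L, N, x₃, h₃, hsum, hL, e₁, -, v₁, v₂, v₃⟩ := line_of_add_some hW h h hxy
  have hne : y ≠ W.negY x y := by
    rw [hW.negY]; exact fun h' => hxy ⟨rfl, h'⟩
  have hL' : L = (3 * x ^ 2 + 2 * W.a₂ * x + W.a₄ - W.a₁ * y) / (2 * y + W.a₁ * x) := by
    rw [hL, Affine.slope_of_Y_ne rfl hne, hW.negY]
    congr 1
    ring
  have hLmul : L * (2 * y + W.a₁ * x) = 3 * x ^ 2 + 2 * W.a₂ * x + W.a₄ - W.a₁ * y := by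
    rw [hL', div_mul_cancel₀ _ hy]
  have E := (hW.equation_iff x y).mp h.1
  refine ⟨x₃, _, h₃, hsum, ?_, ?_⟩
  · have hx₃ : x₃ = L ^ 2 + W.a₁ * L - W.a₂ - 2 * x := by linear_combination v₁
    rw [hx₃]
    have key : (L ^ 2 + W.a₁ * L - W.a₂ - 2 * x) * (2 * y + W.a₁ * x) ^ 2 =
        (L * (2 * y + W.a₁ * x)) ^ 2 + W.a₁ * (L * (2 * y + W.a₁ * x)) * (2 * y + W.a₁ * x)
          - (W.a₂ + 2 * x) * (2 * y + W.a₁ * x) ^ 2 := by ring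
    rw [key, hLmul]
    linear_combination (-(W.a₁ ^ 2) - 4 * W.a₂ - 8 * x) * E
  · rw [← hL']
    linear_combination v₁

/-- **Doubling** on a nodal-type curve, `2 y + a₁ x = 0`: the point is `2`-torsion. -/
theorem add_self_of_eq (hW : IsNodal W) {x y : F} (h : W.Nonsingular x y)
    (hy : 2 * y + W.a₁ * x = 0) : Point.some x y h + Point.some x y h = 0 :=
  Point.add_self_of_Y_eq (by rw [hW.negY]; linear_combination hy)

/-- The origin is a `2`-torsion point. -/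
theorem origin_add_self (hW : IsNodal W) (h4 : W.a₄ ≠ 0) :
    Point.some 0 0 (hW.nonsingular_origin h4) + Point.some 0 0 (hW.nonsingular_origin h4) = 0 :=
  add_self_of_eq hW _ (by ring)

/-- **Translation by the origin** `T₀ = (0, 0)`: `(x, y) + T₀ = (a₄ / x, -a₄ (y + a₁ x) / x²)`
for `x ≠ 0`. -/
theorem add_origin (hW : IsNodal W) (h4 : W.a₄ ≠ 0) {x y : F} (h : W.Nonsingular x y)
    (hx : x ≠ 0) :
    ∃ h' : W.Nonsingular (W.a₄ / x) (-(W.a₄ * (y + W.a₁ * x) / x ^ 2)),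
      Point.some x y h + Point.some 0 0 (hW.nonsingular_origin h4) =
        Point.some (W.a₄ / x) (-(W.a₄ * (y + W.a₁ * x) / x ^ 2)) h' := by
  have hxy : ¬(x = 0 ∧ y = -0 - W.a₁ * 0) := fun h' => hx h'.1
  obtain ⟨L, N, x₃, h₃, hsum, -, e₁, e₂, -, v₂, -⟩ :=
    line_of_add_some hW h (hW.nonsingular_origin h4) hxy
  have hN : N = 0 := by linear_combination -e₂
  have hLx : L * x = y := by rw [e₁, hN]; ring
  have hx₃ : x₃ = W.a₄ / x := by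
    rw [eq_div_iff hx]
    rw [hN] at v₂
    linear_combination v₂
  have hy₃ : -(L * x₃ + N) - W.a₁ * x₃ = -(W.a₄ * (y + W.a₁ * x) / x ^ 2) := by
    rw [hx₃, hN, ← hLx]
    field_simp
    ring
  have h' : W.Nonsingular (W.a₄ / x) (-(W.a₄ * (y + W.a₁ * x) / x ^ 2)) := by
    rw [← hx₃, ← hy₃]; exact h₃
  refine ⟨h', ?_⟩
  rw [hsum]
  congr 1

/-- **`x`-only identities** for `P₁ + P₂` and `P₁ - P₂` on a nodal-type curve (`x₁ ≠ x₂`). -/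
theorem xonly_add_sub (hW : IsNodal W) {x₁ y₁ x₂ y₂ : F} (h₁ : W.Nonsingular x₁ y₁)
    (h₂ : W.Nonsingular x₂ y₂) (hx : x₁ ≠ x₂) :
    ∃ (Xp Yp Xm Ym : F) (hp : W.Nonsingular Xp Yp) (hm : W.Nonsingular Xm Ym),
      Point.some x₁ y₁ h₁ + Point.some x₂ y₂ h₂ = Point.some Xp Yp hp ∧
      Point.some x₁ y₁ h₁ - Point.some x₂ y₂ h₂ = Point.some Xm Ym hm ∧
      (x₁ - x₂) ^ 2 * Xp = (y₁ - y₂) ^ 2 + W.a₁ * (y₁ - y₂) * (x₁ - x₂)
        - (W.a₂ + x₁ + x₂) * (x₁ - x₂) ^ 2 ∧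
      (x₁ - x₂) ^ 2 * Xm = (y₁ + y₂ + W.a₁ * x₂) ^ 2
        + W.a₁ * (y₁ + y₂ + W.a₁ * x₂) * (x₁ - x₂)
        - (W.a₂ + x₁ + x₂) * (x₁ - x₂) ^ 2 ∧
      (x₁ - x₂) ^ 2 * (Xp + Xm) =
        2 * (x₁ * x₂ + W.a₄) * (x₁ + x₂) + (W.a₁ ^ 2 + 4 * W.a₂) * (x₁ * x₂) ∧
      (x₁ - x₂) ^ 2 * (Xp * Xm) = (x₁ * x₂ - W.a₄) ^ 2 := by
  have hd : x₁ - x₂ ≠ 0 := sub_ne_zero.mpr hx
  have hd2 : (x₁ - x₂) ^ 2 ≠ 0 := pow_ne_zero 2 hd
  have E₁ := (hW.equation_iff x₁ y₁).mp h₁.1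
  have E₂ := (hW.equation_iff x₂ y₂).mp h₂.1
  obtain ⟨Lp, Np, Xp, hp, hsum, hLp, -, -, vp, -, -⟩ :=
    line_of_add_some hW h₁ h₂ (fun h => hx h.1)
  obtain ⟨Lm, Nm, Xm, hm, hdiff, hLm, -, -, vm, -, -⟩ :=
    line_of_sub_some hW h₁ h₂ (fun h => hx h.1)
  rw [Affine.slope_of_X_ne hx] at hLp hLm
  have hLp' : Lp * (x₁ - x₂) = y₁ - y₂ := by rw [hLp, div_mul_cancel₀ _ hd]
  have hLm' : Lm * (x₁ - x₂) = y₁ + y₂ + W.a₁ * x₂ := by
    rw [hLm, div_mul_cancel₀ _ hd]; ring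
  have hXp : (x₁ - x₂) ^ 2 * Xp = (y₁ - y₂) ^ 2 + W.a₁ * (y₁ - y₂) * (x₁ - x₂)
      - (W.a₂ + x₁ + x₂) * (x₁ - x₂) ^ 2 := by
    have : Xp = Lp ^ 2 + W.a₁ * Lp - W.a₂ - x₁ - x₂ := by linear_combination vp
    rw [this, ← hLp']
    ring
  have hXm : (x₁ - x₂) ^ 2 * Xm = (y₁ + y₂ + W.a₁ * x₂) ^ 2
      + W.a₁ * (y₁ + y₂ + W.a₁ * x₂) * (x₁ - x₂)
      - (W.a₂ + x₁ + x₂) * (x₁ - x₂) ^ 2 := by
    have : Xm = Lm ^ 2 + W.a₁ * Lm - W.a₂ - x₁ - x₂ := by linear_combination vm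
    rw [this, ← hLm']
    ring
  refine ⟨Xp, _, Xm, _, hp, hm, hsum, hdiff, hXp, hXm, ?_, ?_⟩
  · rw [mul_add, hXp, hXm]
    linear_combination 2 * E₁ + 2 * E₂
  · apply mul_left_cancel₀ hd2
    have : (x₁ - x₂) ^ 2 * ((x₁ - x₂) ^ 2 * (Xp * Xm)) =
        ((x₁ - x₂) ^ 2 * Xp) * ((x₁ - x₂) ^ 2 * Xm) := by ring
    rw [this, hXp, hXm]
    linear_combination
      (-x₁^3 + 2*x₁^2*x₂ - x₁^2*W.a₂ + 2*x₁*x₂^2 + x₁*x₂*W.a₁^2 + 4*x₁*x₂*W.a₂ + x₁*y₁*W.a₁ + x₁*W.a₄ - 2*x₂^3 - x₂^2*W.a₁^2 - 2*x₂^2*W.a₂ - 2*x₂*y₂*W.a₁ + y₁^2 - 2*y₂^2) * E₁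
      + (-4*x₁^3 + 2*x₁^2*x₂ - x₁^2*W.a₁^2 - 4*x₁^2*W.a₂ + 2*x₁*x₂^2 + x₁*x₂*W.a₁^2 + 4*x₁*x₂*W.a₂ - 2*x₁*W.a₄ - x₂^3 - x₂^2*W.a₂ + x₂*y₂*W.a₁ + x₂*W.a₄ + y₂^2) * E₂

omit [DecidableEq F] in
/-- On a nodal-type curve, `t = y / x` satisfies `t² + a₁ t = x + a₂ + a₄ / x` (`x ≠ 0`). -/
theorem slope_sq_add (hW : IsNodal W) {x y : F} (h : W.Equation x y) (hx : x ≠ 0) :
    (y / x) ^ 2 + W.a₁ * (y / x) = x + W.a₂ + W.a₄ / x := by
  have E := (hW.equation_iff x y).mp h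
  field_simp
  linear_combination E

end Line

end Fermat.Agent.S13.L2.Vieta
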