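import Fermat.Agent.S13.L2.H20_GM

/-!
# S13, package L2, leaves GG and T (helper20, hedge namespace `L2.H20`)

* `leaf_GG`: good + good = good, from `x₃ x₁ x₂ (t₁ + t₂ + a₁)² = (a₄ - x₁ x₂)²` and
  `v (t_i - ρ) ^ 2 = v x_i` for good points;
* `leaf_T`: translation by the 2-torsion point `T = (0, 0)`.
-/

set_option autoImplicit false
set_option linter.unusedSectionVars false
set_option linter.unusedVariables false

open WeierstrassCurve WeierstrassCurve.Affine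

namespace Fermat.Agent.S13.L2.H20

variable {K : Type*} [Field K] [DecidableEq K] {A : ValuationSubring K} {W : Affine K} {ρ : K}

/-- **Leaf GG**: good + good = good. -/
theorem leaf_GG (hD : Nodal A W ρ) {x₁ y₁ x₂ y₂ x₃ y₃ : K}
    {h₁ : W.Nonsingular x₁ y₁} {h₂ : W.Nonsingular x₂ y₂} {h₃ : W.Nonsingular x₃ y₃}
    (hsum : Point.some x₁ y₁ h₁ + Point.some x₂ y₂ h₂ = Point.some x₃ y₃ h₃)
    (hG₁ : 1 ≤ A.valuation x₁) (hG₂ : 1 ≤ A.valuation x₂) :
    1 ≤ A.valuation x₃ := by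
  have hx₁pos : 0 < A.valuation x₁ := lt_of_lt_of_le zero_lt_one hG₁
  have hx₁ : x₁ ≠ 0 := (Valuation.ne_zero_iff _).mp hx₁pos.ne'
  have hx₂pos : 0 < A.valuation x₂ := lt_of_lt_of_le zero_lt_one hG₂
  have hx₂ : x₂ ≠ 0 := (Valuation.ne_zero_iff _).mp hx₂pos.ne'
  obtain ⟨L, N, e₁, e₂, e₃, v₁, v₂, v₃⟩ := h20_line hD.a₃ hD.a₆ hsum
  obtain ⟨hτ1, hτ1sq⟩ := h20_good_tau hD h₁ hG₁
  obtain ⟨hτ2, hτ2sq⟩ := h20_good_tau hD h₂ hG₂
  set S := y₁ / x₁ + y₂ / x₂ + W.a₁ with hS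
  have hT : N * S = W.a₄ - x₁ * x₂ := by
    rw [hS, e₁, e₂]
    field_simp
    linear_combination -(x₁ + x₂) * v₃ + x₁ * x₂ * v₂
  have hX : 1 ≤ A.valuation (x₁ * x₂) := by
    rw [map_mul]; exact one_le_mul_of_one_le_of_one_le hG₁ hG₂
  have hXbe : A.valuation (W.a₄ - x₁ * x₂) = A.valuation (x₁ * x₂) :=
    Valuation.map_sub_eq_of_lt_right _ (lt_of_lt_of_le hD.be hX)
  -- `x₃ x₁ x₂ S² = (a₄ - x₁ x₂)²`
  have key : x₁ * x₂ * x₃ * S ^ 2 = (W.a₄ - x₁ * x₂) ^ 2 := by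
    rw [v₃, ← hT]; ring
  have hkey : A.valuation x₃ * A.valuation S ^ 2 = A.valuation (x₁ * x₂) := by
    have := congrArg A.valuation key
    rw [map_mul, map_mul, map_pow, map_pow, hXbe, pow_two (A.valuation (x₁ * x₂)),
      mul_assoc] at this
    exact mul_left_cancel₀ (lt_of_lt_of_le zero_lt_one hX).ne' this
  -- `v S ^ 2 ≤ v (x₁ x₂)`
  have hSle : A.valuation S ^ 2 ≤ A.valuation (x₁ * x₂) := by
    have e : S = (y₁ / x₁ - ρ) + ((y₂ / x₂ - ρ) + (W.a₁ + 2 * ρ)) := by rw [hS]; ring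
    have h2u : A.valuation ((y₂ / x₂ - ρ) + (W.a₁ + 2 * ρ)) ≤ A.valuation (y₂ / x₂ - ρ) :=
      (A.valuation.map_add _ _).trans (max_le le_rfl (by rw [hD.unit]; exact hτ2))
    rw [map_mul]
    rcases le_total (A.valuation (y₁ / x₁ - ρ)) (A.valuation (y₂ / x₂ - ρ)) with h | h
    · have hS2 : A.valuation S ≤ A.valuation (y₂ / x₂ - ρ) := by
        rw [e]; exact (A.valuation.map_add _ _).trans (max_le h h2u)
      calc A.valuation S ^ 2 ≤ A.valuation (y₂ / x₂ - ρ) ^ 2 := pow_le_pow_left' hS2 2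
        _ = A.valuation x₂ := hτ2sq
        _ = 1 * A.valuation x₂ := (one_mul _).symm
        _ ≤ A.valuation x₁ * A.valuation x₂ := by gcongr
    · have hS1 : A.valuation S ≤ A.valuation (y₁ / x₁ - ρ) := by
        rw [e]; exact (A.valuation.map_add _ _).trans (max_le le_rfl (h2u.trans h))
      calc A.valuation S ^ 2 ≤ A.valuation (y₁ / x₁ - ρ) ^ 2 := pow_le_pow_left' hS1 2
        _ = A.valuation x₁ := hτ1sq
        _ = A.valuation x₁ * 1 := (mul_one _).symm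
        _ ≤ A.valuation x₁ * A.valuation x₂ := by gcongr
  by_contra hlt
  rw [not_le] at hlt
  have hX0 : A.valuation (x₁ * x₂) ≠ 0 := (lt_of_lt_of_le zero_lt_one hX).ne'
  have hS0 : A.valuation S ^ 2 ≠ 0 := by
    intro h0
    rw [h0, mul_zero] at hkey
    exact hX0 hkey.symm
  have : A.valuation x₃ * A.valuation S ^ 2 < A.valuation (x₁ * x₂) :=
    calc A.valuation x₃ * A.valuation S ^ 2 < 1 * A.valuation S ^ 2 :=
          mul_lt_mul_of_pos_right hlt (zero_lt_iff.mpr hS0)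
      _ = A.valuation S ^ 2 := one_mul _
      _ ≤ A.valuation (x₁ * x₂) := hSle
  exact this.ne hkey

/-- **Leaf T**: translation by the 2-torsion point `T = (0, 0)`. -/
theorem leaf_T (hD : Nodal A W ρ) {x y : K} (h : W.Nonsingular x y) (hx : x ≠ 0) :
    ∃ (h' : W.Nonsingular (W.a₄ / x) (-(W.a₄ * y / x ^ 2) - W.a₁ * (W.a₄ / x))),
      Point.some x y h + pointT A hD = Point.some _ _ h' := by
  have hxy : ¬(x = 0 ∧ y = -0 - W.a₁ * 0) := fun h0 => hx h0.1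
  obtain ⟨L, N, x₃, h₃, hsum, -, e₁, e₂, v₁, -, -⟩ :=
    line_of_add_some hD.a₃ hD.a₆ h hD.nonsingular_T hxy
  have hN : N = 0 := by simpa using e₂.symm
  subst hN
  have hL : L = y / x := by
    field_simp
    linear_combination -e₁
  have E := (hD.equation_iff x y).mp h.1
  have hx₃ : x₃ = W.a₄ / x := by
    have : x₃ = L ^ 2 + W.a₁ * L - W.a₂ - x := by linear_combination v₁
    rw [this, hL]
    field_simp
    linear_combination E
  subst hx₃
  have hy₃ : -(L * (W.a₄ / x) + 0) - W.a₁ * (W.a₄ / x) =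
      -(W.a₄ * y / x ^ 2) - W.a₁ * (W.a₄ / x) := by
    rw [hL]
    field_simp
    ring
  have h' : W.Nonsingular (W.a₄ / x) (-(W.a₄ * y / x ^ 2) - W.a₁ * (W.a₄ / x)) := by
    rw [← hy₃]; exact h₃
  refine ⟨h', ?_⟩
  rw [pointT, hsum, Point.some.injEq]
  exact ⟨rfl, hy₃⟩

end Fermat.Agent.S13.L2.H20
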