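import Fermat.Agent.S13.L2.H20_Comp

/-!
# S13, package L2 (helper20): corollaries of the additivity of the component map

* `comp_eq_one_iff`: `comp A ρ P = 1 ↔ IsGood A P`;
* `isGood_add`, `isGood_neg`, `isGood_sub`, `isGood_nsmul`: the good points form a subgroup;
* `isGood_sub_of_comp_eq`: points with the same component differ by a good point;
* `not_far_of_odd_nsmul`: a point of odd order is never far.
-/

open WeierstrassCurve WeierstrassCurve.Affine

set_option linter.unusedSectionVars false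
set_option linter.unusedVariables false

namespace Fermat.Agent.S13.L2

variable {K : Type*} [Field K] [DecidableEq K] {A : ValuationSubring K} {W : Affine K} {ρ : K}

/-- `cls (v a₄) ≠ 1`. -/
lemma cls_be_ne_one (hD : Nodal A W ρ) : cls A W (A.valuation W.a₄) ≠ 1 := by
  have hβ := hD.val_be_ne_zero
  intro h
  obtain ⟨k, hk⟩ := (cls_eq_one_iff hβ hβ).mp h
  have h1 : A.valuation W.a₄ ^ (2 * k - 1) = 1 := by
    rw [zpow_sub₀ hβ, zpow_one, ← hk, div_self hβ]
  have h2 := (zpow_eq_one_iff_right₀ zero_le hD.be.ne).mp h1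
  omega

/-- For a middle value `g` (`v a₄ < g < 1`), `cls g ≠ 1`. -/
lemma cls_ne_one_of_mid (hD : Nodal A W ρ) {g : A.ValueGroup}
    (h1 : A.valuation W.a₄ < g) (h2 : g < 1) : cls A W g ≠ 1 := by
  have hβ := hD.val_be_ne_zero
  have hβpos : 0 < A.valuation W.a₄ := zero_lt_iff.mpr hβ
  have hg : g ≠ 0 := (lt_of_le_of_lt zero_le h1).ne'
  intro h
  obtain ⟨k, hk⟩ := (cls_eq_one_iff hβ hg).mp h
  rcases le_or_gt k 0 with hk0 | hk0
  · -- `g = (v a₄) ^ (2k) ≥ 1`
    have : (1 : A.ValueGroup) ≤ A.valuation W.a₄ ^ (2 * k) := by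
      have e : A.valuation W.a₄ ^ (2 * k) = ((A.valuation W.a₄)⁻¹) ^ (-(2 * k)) := by
        rw [inv_zpow, zpow_neg, inv_inv]
      rw [e]
      have hinv : (1 : A.ValueGroup) ≤ (A.valuation W.a₄)⁻¹ :=
        (one_le_inv₀ hβpos).mpr hD.be.le
      exact one_le_zpow₀ hinv (by omega)
    rw [← hk] at this
    exact absurd h2 (not_lt.mpr this)
  · -- `g = (v a₄) ^ (2k) ≤ (v a₄) ^ 2 < v a₄`
    have h3 : A.valuation W.a₄ ^ (2 * k) ≤ A.valuation W.a₄ ^ (1 : ℤ) :=
      zpow_le_zpow_right_of_le_one₀ hβpos hD.be.le (by omega)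
    rw [zpow_one, ← hk] at h3
    exact absurd h1 (not_lt.mpr h3)

/-- The kernel of the component map is the set of good points. -/
theorem comp_eq_one_iff (hD : Nodal A W ρ) (P : W.Point) :
    comp A ρ P = 1 ↔ IsGood A P := by
  rcases P with _ | ⟨x, y, h⟩
  · exact ⟨fun _ => trivial, fun _ => rfl⟩
  · change comp A ρ (Point.some x y h) = 1 ↔ 1 ≤ A.valuation x
    constructor
    · intro hc
      by_contra hG
      by_cases hF : A.valuation x ≤ A.valuation W.a₄
      · rw [comp_far hD h hF] at hc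
        exact cls_be_ne_one hD hc
      · have hM := not_le.mp hF
        have hM' := not_le.mp hG
        rcases h20_sign_or hD h hM hM' with hs | hs
        · rw [comp_mid_pos hD h hM hM' hs] at hc
          exact cls_ne_one_of_mid hD hM hM' hc
        · rw [comp_mid_neg hD h hM hM' hs, inv_eq_one] at hc
          exact cls_ne_one_of_mid hD hM hM' hc
    · intro hG
      exact comp_good h hG

theorem isGood_zero : IsGood A (0 : W.Point) := trivial

theorem isGood_add (hD : Nodal A W ρ) {P Q : W.Point} (hP : IsGood A P) (hQ : IsGood A Q) :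
    IsGood A (P + Q) := by
  rw [← comp_eq_one_iff hD] at hP hQ ⊢
  rw [comp_add hD, hP, hQ, one_mul]

theorem isGood_neg (hD : Nodal A W ρ) {P : W.Point} (hP : IsGood A P) : IsGood A (-P) := by
  rw [← comp_eq_one_iff hD] at hP ⊢
  rw [comp_neg hD, hP, inv_one]

theorem isGood_sub (hD : Nodal A W ρ) {P Q : W.Point} (hP : IsGood A P) (hQ : IsGood A Q) :
    IsGood A (P - Q) := by
  rw [sub_eq_add_neg]
  exact isGood_add hD hP (isGood_neg hD hQ)

theorem isGood_nsmul (hD : Nodal A W ρ) {P : W.Point} (hP : IsGood A P) (n : ℕ) :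
    IsGood A (n • P) := by
  rw [← comp_eq_one_iff hD] at hP ⊢
  rw [comp_nsmul hD, hP, one_pow]

/-- Points with the same component differ by a good point. -/
theorem isGood_sub_of_comp_eq (hD : Nodal A W ρ) {P Q : W.Point}
    (h : comp A ρ P = comp A ρ Q) : IsGood A (P - Q) := by
  rw [← comp_eq_one_iff hD, sub_eq_add_neg, comp_add hD, comp_neg hD, h, mul_inv_cancel]

/-- Two middle points with the same `v x` and the same sign have the same component. -/
theorem comp_eq_of_mid (hD : Nodal A W ρ) {x y x' y' : K} (h : W.Nonsingular x y)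
    (h' : W.Nonsingular x' y') (hM : A.valuation W.a₄ < A.valuation x)
    (hM' : A.valuation x < 1) (hv : A.valuation x' = A.valuation x)
    (hs : A.valuation (y / x - ρ) < 1 ↔ A.valuation (y' / x' - ρ) < 1) :
    comp A ρ (Point.some x' y' h') = comp A ρ (Point.some x y h) := by
  have hM₂ : A.valuation W.a₄ < A.valuation x' := hv ▸ hM
  have hM₂' : A.valuation x' < 1 := hv ▸ hM'
  rcases h20_sign_or hD h hM hM' with hs1 | hs1
  · rw [comp_mid_pos hD h hM hM' hs1, comp_mid_pos hD h' hM₂ hM₂' (hs.mp hs1), hv]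
  · have hn : ¬ A.valuation (y / x - ρ) < 1 := fun h1 => h20_sign_not_both hD h1 hs1
    have hn' : ¬ A.valuation (y' / x' - ρ) < 1 := fun h1 => hn (hs.mpr h1)
    have hs2 : A.valuation (y' / x' + W.a₁ + ρ) < 1 :=
      (h20_sign_or hD h' hM₂ hM₂').resolve_left hn'
    rw [comp_mid_neg hD h hM hM' hs1, comp_mid_neg hD h' hM₂ hM₂' hs2, hv]

/-- A point of odd order is never far. -/
theorem not_far_of_odd_nsmul (hD : Nodal A W ρ) {p : ℕ} (hp : Odd p) {x y : K}
    (h : W.Nonsingular x y) (hP : p • Point.some x y h = 0) :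
    A.valuation W.a₄ < A.valuation x := by
  by_cases hx : A.valuation x < 1
  · exact (torsion_near_node hD hp h hP hx).2.1
  · exact lt_of_lt_of_le hD.be (not_lt.mp hx)

end Fermat.Agent.S13.L2
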