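import Mathlib

/-!
# S13, package L2 (prime 2), coordinator file (helper20): the nodal model and the component map

`K` is a field with a valuation subring `A` (ANY residue characteristic, in particular `2`),
and `W` is a Weierstrass curve `y² + a₁ x y = x³ + a₂ x² + a₄ x` (`a₃ = a₆ = 0`) with
`a₁, ρ` in `A`, `ρ² + a₁ ρ = a₂`, `a₁ + 2 ρ` a unit of `A` and `a₄` a nonzero nonunit of `A`.
Its reduction has a node at `(0, 0)` with tangent directions `y = ρ x` and `y = (-a₁ - ρ) x`.

Affine points are sorted into classes by `v = A.valuation` (multiplicative notation):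
* kernel `1 < v x`
* good   `1 ≤ v x` (kernel, or integral with reduction off the node)
* middle `v a₄ < v x < 1`, with a sign: `v (y / x - ρ) < 1` or `v (y / x + a₁ + ρ) < 1`
* far    `v x ≤ v a₄`
-/

open WeierstrassCurve WeierstrassCurve.Affine

namespace Fermat.Agent.S13.L2

variable {K : Type*} [Field K]

/-- The standing hypotheses of package L2: the nodal model with `a₁`. -/
structure Nodal (A : ValuationSubring K) (W : Affine K) (ρ : K) : Prop where
  a₃ : W.a₃ = 0
  a₆ : W.a₆ = 0
  a₁ : A.valuation W.a₁ ≤ 1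
  rho_le : A.valuation ρ ≤ 1
  rho : ρ ^ 2 + W.a₁ * ρ = W.a₂
  unit : A.valuation (W.a₁ + 2 * ρ) = 1
  be : A.valuation W.a₄ < 1
  be0 : W.a₄ ≠ 0

namespace Nodal

variable {A : ValuationSubring K} {W : Affine K} {ρ : K}

/-- The other tangent direction. -/
lemma neg (hD : Nodal A W ρ) : Nodal A W (-W.a₁ - ρ) :=
  { hD with
    rho_le := by
      have h : A.valuation (-W.a₁ - ρ) = A.valuation (W.a₁ + ρ) := by
        rw [← Valuation.map_neg]; congr 1; ring
      rw [h]
      exact (A.valuation.map_add _ _).trans (max_le hD.a₁ hD.rho_le)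
    rho := by rw [← hD.rho]; ring
    unit := by
      have h : W.a₁ + 2 * (-W.a₁ - ρ) = -(W.a₁ + 2 * ρ) := by ring
      rw [h, Valuation.map_neg]; exact hD.unit }

lemma neg_neg_rho (W : Affine K) (ρ : K) : -W.a₁ - (-W.a₁ - ρ) = ρ := by ring

lemma val_a₂_le (hD : Nodal A W ρ) : A.valuation W.a₂ ≤ 1 := by
  rw [← hD.rho]
  refine (A.valuation.map_add _ _).trans (max_le ?_ ?_)
  · rw [map_pow]; exact pow_le_one₀ zero_le hD.rho_le
  · rw [map_mul]; exact mul_le_one₀ hD.a₁ zero_le hD.rho_le

lemma val_be_ne_zero (hD : Nodal A W ρ) : A.valuation W.a₄ ≠ 0 :=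
  (map_ne_zero _).mpr hD.be0

lemma equation_iff (hD : Nodal A W ρ) (x y : K) :
    W.Equation x y ↔ y ^ 2 + W.a₁ * x * y = x ^ 3 + W.a₂ * x ^ 2 + W.a₄ * x := by
  rw [Affine.equation_iff, hD.a₃, hD.a₆]
  constructor <;> intro h <;> linear_combination h

lemma negY (hD : Nodal A W ρ) (x y : K) : W.negY x y = -y - W.a₁ * x := by
  rw [Affine.negY, hD.a₃]; ring

/-- `(y/x - ρ) (y/x + a₁ + ρ) = x + a₄ / x` on the curve. -/
lemma t_mul (hD : Nodal A W ρ) {x y : K} (h : W.Equation x y) (hx : x ≠ 0) :
    (y / x - ρ) * (y / x + W.a₁ + ρ) = x + W.a₄ / x := by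
  have E := (hD.equation_iff x y).mp h
  have hr := hD.rho
  field_simp
  linear_combination E - x ^ 2 * hr

lemma nonsingular_T (hD : Nodal A W ρ) : W.Nonsingular 0 0 := by
  rw [Affine.nonsingular_iff, Affine.equation_iff, hD.a₃, hD.a₆]
  refine ⟨by ring, Or.inl ?_⟩
  have := hD.be0
  simpa using this.symm

end Nodal

section classes

variable (A : ValuationSubring K) (W : Affine K)

/-- The subgroup of the value group generated by `v a₄ ^ 2`. -/
noncomputable def sqSub : Subgroup (A.ValueGroup)ˣ :=
  Subgroup.closure {u | (u : A.ValueGroup) = A.valuation W.a₄ ^ 2}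

/-- The target of the component map. -/
abbrev CompGroup : Type _ := (A.ValueGroup)ˣ ⧸ sqSub A W

/-- The class of an element of the value group. -/
noncomputable def cls (g : A.ValueGroup) : CompGroup A W :=
  if h : g = 0 then 1 else QuotientGroup.mk (Units.mk0 g h)

variable [DecidableEq K] {W}

/-- The 2-torsion point `T = (0, 0)` (it reduces to the node). -/
def pointT {ρ : K} (hD : Nodal A W ρ) : W.Point := Point.some 0 0 hD.nonsingular_T

/-- The component map (depends on the choice `ρ` of a tangent direction). -/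
noncomputable def comp (ρ : K) : W.Point → CompGroup A W
  | .zero => 1
  | .some x y _ =>
    if 1 ≤ A.valuation x then 1
    else if A.valuation x ≤ A.valuation W.a₄ then cls A W (A.valuation W.a₄)
    else if A.valuation (y / x - ρ) < 1 then cls A W (A.valuation x)
    else (cls A W (A.valuation x))⁻¹

/-- The kernel of reduction: `0` and the affine points with `1 < v x`. -/
def InKer : W.Point → Prop
  | .zero => True
  | .some x _ _ => 1 < A.valuation x

/-- Good points (nonsingular reduction): `0` and the affine points with `1 ≤ v x`. -/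
def IsGood : W.Point → Prop
  | .zero => True
  | .some x _ _ => 1 ≤ A.valuation x

end classes

end Fermat.Agent.S13.L2
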