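import Fermat.Agent.S13.L2.H20_MMs

/-!
# S13, package L2, leaf GM (helper20, hedge namespace `L2.H20`): good + middle = middle

On the nodal model `y² + a₁ x y = x³ + a₂ x² + a₄ x` (`Nodal A W ρ`): if `P₁` is good
(`1 ≤ v x₁`) and `P₂` is a middle point of sign `+`, then `P₃ = P₁ + P₂` is a middle point with
`v x₃ = v x₂` and the same sign.

With `τ = y / x - ρ` and `u = a₁ + 2 ρ`: `τ (τ + u) = x + a₄ / x`, so for a good point
`v τ₁ ≥ 1` and `v τ₁ ^ 2 = v x₁`; `N (x₁ - x₂) = x₁ x₂ (τ₂ - τ₁)` gives `v N = v x₂ * v τ₁`,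
`x₁ x₂ x₃ = N²` gives `v x₃ = v x₂`, and `τ₃ = τ₂ + N / x₁ - a₄ / N` gives the sign.
-/

set_option autoImplicit false
set_option linter.unusedSectionVars false
set_option linter.unusedVariables false

open WeierstrassCurve WeierstrassCurve.Affine

namespace Fermat.Agent.S13.L2.H20

variable {K : Type*} [Field K] [DecidableEq K] {A : ValuationSubring K} {W : Affine K} {ρ : K}

/-- For a good affine point: `v (y / x - ρ) ≥ 1` and `v (y / x - ρ) ^ 2 = v x`. -/
lemma h20_good_tau (hD : Nodal A W ρ) {x y : K} (h : W.Nonsingular x y)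
    (hG : 1 ≤ A.valuation x) :
    1 ≤ A.valuation (y / x - ρ) ∧ A.valuation (y / x - ρ) ^ 2 = A.valuation x := by
  have hxpos : 0 < A.valuation x := lt_of_lt_of_le zero_lt_one hG
  have hx : x ≠ 0 := (Valuation.ne_zero_iff _).mp hxpos.ne'
  have hmul := hD.t_mul h.1 hx
  -- `v (x + a₄ / x) = v x`
  have hR : A.valuation (x + W.a₄ / x) = A.valuation x := by
    refine Valuation.map_add_eq_of_lt_left _ ?_
    rw [map_div₀]
    calc A.valuation W.a₄ / A.valuation x < 1 :=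
          (div_lt_one₀ hxpos).mpr (lt_of_lt_of_le hD.be hG)
      _ ≤ A.valuation x := hG
  have hprod : A.valuation (y / x - ρ) * A.valuation (y / x + W.a₁ + ρ) = A.valuation x := by
    rw [← map_mul, hmul, hR]
  have hsum : y / x + W.a₁ + ρ = (y / x - ρ) + (W.a₁ + 2 * ρ) := by ring
  by_cases h1 : 1 < A.valuation (y / x - ρ)
  · have h2 : A.valuation (y / x + W.a₁ + ρ) = A.valuation (y / x - ρ) := by
      rw [hsum]
      exact Valuation.map_add_eq_of_lt_left _ (by rw [hD.unit]; exact h1)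
    rw [h2] at hprod
    exact ⟨h1.le, by rw [pow_two]; exact hprod⟩
  · have h1' : A.valuation (y / x - ρ) ≤ 1 := not_lt.mp h1
    have h2 : A.valuation (y / x + W.a₁ + ρ) ≤ 1 := by
      rw [hsum]
      exact (A.valuation.map_add _ _).trans (max_le h1' hD.unit.le)
    have h3 : A.valuation x ≤ 1 := by
      rw [← hprod]
      exact mul_le_one₀ h1' zero_le h2
    have hx1 : A.valuation x = 1 := le_antisymm h3 hG
    rw [hx1] at hprod
    have h4 : A.valuation (y / x - ρ) = 1 := by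
      by_contra hne
      have hlt : A.valuation (y / x - ρ) < 1 := lt_of_le_of_ne h1' hne
      have : A.valuation (y / x - ρ) * A.valuation (y / x + W.a₁ + ρ) < 1 :=
        calc A.valuation (y / x - ρ) * A.valuation (y / x + W.a₁ + ρ)
            ≤ A.valuation (y / x - ρ) * 1 := by gcongr
          _ = A.valuation (y / x - ρ) := mul_one _
          _ < 1 := hlt
      rw [hprod] at this
      exact lt_irrefl _ this
    exact ⟨h4.ge, by rw [h4, hx1, one_pow]⟩

/-- **Leaf GM**: good + middle = middle, with the same `v x` and the same sign. -/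
theorem leaf_GM (hD : Nodal A W ρ) {x₁ y₁ x₂ y₂ x₃ y₃ : K}
    {h₁ : W.Nonsingular x₁ y₁} {h₂ : W.Nonsingular x₂ y₂} {h₃ : W.Nonsingular x₃ y₃}
    (hsum : Point.some x₁ y₁ h₁ + Point.some x₂ y₂ h₂ = Point.some x₃ y₃ h₃)
    (hG₁ : 1 ≤ A.valuation x₁) (hM₂ : A.valuation W.a₄ < A.valuation x₂)
    (hM₂' : A.valuation x₂ < 1) (hs₂ : A.valuation (y₂ / x₂ - ρ) < 1) :
    A.valuation x₃ = A.valuation x₂ ∧ A.valuation (y₃ / x₃ - ρ) < 1 := by
  have hx₁pos : 0 < A.valuation x₁ := lt_of_lt_of_le zero_lt_one hG₁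
  have hx₁ : x₁ ≠ 0 := (Valuation.ne_zero_iff _).mp hx₁pos.ne'
  have hx₂pos : 0 < A.valuation x₂ := lt_of_le_of_lt zero_le hM₂
  have hx₂ : x₂ ≠ 0 := (Valuation.ne_zero_iff _).mp hx₂pos.ne'
  have hβpos : 0 < A.valuation W.a₄ := zero_lt_iff.mpr hD.val_be_ne_zero
  have hlt : A.valuation x₂ < A.valuation x₁ := lt_of_lt_of_le hM₂' hG₁
  have hX : A.valuation (x₁ - x₂) = A.valuation x₁ := Valuation.map_sub_eq_of_lt_left _ hlt
  obtain ⟨L, N, e₁, e₂, e₃, v₁, v₂, v₃⟩ := h20_line hD.a₃ hD.a₆ hsum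
  obtain ⟨hτ1, hτ1sq⟩ := h20_good_tau hD h₁ hG₁
  have hτ1pos : 0 < A.valuation (y₁ / x₁ - ρ) := lt_of_lt_of_le zero_lt_one hτ1
  -- `v (τ₂ - τ₁) = v τ₁`
  have hτ21 : A.valuation (y₂ / x₂ - y₁ / x₁) = A.valuation (y₁ / x₁ - ρ) := by
    have e : y₂ / x₂ - y₁ / x₁ = (y₂ / x₂ - ρ) - (y₁ / x₁ - ρ) := by ring
    rw [e]
    exact Valuation.map_sub_eq_of_lt_right _ (lt_of_lt_of_le hs₂ hτ1)
  -- `N (x₁ - x₂) = x₁ x₂ (t₂ - t₁)`
  have hF0 : N * (x₁ - x₂) = x₁ * x₂ * (y₂ / x₂ - y₁ / x₁) := by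
    field_simp
    rw [e₁, e₂]
    ring
  have hvN : A.valuation N = A.valuation x₂ * A.valuation (y₁ / x₁ - ρ) := by
    have := congrArg A.valuation hF0
    rw [map_mul, map_mul, map_mul, hX, hτ21, mul_comm (A.valuation N), mul_assoc] at this
    exact mul_left_cancel₀ hx₁pos.ne' this
  have hNpos : 0 < A.valuation N := by rw [hvN]; exact mul_pos hx₂pos hτ1pos
  have hN0 : N ≠ 0 := (Valuation.ne_zero_iff _).mp hNpos.ne'
  -- `v x₃ = v x₂`
  have hx₃v : A.valuation x₃ = A.valuation x₂ := by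
    have := congrArg A.valuation v₃
    rw [map_mul, map_mul, map_pow, hvN, mul_pow, hτ1sq] at this
    have h2 : A.valuation x₁ * A.valuation x₂ * A.valuation x₃ =
        A.valuation x₁ * A.valuation x₂ * A.valuation x₂ := by
      rw [this, pow_two, mul_comm (A.valuation x₁) (A.valuation x₂), mul_assoc, mul_assoc,
        mul_comm (A.valuation x₁) (A.valuation x₂)]
    exact mul_left_cancel₀ (mul_pos hx₁pos hx₂pos).ne' h2
  refine ⟨hx₃v, ?_⟩
  have hx₃ : x₃ ≠ 0 := (Valuation.ne_zero_iff _).mp (hx₃v ▸ hx₂pos.ne')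
  -- the sign: `τ₃ = τ₂ + N / x₁ - a₄ / N`
  have key : y₃ / x₃ - ρ = (y₂ / x₂ - ρ) + N / x₁ - W.a₄ / N := by
    rw [e₃, e₂]
    field_simp
    linear_combination (x₁ * x₂ + x₁ * x₃ + x₂ * x₃) * v₃ - (x₁ * x₂ * x₃) * v₂
  have hA : A.valuation (N / x₁) < 1 := by
    rw [map_div₀, hvN, ← hτ1sq, pow_two, div_lt_one₀ (mul_pos hτ1pos hτ1pos)]
    calc A.valuation x₂ * A.valuation (y₁ / x₁ - ρ)
        < 1 * A.valuation (y₁ / x₁ - ρ) := mul_lt_mul_of_pos_right hM₂' hτ1pos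
      _ = A.valuation (y₁ / x₁ - ρ) := one_mul _
      _ = A.valuation (y₁ / x₁ - ρ) * 1 := (mul_one _).symm
      _ ≤ A.valuation (y₁ / x₁ - ρ) * A.valuation (y₁ / x₁ - ρ) := by gcongr
  have hB : A.valuation (W.a₄ / N) < 1 := by
    rw [map_div₀, div_lt_one₀ hNpos, hvN]
    calc A.valuation W.a₄ < A.valuation x₂ := hM₂
      _ = A.valuation x₂ * 1 := (mul_one _).symm
      _ ≤ A.valuation x₂ * A.valuation (y₁ / x₁ - ρ) := by gcongr
  rw [key]
  exact (A.valuation.map_sub _ _).trans_lt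
    (max_lt ((A.valuation.map_add _ _).trans_lt (max_lt hs₂ hA)) hB)

end Fermat.Agent.S13.L2.H20
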