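import Mathlib
import Fermat.Prelude.Def_FLTPrelim_FreyPackage

/-!
# S13, package L2 (helper3): arithmetic of the Frey curve at the prime `2`

The Frey curve is `y² + xy = x³ + a₂ x² + a₄ x` with `a₂ = (b^p - 1 - a^p) / 4` and
`a₄ = -a^p b^p / 16`, where `a ≡ 3 mod 4` and `b` is even.  We record the integrality facts used
by the `2`-adic analysis:

* `h3_frey_a₂_eq_intCast` : `a₂` is an integer;
* `h3_frey_b₂_odd` : `a₁² + 4 a₂ = b^p - a^p` is odd;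
* `h3_frey_a₄_eq` : `a₄ = 2 ^ m * u` with `u` an odd integer, `1 ≤ m` and `p ∤ 2 m`
  (`m = p * v₂(b) - 4`).
-/

set_option autoImplicit false

namespace Fermat.Agent.S13.L2.FreyTwo

/-- `b` is even. -/
theorem h3_two_dvd_b (P : FreyPackage) : (2 : ℤ) ∣ P.b :=
  (ZMod.intCast_zmod_eq_zero_iff_dvd P.b 2).1 P.hb2

/-- `a` is odd. -/
theorem h3_not_two_dvd_a (P : FreyPackage) : ¬ (2 : ℤ) ∣ P.a := by
  intro h
  obtain ⟨k, hk⟩ := h
  have h4 := P.ha4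
  rw [hk] at h4
  push_cast at h4
  have : ∀ x : ZMod 4, (2 : ZMod 4) * x ≠ 3 := by decide
  exact this _ h4

/-- `a ^ p ≡ 3 mod 4`. -/
theorem h3_a_pow_mod_four (P : FreyPackage) : ((P.a ^ P.p : ℤ) : ZMod 4) = 3 := by
  obtain ⟨k, hk⟩ := P.hp_odd
  push_cast
  rw [P.ha4, hk, pow_succ, pow_mul]
  have : ((3 : ZMod 4) ^ 2) = 1 := by decide
  rw [this, one_pow, one_mul]

/-- `4 ∣ b ^ p`. -/
theorem h3_four_dvd_b_pow (P : FreyPackage) : (4 : ℤ) ∣ P.b ^ P.p := by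
  obtain ⟨c, hc⟩ := h3_two_dvd_b P
  have hp : 2 ≤ P.p := by have := P.hp5; omega
  obtain ⟨n, hn⟩ : ∃ n, P.p = 2 + n := ⟨P.p - 2, by omega⟩
  rw [hc, hn, mul_pow, pow_add]
  exact ⟨2 ^ n * c ^ (2 + n), by ring⟩

/-- `4 ∣ b ^ p - 1 - a ^ p`. -/
theorem h3_four_dvd (P : FreyPackage) : (4 : ℤ) ∣ P.b ^ P.p - 1 - P.a ^ P.p := by
  apply (ZMod.intCast_zmod_eq_zero_iff_dvd _ 4).1
  have h1 : ((P.b ^ P.p : ℤ) : ZMod 4) = 0 :=
    (ZMod.intCast_zmod_eq_zero_iff_dvd _ 4).2 (h3_four_dvd_b_pow P)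
  have h2 := h3_a_pow_mod_four P
  push_cast at h1 h2 ⊢
  rw [h1, h2]
  decide

/-- The coefficient `a₂` of the Frey curve is an integer. -/
theorem h3_frey_a₂_eq_intCast (P : FreyPackage) :
    ∃ n : ℤ, P.freyCurve.a₂ = (n : ℚ) := by
  obtain ⟨n, hn⟩ := h3_four_dvd P
  refine ⟨n, ?_⟩
  have h : ((P.b : ℚ) ^ P.p - 1 - (P.a : ℚ) ^ P.p) = 4 * (n : ℚ) := by
    exact_mod_cast hn
  simp only [FreyPackage.freyCurve]
  rw [h]
  ring

/-- `b₂ = a₁² + 4 a₂ = b ^ p - a ^ p` for the Frey curve. -/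
theorem h3_frey_b₂ (P : FreyPackage) :
    P.freyCurve.a₁ ^ 2 + 4 * P.freyCurve.a₂ = ((P.b ^ P.p - P.a ^ P.p : ℤ) : ℚ) := by
  simp only [FreyPackage.freyCurve]
  push_cast
  ring

/-- `b ^ p - a ^ p` is odd. -/
theorem h3_frey_b₂_odd (P : FreyPackage) : ¬ (2 : ℤ) ∣ P.b ^ P.p - P.a ^ P.p := by
  intro h
  have hb : (2 : ℤ) ∣ P.b ^ P.p := dvd_pow (h3_two_dvd_b P) P.hp0
  have ha : (2 : ℤ) ∣ P.a ^ P.p := by
    have := dvd_sub hb h
    simpa using this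
  exact h3_not_two_dvd_a P (Int.prime_two.dvd_of_dvd_pow ha)

/-- The coefficient `a₄` of the Frey curve is `2 ^ m * u`, `u` odd, `m ≥ 1`, `p ∤ 2 m`. -/
theorem h3_frey_a₄_eq (P : FreyPackage) :
    ∃ (m : ℕ) (u : ℤ), 1 ≤ m ∧ ¬ P.p ∣ 2 * m ∧ ¬ (2 : ℤ) ∣ u ∧
      P.freyCurve.a₄ = (2 : ℚ) ^ m * (u : ℚ) := by
  obtain ⟨s, b', hb', hb⟩ := WfDvdMonoid.max_power_factor P.hb0 Int.prime_two.irreducible
  have hs : 1 ≤ s := by
    rcases Nat.eq_zero_or_pos s with h0 | h0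
    · exfalso
      rw [h0, pow_zero, one_mul] at hb
      exact hb' (hb ▸ h3_two_dvd_b P)
    · exact h0
  have hp5 := P.hp5
  have hsp : 5 ≤ s * P.p := by nlinarith
  refine ⟨s * P.p - 4, -(P.a ^ P.p * b' ^ P.p), by omega, ?_, ?_, ?_⟩
  · intro hdvd
    have hodd : ¬ P.p ∣ 2 := by
      intro h2
      have := Nat.le_of_dvd (by norm_num) h2
      omega
    have h1 : P.p ∣ s * P.p - 4 := (Nat.Prime.dvd_mul P.pp).1 hdvd |>.resolve_left hodd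
    have h2 : P.p ∣ s * P.p := dvd_mul_left _ _
    have h3 : P.p ∣ 4 := by
      have := (Nat.dvd_sub h2 h1)
      have e : s * P.p - (s * P.p - 4) = 4 := by omega
      rwa [e] at this
    have := Nat.le_of_dvd (by norm_num) h3
    omega
  · rw [dvd_neg]
    intro h
    rcases Int.prime_two.dvd_or_dvd h with h1 | h1
    · exact h3_not_two_dvd_a P (Int.prime_two.dvd_of_dvd_pow h1)
    · exact hb' (Int.prime_two.dvd_of_dvd_pow h1)
  · simp only [FreyPackage.freyCurve]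
    have hbq : (P.b : ℚ) = (2 : ℚ) ^ s * (b' : ℚ) := by exact_mod_cast hb
    rw [hbq, mul_pow, ← pow_mul]
    obtain ⟨n, hn⟩ : ∃ n, s * P.p = n + 4 := ⟨s * P.p - 4, by omega⟩
    rw [hn, Nat.add_sub_cancel, pow_add]
    push_cast
    ring

end Fermat.Agent.S13.L2.FreyTwo
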