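import Mathlib
import Fermat.Prelude.Def_FLTPrelim_FreyPackage
import Fermat.Prelude.Def_FLTPrelim_Ramification
import Fermat.Agent.S05.H7_Inertia
import Fermat.Agent.S13.L2.H20_Defs
import Fermat.Agent.S13.L2.H3_FreyTwo

/-!
# S13, package L2 (helper3): the Frey curve is a nodal model at `2`

For every valuation subring `A` of `Kbar = AlgebraicClosure ℚ` over `2` and every root `ρ` of
`s² + a₁ s = a₂` the base change of the Frey curve to `Kbar` satisfies `Nodal A _ ρ`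
(`h3_frey_nodal`, `h3_exists_frey_nodal`), and `v a₄ = (v 2) ^ m` with `1 ≤ m`, `p ∤ 2 m`
(`h3_val_a₄_eq`).  Also the coefficient facts `a₁ = 1`, `a₃ = a₆ = 0`, `v a₂ ≤ 1`, `v b₂ = 1`,
`v 2 < 1`.
-/

set_option autoImplicit false

open WeierstrassCurve WeierstrassCurve.Affine

namespace Fermat.Agent.S13.L2.FreyTwo

/-- `Kbar = AlgebraicClosure ℚ`. -/
local notation "Kb" => AlgebraicClosure ℚ

section coeffs

variable (P : FreyPackage)

lemma h3_bc_a₁ : (P.freyCurve⁄Kb).a₁ = 1 := by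
  simp [WeierstrassCurve.baseChange, FreyPackage.freyCurve]

lemma h3_bc_a₃ : (P.freyCurve⁄Kb).a₃ = 0 := by
  simp [WeierstrassCurve.baseChange, FreyPackage.freyCurve]

lemma h3_bc_a₆ : (P.freyCurve⁄Kb).a₆ = 0 := by
  simp [WeierstrassCurve.baseChange, FreyPackage.freyCurve]

lemma h3_bc_a₂ : (P.freyCurve⁄Kb).a₂ = algebraMap ℚ Kb P.freyCurve.a₂ := by
  simp [WeierstrassCurve.baseChange]

lemma h3_bc_a₄ : (P.freyCurve⁄Kb).a₄ = algebraMap ℚ Kb P.freyCurve.a₄ := by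
  simp [WeierstrassCurve.baseChange]

/-- `a₂` of the base change is an integer. -/
lemma h3_bc_a₂_int : ∃ n : ℤ, (P.freyCurve⁄Kb).a₂ = (n : Kb) := by
  obtain ⟨n, hn⟩ := h3_frey_a₂_eq_intCast P
  refine ⟨n, ?_⟩
  rw [h3_bc_a₂, hn]
  simp

/-- `b₂ = a₁² + 4 a₂` of the base change is the odd integer `b^p - a^p`. -/
lemma h3_bc_b₂ : (P.freyCurve⁄Kb).a₁ ^ 2 + 4 * (P.freyCurve⁄Kb).a₂
    = ((P.b ^ P.p - P.a ^ P.p : ℤ) : Kb) := by
  have h := congrArg (algebraMap ℚ Kb) (h3_frey_b₂ P)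
  rw [h3_bc_a₁, h3_bc_a₂]
  simp only [FreyPackage.freyCurve] at h ⊢
  simpa using h

/-- `a₄` of the base change is `2 ^ m * u`, `u` an odd integer, `m ≥ 1`, `p ∤ 2 m`. -/
lemma h3_bc_a₄_eq : ∃ (m : ℕ) (u : ℤ), 1 ≤ m ∧ ¬ P.p ∣ 2 * m ∧ ¬ (2 : ℤ) ∣ u ∧
    (P.freyCurve⁄Kb).a₄ = (2 : Kb) ^ m * (u : Kb) := by
  obtain ⟨m, u, hm, hpm, hu, h⟩ := h3_frey_a₄_eq P
  refine ⟨m, u, hm, hpm, hu, ?_⟩
  rw [h3_bc_a₄, h]
  simp

end coeffs

section valuations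

variable (P : FreyPackage) {A : ValuationSubring Kb} (hA : A.LiesOverPrime 2)

include hA

lemma h3_val_two_lt_one : A.valuation (2 : Kb) < 1 := by
  have h := Fermat.Agent.S05.H7.valuation_natCast_lt_one (L := Kb) (A := A) hA
  simpa using h

omit hA in
lemma h3_val_two_ne_zero : A.valuation (2 : Kb) ≠ 0 := by
  rw [Ne, map_eq_zero]
  norm_num

omit hA in
lemma h3_val_a₁ : A.valuation (P.freyCurve⁄Kb).a₁ = 1 := by
  rw [h3_bc_a₁, map_one]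

omit hA in
lemma h3_val_a₂_le : A.valuation (P.freyCurve⁄Kb).a₂ ≤ 1 := by
  obtain ⟨n, hn⟩ := h3_bc_a₂_int P
  rw [hn]
  exact Fermat.Agent.S05.H7.valuation_intCast_le_one n

lemma h3_val_b₂ :
    A.valuation ((P.freyCurve⁄Kb).a₁ ^ 2 + 4 * (P.freyCurve⁄Kb).a₂) = 1 := by
  rw [h3_bc_b₂]
  exact Fermat.Agent.S05.H7.valuation_intCast_eq_one Nat.prime_two hA
    (by exact_mod_cast h3_frey_b₂_odd P)

/-- `v a₄ = (v 2) ^ m` with `m ≥ 1` and `p ∤ 2 m`. -/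
lemma h3_val_a₄_eq : ∃ m : ℕ, 1 ≤ m ∧ ¬ P.p ∣ 2 * m ∧
    A.valuation (P.freyCurve⁄Kb).a₄ = A.valuation (2 : Kb) ^ m := by
  obtain ⟨m, u, hm, hpm, hu, h⟩ := h3_bc_a₄_eq P
  refine ⟨m, hm, hpm, ?_⟩
  rw [h, map_mul, map_pow,
    Fermat.Agent.S05.H7.valuation_intCast_eq_one Nat.prime_two hA (by exact_mod_cast hu), mul_one]

lemma h3_val_a₄_lt : A.valuation (P.freyCurve⁄Kb).a₄ < 1 := by
  obtain ⟨m, hm, -, h⟩ := h3_val_a₄_eq P hA
  rw [h]
  exact pow_lt_one₀ zero_le (h3_val_two_lt_one hA) (by omega)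

omit hA in
lemma h3_a₄_ne_zero : (P.freyCurve⁄Kb).a₄ ≠ 0 := by
  obtain ⟨m, u, -, -, hu, h⟩ := h3_bc_a₄_eq P
  rw [h]
  refine mul_ne_zero (pow_ne_zero _ (by norm_num)) ?_
  have : u ≠ 0 := by rintro rfl; exact hu (dvd_zero _)
  exact_mod_cast this

omit hA in
/-- A tangent direction at the node exists over `Kbar`. -/
lemma h3_exists_rho : ∃ ρ : Kb, ρ ^ 2 + (P.freyCurve⁄Kb).a₁ * ρ = (P.freyCurve⁄Kb).a₂ := by
  obtain ⟨ρ, hρ⟩ := IsAlgClosed.exists_root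
    (Polynomial.X ^ 2 + Polynomial.X - Polynomial.C (P.freyCurve⁄Kb).a₂ : Polynomial Kb)
    (by
      have : (Polynomial.X ^ 2 + Polynomial.X - Polynomial.C (P.freyCurve⁄Kb).a₂
          : Polynomial Kb).degree = 2 := by compute_degree!
      rw [this]; norm_num)
  refine ⟨ρ, ?_⟩
  rw [h3_bc_a₁]
  simp only [Polynomial.IsRoot, Polynomial.eval_sub, Polynomial.eval_add, Polynomial.eval_pow,
    Polynomial.eval_X, Polynomial.eval_C] at hρ
  linear_combination hρ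

omit hA in
/-- A root of `s² + a₁ s = a₂` is integral. -/
lemma h3_val_rho_le {ρ : Kb} (hρ : ρ ^ 2 + (P.freyCurve⁄Kb).a₁ * ρ = (P.freyCurve⁄Kb).a₂) :
    A.valuation ρ ≤ 1 := by
  by_contra hlt
  rw [not_le] at hlt
  rw [h3_bc_a₁, one_mul] at hρ
  have h2 : A.valuation ρ < A.valuation (ρ ^ 2) := by
    rw [map_pow, pow_two]
    calc A.valuation ρ = A.valuation ρ * 1 := (mul_one _).symm
      _ < A.valuation ρ * A.valuation ρ := by
        apply mul_lt_mul_of_pos_left hlt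
        exact lt_trans zero_lt_one hlt
  have h3 : A.valuation (ρ ^ 2 + ρ) = A.valuation (ρ ^ 2) :=
    Valuation.map_add_eq_of_lt_left _ h2
  have h4 : A.valuation (ρ ^ 2 + ρ) ≤ 1 := by rw [hρ]; exact h3_val_a₂_le P
  rw [h3] at h4
  exact absurd (lt_trans hlt h2) (not_lt.mpr h4)

/-- The Frey curve is a nodal model at every valuation subring over `2`. -/
theorem h3_frey_nodal {ρ : Kb}
    (hρ : ρ ^ 2 + (P.freyCurve⁄Kb).a₁ * ρ = (P.freyCurve⁄Kb).a₂) :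
    Nodal A (P.freyCurve⁄Kb) ρ where
  a₃ := h3_bc_a₃ P
  a₆ := h3_bc_a₆ P
  a₁ := le_of_eq (h3_val_a₁ P)
  rho_le := h3_val_rho_le P hρ
  rho := hρ
  unit := by
    have h : ((P.freyCurve⁄Kb).a₁ + 2 * ρ) ^ 2
        = (P.freyCurve⁄Kb).a₁ ^ 2 + 4 * (P.freyCurve⁄Kb).a₂ := by
      rw [← hρ]; ring
    have h1 : A.valuation (((P.freyCurve⁄Kb).a₁ + 2 * ρ) ^ 2) = 1 := by
      rw [h]; exact h3_val_b₂ P hA
    rw [map_pow] at h1
    exact (pow_eq_one_iff_of_nonneg zero_le (by norm_num)).mp h1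
  be := h3_val_a₄_lt P hA
  be0 := h3_a₄_ne_zero P

/-- Existence form. -/
theorem h3_exists_frey_nodal : ∃ ρ : Kb, Nodal A (P.freyCurve⁄Kb) ρ := by
  obtain ⟨ρ, hρ⟩ := h3_exists_rho P
  exact ⟨ρ, h3_frey_nodal P hA hρ⟩

end valuations

end Fermat.Agent.S13.L2.FreyTwo
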