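import Mathlib
import Fermat.Agent.S13.L2.H20_Defs
import Fermat.Agent.S13.L2.H8_XNode

/-!
# S13 / L2 (helper8): the `x`-only hedge of the component map, in the shapes of package L2

For the nodal model `Nodal A W ρ` of `H20_Defs` over a field with `2 ≠ 0` and a prime `p ≥ 5`
such that the kernel of reduction contains no nonzero `p`-torsion point (leaf K2):

* `XOnly.torsion_val` / `XOnly.torsion_near_node`: a nonzero `p`-torsion point `(x, y)` is never
  FAR (`v a₄ < v x`) and `v x ^ p = v a₄ ^ (2 k)` for some integer `k`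
  (= the statement `torsion_near_node` of the component-map route, leaf 2-C);
* `XOnly.torsion_val_eq_one`: if moreover `v x` and `v a₄ = γ ^ m` are powers of one element
  `γ < 1` and `p ∤ 2 m`, then `v x = 1` (this is the form used for rational points);
* `XOnly.pair_good`: two MIDDLE points `P, Q` with `v x(P) = v x(Q)`, `x(P) ≠ x(Q)` and
  `P ± Q` integral: one of `P + Q`, `P - Q` is a unit point.

The proofs never use `y`-coordinates, signs or `ρ` (only `v b₂ = 1`, `b₂ = (a₁ + 2ρ)²`).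
-/

set_option autoImplicit false
set_option linter.unusedSectionVars false

open WeierstrassCurve WeierstrassCurve.Affine

namespace Fermat.Agent.S13.L2.XOnly

open Fermat.Agent.S05

variable {K : Type*} [Field K] [DecidableEq K] {A : ValuationSubring K} {W : Affine K} {ρ : K}

theorem val_two_le (A : ValuationSubring K) : A.valuation (2 : K) ≤ 1 := by
  rw [A.valuation_le_one_iff]
  exact ofNat_mem A 2

theorem val_b₂ (hD : Nodal A W ρ) : A.valuation W.b₂ = 1 := by
  have : W.b₂ = (W.a₁ + 2 * ρ) ^ 2 := by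
    simp only [b₂]
    rw [← hD.rho]
    ring
  rw [this, map_pow, hD.unit, one_pow]

/-- The hypothesis "no nonzero `p`-torsion in the kernel of reduction" in the point form used by
`node_point`, from its coordinate form (= leaf K2 applied to `n = p`). -/
theorem kernel_hyp {p : ℕ}
    (hK : ∀ {x y : K} (h : W.Nonsingular x y), 1 < A.valuation x → p • Point.some x y h ≠ 0) :
    ∀ Q : W.Point, Q ≠ 0 → p • Q = 0 → A.valuation (h8xc W Q) ≤ 1 := by
  intro Q hQ hpQ
  obtain ⟨hq, hQe⟩ := h8_exists_some hQ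
  by_contra hcon
  rw [not_le] at hcon
  rw [hQe] at hpQ
  exact hK hq hcon hpQ

/-- **(X1)** `x`-only version of `torsion_near_node` (no hypothesis `v x < 1` needed). -/
theorem torsion_val (hD : Nodal A W ρ) (h2 : (2 : K) ≠ 0) {p : ℕ} (pp : p.Prime) (hp5 : 5 ≤ p)
    (hK : ∀ {x y : K} (h : W.Nonsingular x y), 1 < A.valuation x → p • Point.some x y h ≠ 0)
    {x y : K} (h : W.Nonsingular x y) (hP : p • Point.some x y h = 0) :
    x ≠ 0 ∧ A.valuation W.a₄ < A.valuation x ∧
      ∃ k : ℤ, A.valuation x ^ p = A.valuation W.a₄ ^ (2 * k) := by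
  have hE1 := kernel_hyp (A := A) hK
  have hne : Point.some x y h ≠ 0 := Point.some_ne_zero h
  have hlt := not_far hD.a₃ hD.a₆ A.valuation h2 (val_two_le A) (val_b₂ hD) hD.be hD.be0 pp hp5
    hE1 hne hP
  obtain ⟨k, hk⟩ := mid_val hD.a₃ hD.a₆ A.valuation h2 (val_two_le A) (val_b₂ hD) hD.be hD.be0
    pp hp5 hE1 hne hP
  rw [h8xc_some] at hlt hk
  refine ⟨?_, hlt, k, ?_⟩
  · intro h0
    rw [h0, map_zero] at hlt
    exact not_lt_zero' hlt
  · rw [hk, zpow_mul]
    norm_cast

/-- **(X1)** in the exact shape of the component-map deliverable `torsion_near_node`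
(with the two extra hypotheses `2 ≠ 0`, `p` prime `≥ 5`, and leaf K2 as a hypothesis). -/
theorem torsion_near_node (hD : Nodal A W ρ) (h2 : (2 : K) ≠ 0) {p : ℕ} (pp : p.Prime)
    (hp5 : 5 ≤ p)
    (hK : ∀ {x y : K} (h : W.Nonsingular x y), 1 < A.valuation x → p • Point.some x y h ≠ 0)
    {x y : K} (h : W.Nonsingular x y) (hP : p • Point.some x y h = 0)
    (_hx : A.valuation x < 1) :
    x ≠ 0 ∧ A.valuation W.a₄ < A.valuation x ∧
      ∃ k : ℤ, A.valuation x ^ p = A.valuation W.a₄ ^ (2 * k) :=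
  torsion_val hD h2 pp hp5 hK h hP

/-- **(X1')** the form used for rational points: if `v x = γ ^ j` and `v a₄ = γ ^ m` with
`γ < 1` and `p ∤ 2 m`, then a nonzero `p`-torsion point has `v x = 1`. -/
theorem torsion_val_eq_one (hD : Nodal A W ρ) (h2 : (2 : K) ≠ 0) {p : ℕ} (pp : p.Prime)
    (hp5 : 5 ≤ p)
    (hK : ∀ {x y : K} (h : W.Nonsingular x y), 1 < A.valuation x → p • Point.some x y h ≠ 0)
    {x y : K} (h : W.Nonsingular x y) (hP : p • Point.some x y h = 0)
    {γ : A.ValueGroup} (hγ0 : γ ≠ 0) (hγ1 : γ < 1) {m : ℕ} (hm : A.valuation W.a₄ = γ ^ m)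
    (hpm : ¬ p ∣ 2 * m) {j : ℤ} (hj : A.valuation x = γ ^ j) :
    A.valuation x = 1 := by
  have hE1 := kernel_hyp (A := A) hK
  have hne : Point.some x y h ≠ 0 := Point.some_ne_zero h
  have := val_eq_one_of_pow hD.a₃ hD.a₆ A.valuation h2 (val_two_le A) (val_b₂ hD) hD.be hD.be0
    pp hp5 hE1 hne hP hγ0 hγ1 hm hpm (j := j) (by rw [h8xc_some]; exact hj)
  rwa [h8xc_some] at this

/-- **(X2)** two MIDDLE points of the same depth with different `x`-coordinates whose sum and
difference are integral: one of `P + Q`, `P - Q` is a unit point. -/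
theorem pair_good (hD : Nodal A W ρ) (h2 : (2 : K) ≠ 0) {P Q : W.Point}
    (hP : P ≠ 0) (hQ : Q ≠ 0) (hX : h8xc W P ≠ h8xc W Q)
    (hM : A.valuation W.a₄ < A.valuation (h8xc W P)) (hM' : A.valuation (h8xc W P) < 1)
    (hv : A.valuation (h8xc W Q) = A.valuation (h8xc W P))
    (hTp : A.valuation (h8xc W (P + Q)) ≤ 1) (hTm : A.valuation (h8xc W (P - Q)) ≤ 1) :
    A.valuation (h8xc W (P + Q)) = 1 ∨ A.valuation (h8xc W (P - Q)) = 1 := by
  obtain ⟨-, -, hS, hPr⟩ := nodal_addsub hD.a₃ hD.a₆ h2 hP hQ hX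
  exact pair_eq_unit A.valuation (val_b₂ hD) hD.be0 hD.be (val_two_le A) hTp hTm hS hPr hM hM' hv

end Fermat.Agent.S13.L2.XOnly
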