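import Fermat.Agent.S05.H13_Inertia
import Fermat.Agent.S54.Frobenius
import Fermat.Agent.S13.Asm.H11_Interfaces
import Fermat.Agent.S13.L2.H3_FreyNodal
import Fermat.Agent.S13.L2.H7_K
import Fermat.Agent.S13.L2.H9_U
import Fermat.Agent.S13.L2.H8_XOnly
import Fermat.Agent.S13.L2.H20_CompCor

/-!
# S13, package L2: deliverable (L2b) (helper20)

`H20b.stL2b : ∀ P, Asm.StL2b P`: the Frey curve has no nonzero `Gam`-fixed point of order `p`.

A `Gam`-fixed point of order `p` has rational coordinates; at a valuation subring `A` over `2`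
such a point is integral (kernel of reduction, helper7) and its abscissa is a unit (nodal
analysis, `torsion_val_eq_one`); the three points `Q, 2Q, 3Q` then reduce to the two classes
`(1,0), (1,1)`, so two of them are congruent and their difference is a nonzero point of order
`p` in the kernel of reduction (helper9), which is impossible.
-/

set_option autoImplicit false
set_option linter.unusedSectionVars false
set_option linter.unusedVariables false

open WeierstrassCurve WeierstrassCurve.Affine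

namespace Fermat.Agent.S13.L2.H20b

open Fermat.Agent.S13.Asm Fermat.Agent.S13.L2

variable {A : ValuationSubring Kbar}

/-- A rational number as a quotient of integers in `Kbar`. -/
lemma h20b_rat_eq (r : ℚ) :
    algebraMap ℚ Kbar r = ((r.num : ℤ) : Kbar) / ((r.den : ℤ) : Kbar) := by
  conv_lhs => rw [← Rat.num_div_den r]
  simp

/-- The valuation of `2`, as a natural number cast. -/
lemma h20b_val_two_nat (hA : A.LiesOverPrime 2) : A.valuation ((2 : ℕ) : Kbar) < 1 := by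
  have := FreyTwo.h3_val_two_lt_one hA
  simpa using this

/-- The valuation of a nonzero rational number is a power of the valuation of `2`. -/
lemma h20b_val_rat_pow (hA : A.LiesOverPrime 2) (r : ℚ) (hr : r ≠ 0) :
    ∃ j : ℤ, A.valuation (algebraMap ℚ Kbar r) = A.valuation (2 : Kbar) ^ j := by
  have hnum : r.num ≠ 0 := Rat.num_ne_zero.mpr hr
  have hden : (r.den : ℤ) ≠ 0 := by exact_mod_cast r.den_ne_zero
  obtain ⟨k₁, m₁, -, -, h₁⟩ :=
    Fermat.Agent.S05.H7.valuation_intCast_eq_pow (L := Kbar) Nat.prime_two hA hnum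
  obtain ⟨k₂, m₂, -, -, h₂⟩ :=
    Fermat.Agent.S05.H7.valuation_intCast_eq_pow (L := Kbar) Nat.prime_two hA hden
  have h2ne : A.valuation (2 : Kbar) ≠ 0 := FreyTwo.h3_val_two_ne_zero
  have e2 : ((2 : ℕ) : Kbar) = 2 := by norm_num
  rw [e2] at h₁ h₂
  refine ⟨(k₁ : ℤ) - k₂, ?_⟩
  rw [h20b_rat_eq, map_div₀, h₁, h₂, zpow_sub₀ h2ne, zpow_natCast, zpow_natCast]

/-- An integral rational number is congruent to `0` or to `1` modulo the maximal ideal
over `2`. -/
lemma h20b_rat_class (hA : A.LiesOverPrime 2) (r : ℚ)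
    (hr : A.valuation (algebraMap ℚ Kbar r) ≤ 1) :
    A.valuation (algebraMap ℚ Kbar r) < 1 ∨ A.valuation (algebraMap ℚ Kbar r - 1) < 1 := by
  rcases lt_or_eq_of_le hr with h | h
  · exact Or.inl h
  right
  have hden0 : ((r.den : ℤ) : Kbar) ≠ 0 := by exact_mod_cast r.den_ne_zero
  have hvd0 : A.valuation ((r.den : ℤ) : Kbar) ≠ 0 := (Valuation.ne_zero_iff _).mpr hden0
  rw [h20b_rat_eq, map_div₀] at h
  have heq : A.valuation ((r.num : ℤ) : Kbar) = A.valuation ((r.den : ℤ) : Kbar) := by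
    have := (div_eq_one_iff_eq hvd0).mp h
    exact this
  -- the denominator is odd
  have hgcd : Int.gcd r.num (r.den : ℤ) = 1 := by
    have := r.reduced
    simpa [Int.gcd, Nat.Coprime] using this
  have hdodd : ¬ ((2 : ℕ) : ℤ) ∣ (r.den : ℤ) := by
    intro hd
    have hdlt := (Fermat.Agent.S05.H7.valuation_intCast_lt_one_iff (L := Kbar)
      Nat.prime_two hA _).mpr hd
    rw [← heq] at hdlt
    have hn := (Fermat.Agent.S05.H7.valuation_intCast_lt_one_iff (L := Kbar)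
      Nat.prime_two hA _).mp hdlt
    have h1 : ((2 : ℕ) : ℤ) ∣ Int.gcd r.num (r.den : ℤ) := Int.dvd_coe_gcd hn hd
    rw [hgcd] at h1
    norm_num at h1
  have hd1 : A.valuation ((r.den : ℤ) : Kbar) = 1 :=
    Fermat.Agent.S05.H7.valuation_intCast_eq_one Nat.prime_two hA hdodd
  have hnodd : ¬ ((2 : ℕ) : ℤ) ∣ r.num := by
    intro hn
    have hnlt := (Fermat.Agent.S05.H7.valuation_intCast_lt_one_iff (L := Kbar)
      Nat.prime_two hA _).mpr hn
    rw [heq, hd1] at hnlt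
    exact lt_irrefl _ hnlt
  have hsub : ((2 : ℕ) : ℤ) ∣ r.num - (r.den : ℤ) := by
    have h1 : r.num % 2 = 1 := by
      have := Int.emod_two_eq_zero_or_one r.num
      rcases this with h0 | h1
      · exact absurd (Int.dvd_of_emod_eq_zero h0) (by simpa using hnodd)
      · exact h1
    have h2 : (r.den : ℤ) % 2 = 1 := by
      have := Int.emod_two_eq_zero_or_one (r.den : ℤ)
      rcases this with h0 | h1
      · exact absurd (Int.dvd_of_emod_eq_zero h0) (by simpa using hdodd)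
      · exact h1
    have : (r.num - (r.den : ℤ)) % 2 = 0 := by omega
    simpa using Int.dvd_of_emod_eq_zero this
  have hlt := (Fermat.Agent.S05.H7.valuation_intCast_lt_one_iff (L := Kbar)
      Nat.prime_two hA _).mpr hsub
  have e : algebraMap ℚ Kbar r - 1
      = ((r.num - (r.den : ℤ) : ℤ) : Kbar) / ((r.den : ℤ) : Kbar) := by
    rw [h20b_rat_eq]
    field_simp
    push_cast
    ring
  rw [e, map_div₀, hd1, div_one]
  exact hlt

/-- `ℚ̄ / ℚ` is Galois. -/
lemma h20b_isGalois : IsGalois ℚ Kbar := by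
  have : Algebra.IsAlgebraic ℚ Kbar := AlgebraicClosure.isAlgebraic ℚ
  have : IsAlgClosure ℚ Kbar :=
    (inferInstance :
      @IsAlgClosure ℚ (AlgebraicClosure ℚ) _ _ (AlgebraicClosure.instAlgebra ℚ) _)
  have : Normal ℚ Kbar := IsAlgClosure.normal ℚ Kbar
  exact IsGalois.mk

/-- An element of `ℚ̄` fixed by the whole Galois group is rational. -/
lemma h20b_rational (z : Kbar) (hz : ∀ σ : Gam, σ z = z) :
    ∃ r : ℚ, algebraMap ℚ Kbar r = z := by
  have := h20b_isGalois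
  exact (InfiniteGalois.mem_range_algebraMap_iff_fixed z).mpr hz

section main

variable (P : FreyPackage)

/-- `p` is a unit at `2`. -/
lemma h20b_val_p (hA : A.LiesOverPrime 2) : A.valuation ((P.p : ℕ) : Kbar) = 1 := by
  refine h7_val_natCast_eq_one (h20b_val_two_nat hA) ?_
  rw [Nat.coprime_comm]
  exact (Nat.coprime_primes P.pp Nat.prime_two).mpr (by have := P.hp5; omega)

/-- Structure of a nonzero `Gam`-fixed point of order `p`: it is an integral point with unit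
abscissa congruent to `1`, and ordinate congruent to `0` or `1`. -/
lemma h20b_key (hA : A.LiesOverPrime 2) {ρ : Kbar} (hD : Nodal A (P.freyCurve⁄Kbar) ρ)
    (Q : (P.freyCurve⁄Kbar).Point) (hQ : P.p • Q = 0) (hfix : ∀ σ : Gam, σ • Q = Q)
    (hQ0 : Q ≠ 0) :
    ∃ (X Y : Kbar) (h : (P.freyCurve⁄Kbar).Nonsingular X Y), Q = Point.some X Y h ∧
      A.valuation X = 1 ∧ A.valuation Y ≤ 1 ∧ A.valuation (X - 1) < 1 ∧
      (A.valuation Y < 1 ∨ A.valuation (Y - 1) < 1) := by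
  rcases Q with _ | ⟨X, Y, h⟩
  · exact absurd rfl hQ0
  have hfixXY : ∀ σ : Gam, σ X = X ∧ σ Y = Y := by
    intro σ
    have := hfix σ
    rw [Fermat.Agent.S05.H13.smul_some] at this
    simpa using this
  obtain ⟨r, hr⟩ := h20b_rational X (fun σ => (hfixXY σ).1)
  obtain ⟨s, hs⟩ := h20b_rational Y (fun σ => (hfixXY σ).2)
  have hp1 := h20b_val_p P hA
  have h3 := FreyTwo.h3_bc_a₃ P
  have h6 := FreyTwo.h3_bc_a₆ P
  have h1 := (FreyTwo.h3_val_a₁ P (A := A)).le
  have h2 := FreyTwo.h3_val_a₂_le P (A := A)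
  have h4 := (FreyTwo.h3_val_a₄_lt P hA).le
  have hXle : A.valuation X ≤ 1 := h7_val_le_one_of_nsmul_eq_zero h3 h6 h1 h2 h4 hp1 h hQ
  have hfar : A.valuation (P.freyCurve⁄Kbar).a₄ < A.valuation X :=
    not_far_of_odd_nsmul hD P.hp_odd h hQ
  have hX0 : X ≠ 0 := by
    rintro rfl
    rw [map_zero] at hfar
    exact not_lt_zero' hfar
  obtain ⟨m, hm1, hpm, hm⟩ := FreyTwo.h3_val_a₄_eq P hA
  have hr0 : r ≠ 0 := by
    rintro rfl
    rw [map_zero] at hr
    exact hX0 hr.symm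
  obtain ⟨j, hj⟩ := h20b_val_rat_pow hA r hr0
  rw [hr] at hj
  have hX1 : A.valuation X = 1 :=
    XOnly.torsion_val_eq_one hD two_ne_zero P.pp P.hp5
      (fun h hx => nsmul_ne_zero_of_inKer h3 h6 h1 h2 h4 hp1 h hx) h hQ
      FreyTwo.h3_val_two_ne_zero (FreyTwo.h3_val_two_lt_one hA) hm hpm hj
  have hYle : A.valuation Y ≤ 1 := h7_val_y_le_one h3 h6 h1 h2 h4 h.1 hXle
  refine ⟨X, Y, h, rfl, hX1, hYle, ?_, ?_⟩
  · have := h20b_rat_class hA r (by rw [hr]; exact hXle)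
    rw [hr] at this
    rcases this with h' | h'
    · rw [hX1] at h'
      exact absurd h' (lt_irrefl _)
    · exact h'
  · have := h20b_rat_class hA s (by rw [hs]; exact hYle)
    rw [hs] at this
    exact this

/-- Two congruent integral points of order `p` are equal. -/
lemma h20b_congr_false (hA : A.LiesOverPrime 2) (Q₁ Q₂ : (P.freyCurve⁄Kbar).Point)
    (hQ₁ : P.p • Q₁ = 0) (hQ₂ : P.p • Q₂ = 0) (hne : Q₂ - Q₁ ≠ 0)
    {X₁ Y₁ X₂ Y₂ : Kbar} {h₁ : (P.freyCurve⁄Kbar).Nonsingular X₁ Y₁}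
    {h₂ : (P.freyCurve⁄Kbar).Nonsingular X₂ Y₂}
    (e₁ : Q₁ = Point.some X₁ Y₁ h₁) (e₂ : Q₂ = Point.some X₂ Y₂ h₂)
    (hX₁ : A.valuation X₁ = 1) (hY₁ : A.valuation Y₁ ≤ 1)
    (hXX : A.valuation (X₂ - X₁) < 1) (hYY : A.valuation (Y₂ - Y₁) < 1) : False := by
  have hp1 := h20b_val_p P hA
  have h3 := FreyTwo.h3_bc_a₃ P
  have h6 := FreyTwo.h3_bc_a₆ P
  have h1 := FreyTwo.h3_val_a₁ P (A := A)
  have h2 := FreyTwo.h3_val_a₂_le P (A := A)
  have h4 := (FreyTwo.h3_val_a₄_lt P hA).le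
  have hker : InKer A (Q₂ - Q₁) := by
    rw [e₁, e₂]
    exact inKer_sub_of_congr_two h3 (FreyTwo.h3_val_two_lt_one hA) h1 h2 h₁ h₂ hX₁ hY₁ hXX hYY
  refine h7_nsmul_ne_zero h3 h6 h1.le h2 h4 hp1 hker hne ?_
  rw [smul_sub, hQ₁, hQ₂, sub_zero]

/-- **Deliverable (L2b)**: the Frey curve has no nonzero `Gam`-fixed point of order `p`. -/
theorem stL2b : StL2b P := by
  intro x hx
  obtain ⟨A, hA⟩ := Fermat.Agent.S54.exists_liesOverPrime 2 Nat.prime_two
  obtain ⟨ρ, hD⟩ := FreyTwo.h3_exists_frey_nodal P hA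
  by_contra hx0
  have hQ0 : (x : (P.freyCurve⁄Kbar).Point) ≠ 0 := fun h => hx0 (Subtype.ext h)
  have hQ : P.p • (x : (P.freyCurve⁄Kbar).Point) = 0 := by
    have := (Submodule.mem_torsionBy_iff _ _).mp x.2
    rwa [natCast_zsmul] at this
  have hfix : ∀ σ : Gam, σ • (x : (P.freyCurve⁄Kbar).Point) = x :=
    fun σ => congrArg Subtype.val (hx σ)
  generalize (x : (P.freyCurve⁄Kbar).Point) = Q at hQ0 hQ hfix
  have hmul : ∀ k : ℕ, P.p • (k • Q) = 0 := fun k => by
    rw [smul_comm, hQ, nsmul_zero]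
  have hfixk : ∀ (k : ℕ) (σ : Gam), σ • (k • Q) = k • Q := fun k σ => by
    have := map_nsmul (Point.map (W' := P.freyCurve) σ.toAlgHom) k Q
    calc σ • (k • Q) = k • (σ • Q) := this
      _ = k • Q := by rw [hfix σ]
  have hne : ∀ k : ℕ, 0 < k → k < P.p → k • Q ≠ 0 := by
    intro k hk0 hkp hk
    have h1 : addOrderOf Q ∣ k := addOrderOf_dvd_of_nsmul_eq_zero hk
    have h2 : addOrderOf Q ∣ P.p := addOrderOf_dvd_of_nsmul_eq_zero hQ
    rcases (Nat.dvd_prime P.pp).mp h2 with h | h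
    · exact hQ0 (AddMonoid.addOrderOf_eq_one_iff.mp h)
    · rw [h] at h1
      exact absurd (Nat.le_of_dvd hk0 h1) (by omega)
  have hp5 := P.hp5
  obtain ⟨X₁, Y₁, h₁, e₁, hX₁, hY₁, hX₁', hc₁⟩ := h20b_key P hA hD Q hQ hfix hQ0
  obtain ⟨X₂, Y₂, h₂, e₂, hX₂, hY₂, hX₂', hc₂⟩ :=
    h20b_key P hA hD (2 • Q) (hmul 2) (hfixk 2) (hne 2 (by omega) (by omega))
  obtain ⟨X₃, Y₃, h₃, e₃, hX₃, hY₃, hX₃', hc₃⟩ :=
    h20b_key P hA hD (3 • Q) (hmul 3) (hfixk 3) (hne 3 (by omega) (by omega))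
  have d21 : 2 • Q - Q = Q := by
    rw [two_nsmul, add_sub_cancel_right]
  have e3 : 3 • Q = 2 • Q + Q := succ_nsmul Q 2
  have d32 : 3 • Q - 2 • Q = Q := by
    rw [e3, add_sub_cancel_left]
  have d31 : 3 • Q - Q = 2 • Q := by
    rw [e3, add_sub_cancel_right]
  have hsub1 : ∀ {a b : Kbar}, A.valuation (a - 1) < 1 → A.valuation (b - 1) < 1 →
      A.valuation (b - a) < 1 := by
    intro a b ha hb
    have e : b - a = (b - 1) - (a - 1) := by ring
    rw [e]
    exact Valuation.map_sub_lt _ hb ha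
  have hsub0 : ∀ {a b : Kbar}, A.valuation a < 1 → A.valuation b < 1 →
      A.valuation (b - a) < 1 := by
    intro a b ha hb
    exact Valuation.map_sub_lt _ hb ha
  have P12 : A.valuation (Y₂ - Y₁) < 1 → False := fun hyy =>
    h20b_congr_false P hA Q (2 • Q) hQ (hmul 2) (by rw [d21]; exact hQ0) e₁ e₂ hX₁ hY₁
      (hsub1 hX₁' hX₂') hyy
  have P23 : A.valuation (Y₃ - Y₂) < 1 → False := fun hyy =>
    h20b_congr_false P hA (2 • Q) (3 • Q) (hmul 2) (hmul 3) (by rw [d32]; exact hQ0) e₂ e₃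
      hX₂ hY₂ (hsub1 hX₂' hX₃') hyy
  have P13 : A.valuation (Y₃ - Y₁) < 1 → False := fun hyy =>
    h20b_congr_false P hA Q (3 • Q) hQ (hmul 3)
      (by rw [d31]; exact hne 2 (by omega) (by omega)) e₁ e₃ hX₁ hY₁ (hsub1 hX₁' hX₃') hyy
  rcases hc₁ with c1 | c1 <;> rcases hc₂ with c2 | c2 <;> rcases hc₃ with c3 | c3
  · exact P12 (hsub0 c1 c2)
  · exact P12 (hsub0 c1 c2)
  · exact P13 (hsub0 c1 c3)
  · exact P23 (hsub1 c2 c3)
  · exact P23 (hsub0 c2 c3)
  · exact P13 (hsub1 c1 c3)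
  · exact P12 (hsub1 c1 c2)
  · exact P12 (hsub1 c1 c2)

end main

end Fermat.Agent.S13.L2.H20b
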