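import Fermat.Agent.S13.L2.H20_Vieta

/-!
# S13, package L2, leaves MMo (helper20, hedge namespace `L2.H20`): middle + middle with
opposite signs, on the nodal model with `a₁`.  Port of `Fermat.Agent.S05.W3` leaf L3 (helper10).

* `leaf_MM_opp_eq`: if `v x₁ = v x₂` then `P₃` is good (`1 ≤ v x₃`);
* `leaf_MM_opp_lt`: if `v x₂ < v x₁` then `v x₃ * v x₁ = v x₂` and `y₃ / x₃ ≡ -a₁ - ρ`.
-/

set_option autoImplicit false
set_option linter.unusedSectionVars false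
set_option linter.unusedVariables false

open WeierstrassCurve WeierstrassCurve.Affine

namespace Fermat.Agent.S13.L2.H20

variable {K : Type*} [Field K] [DecidableEq K] {A : ValuationSubring K} {W : Affine K} {ρ : K}

/-- Common part of the two leaves: the line data and the basic identities. -/
lemma h20_opp_data (hD : Nodal A W ρ) {x₁ y₁ x₂ y₂ x₃ y₃ : K}
    {h₁ : W.Nonsingular x₁ y₁} {h₂ : W.Nonsingular x₂ y₂} {h₃ : W.Nonsingular x₃ y₃}
    (hsum : Point.some x₁ y₁ h₁ + Point.some x₂ y₂ h₂ = Point.some x₃ y₃ h₃)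
    (hM₁ : A.valuation W.a₄ < A.valuation x₁)
    (hM₂ : A.valuation W.a₄ < A.valuation x₂)
    (hs₁ : A.valuation (y₁ / x₁ - ρ) < 1) (hs₂ : A.valuation (y₂ / x₂ + W.a₁ + ρ) < 1) :
    x₁ ≠ 0 ∧ x₂ ≠ 0 ∧ x₁ ≠ x₂ ∧ ∃ L N : K, y₁ = L * x₁ + N ∧ y₃ = -(L * x₃ + N) - W.a₁ * x₃ ∧
      x₁ * x₂ * x₃ = N ^ 2 ∧
      A.valuation N * A.valuation (x₁ - x₂) = A.valuation x₁ * A.valuation x₂ := by
  have hx₁ : x₁ ≠ 0 := (A.valuation.ne_zero_iff).mp (lt_of_le_of_lt zero_le hM₁).ne'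
  have hx₂ : x₂ ≠ 0 := (A.valuation.ne_zero_iff).mp (lt_of_le_of_lt zero_le hM₂).ne'
  -- `t₁ - t₂` is a unit
  have h2ρ : A.valuation (W.a₁ + 2 * ρ) = 1 := hD.unit
  have hdiff : A.valuation (y₁ / x₁ - y₂ / x₂) = 1 := by
    have e : y₁ / x₁ - y₂ / x₂ =
        (W.a₁ + 2 * ρ) + ((y₁ / x₁ - ρ) - (y₂ / x₂ + W.a₁ + ρ)) := by ring
    have hlt : A.valuation ((y₁ / x₁ - ρ) - (y₂ / x₂ + W.a₁ + ρ)) < 1 :=
      (A.valuation.map_sub _ _).trans_lt (max_lt hs₁ hs₂)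
    rw [e, A.valuation.map_add_eq_of_lt_left (by rw [h2ρ]; exact hlt), h2ρ]
  -- `P₁ ≠ -P₂`
  have hxy : ¬(x₁ = x₂ ∧ y₁ = -y₂ - W.a₁ * x₂) := by
    rintro ⟨hx, hy⟩
    have : Point.some x₁ y₁ h₁ + Point.some x₂ y₂ h₂ = 0 :=
      Point.add_of_Y_eq hx (by rw [hD.negY]; exact hy)
    rw [this] at hsum
    exact Point.some_ne_zero h₃ hsum.symm
  obtain ⟨L, N, x₃', h₃', hadd, -, hy₁, hy₂, -, -, e3⟩ :=
    line_of_add_some hD.a₃ hD.a₆ h₁ h₂ hxy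
  rw [hsum] at hadd
  simp only [Point.some.injEq] at hadd
  obtain ⟨rfl, hy₃⟩ := hadd
  -- `x₁ ≠ x₂`
  have hne : x₁ ≠ x₂ := by
    intro hx
    have hy : y₁ = y₂ := by rw [hy₁, hy₂, hx]
    rw [hx, hy, sub_self, map_zero] at hdiff
    exact zero_ne_one hdiff
  refine ⟨hx₁, hx₂, hne, L, N, hy₁, hy₃, e3, ?_⟩
  have hF0 : N * (x₁ - x₂) = x₁ * x₂ * -(y₁ / x₁ - y₂ / x₂) := by
    field_simp
    rw [hy₁, hy₂]
    ring
  have := congrArg A.valuation hF0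
  rw [map_mul, map_mul, map_mul, Valuation.map_neg, hdiff, mul_one] at this
  exact this

/-- **Leaf L3a**: opposite signs, equal valuations: the sum is good. -/
theorem leaf_MM_opp_eq (hD : Nodal A W ρ) {x₁ y₁ x₂ y₂ x₃ y₃ : K}
    {h₁ : W.Nonsingular x₁ y₁} {h₂ : W.Nonsingular x₂ y₂} {h₃ : W.Nonsingular x₃ y₃}
    (hsum : Point.some x₁ y₁ h₁ + Point.some x₂ y₂ h₂ = Point.some x₃ y₃ h₃)
    (hM₁ : A.valuation W.a₄ < A.valuation x₁) (hM₁' : A.valuation x₁ < 1)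
    (hM₂ : A.valuation W.a₄ < A.valuation x₂) (hM₂' : A.valuation x₂ < 1)
    (hs₁ : A.valuation (y₁ / x₁ - ρ) < 1) (hs₂ : A.valuation (y₂ / x₂ + W.a₁ + ρ) < 1)
    (hv : A.valuation x₁ = A.valuation x₂) : 1 ≤ A.valuation x₃ := by
  obtain ⟨hx₁, hx₂, hne, L, N, hy₁, hy₃, e3, hN⟩ := h20_opp_data hD hsum hM₁ hM₂ hs₁ hs₂
  have hv₁ : 0 < A.valuation x₁ := A.valuation.pos_iff.mpr hx₁
  have hd : A.valuation (x₁ - x₂) ≤ A.valuation x₁ :=
    (A.valuation.map_sub _ _).trans (max_le le_rfl hv.ge)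
  have h3 : A.valuation x₃ * (A.valuation x₁ * A.valuation x₂) = A.valuation N ^ 2 := by
    rw [← map_pow, ← e3, map_mul, map_mul, mul_comm]
  by_contra hcon
  rw [not_le] at hcon
  rw [← hv] at hN h3
  -- `v N ^ 2 < v x₁ ^ 2`
  have h4 : A.valuation N ^ 2 < A.valuation x₁ ^ 2 := by
    rw [← h3, sq]
    calc A.valuation x₃ * (A.valuation x₁ * A.valuation x₁)
        < 1 * (A.valuation x₁ * A.valuation x₁) :=
          mul_lt_mul_of_pos_right hcon (mul_pos hv₁ hv₁)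
      _ = A.valuation x₁ * A.valuation x₁ := one_mul _
  have h5 : A.valuation N < A.valuation x₁ := lt_of_pow_lt_pow_left₀ 2 zero_le h4
  have h6 : A.valuation N * A.valuation (x₁ - x₂) < A.valuation x₁ * A.valuation x₁ :=
    calc A.valuation N * A.valuation (x₁ - x₂) ≤ A.valuation N * A.valuation x₁ := by gcongr
      _ < A.valuation x₁ * A.valuation x₁ := mul_lt_mul_of_pos_right h5 hv₁
  rw [hN] at h6
  exact lt_irrefl _ h6

/-- **Leaf L3b**: opposite signs, `v x₂ < v x₁`: the sum is in the middle class with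
`v x₃ = v x₂ / v x₁` and the sign of `P₂`. -/
theorem leaf_MM_opp_lt (hD : Nodal A W ρ) {x₁ y₁ x₂ y₂ x₃ y₃ : K}
    {h₁ : W.Nonsingular x₁ y₁} {h₂ : W.Nonsingular x₂ y₂} {h₃ : W.Nonsingular x₃ y₃}
    (hsum : Point.some x₁ y₁ h₁ + Point.some x₂ y₂ h₂ = Point.some x₃ y₃ h₃)
    (hM₁ : A.valuation W.a₄ < A.valuation x₁) (hM₁' : A.valuation x₁ < 1)
    (hM₂ : A.valuation W.a₄ < A.valuation x₂) (hM₂' : A.valuation x₂ < 1)
    (hs₁ : A.valuation (y₁ / x₁ - ρ) < 1) (hs₂ : A.valuation (y₂ / x₂ + W.a₁ + ρ) < 1)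
    (hv : A.valuation x₂ < A.valuation x₁) :
    A.valuation x₃ * A.valuation x₁ = A.valuation x₂ ∧ A.valuation (y₃ / x₃ + W.a₁ + ρ) < 1 := by
  obtain ⟨hx₁, hx₂, hne, L, N, hy₁, hy₃, e3, hN⟩ := h20_opp_data hD hsum hM₁ hM₂ hs₁ hs₂
  have hv₁ : A.valuation x₁ ≠ 0 := (A.valuation.ne_zero_iff).mpr hx₁
  have hv₂ : A.valuation x₂ ≠ 0 := (A.valuation.ne_zero_iff).mpr hx₂
  have hd : A.valuation (x₁ - x₂) = A.valuation x₁ := A.valuation.map_sub_eq_of_lt_left hv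
  -- `v N = v x₂`
  have hvN : A.valuation N = A.valuation x₂ := by
    rw [hd, mul_comm (A.valuation x₁)] at hN
    exact mul_right_cancel₀ hv₁ hN
  have hN0 : N ≠ 0 := (A.valuation.ne_zero_iff).mp (hvN ▸ hv₂)
  have h3 : A.valuation x₃ * (A.valuation x₁ * A.valuation x₂) = A.valuation N ^ 2 := by
    rw [← map_pow, ← e3, map_mul, map_mul, mul_comm]
  have hx₃v : A.valuation x₃ * A.valuation x₁ = A.valuation x₂ := by
    rw [hvN, sq, ← mul_assoc] at h3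
    exact mul_right_cancel₀ hv₂ h3
  have hx₃ : x₃ ≠ 0 := by
    intro h0
    rw [h0, map_zero, zero_mul] at hx₃v
    exact hv₂ hx₃v.symm
  refine ⟨hx₃v, ?_⟩
  -- the sign
  have key : y₃ / x₃ + W.a₁ + ρ = -(y₁ / x₁ - ρ) + N / x₁ - x₁ * x₂ / N := by
    rw [hy₃, hy₁]
    field_simp
    linear_combination x₁ * e3
  have hA : A.valuation (N / x₁) < 1 := by
    rw [map_div₀, hvN]
    exact (div_lt_one₀ (zero_lt_iff.mpr hv₁)).mpr hv
  have hB : A.valuation (x₁ * x₂ / N) < 1 := by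
    rw [map_div₀, map_mul, hvN, mul_div_assoc, div_self hv₂, mul_one]
    exact hM₁'
  rw [key]
  refine (A.valuation.map_sub _ _).trans_lt (max_lt ?_ hB)
  refine (A.valuation.map_add _ _).trans_lt (max_lt ?_ hA)
  rw [Valuation.map_neg]
  exact hs₁

end Fermat.Agent.S13.L2.H20
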