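import Fermat.Agent.S13.L2.H20_Defs

/-!
# S13, package L2 (helper20): Vieta for the chord/tangent line on `y² + a₁ x y = x³ + a₂ x² + a₄ x`

Port of `Fermat.Agent.S05.Vieta.line_of_add_some` to curves with `a₁ ≠ 0` (only `a₃ = a₆ = 0`
is used; no valuation enters).
-/

open WeierstrassCurve WeierstrassCurve.Affine

namespace Fermat.Agent.S13.L2

variable {F : Type*} [Field F] {W : Affine F}

lemma h20_equation_iff (h3 : W.a₃ = 0) (h6 : W.a₆ = 0) (x y : F) :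
    W.Equation x y ↔ y ^ 2 + W.a₁ * x * y = x ^ 3 + W.a₂ * x ^ 2 + W.a₄ * x := by
  rw [Affine.equation_iff, h3, h6]
  constructor <;> intro h <;> linear_combination h

lemma h20_negY (h3 : W.a₃ = 0) (x y : F) : W.negY x y = -y - W.a₁ * x := by
  rw [Affine.negY, h3]; ring

lemma h20_nonsingular_neg (h3 : W.a₃ = 0) {x y : F} (h : W.Nonsingular x y) :
    W.Nonsingular x (-y - W.a₁ * x) := by
  have := (Affine.nonsingular_neg x y).mpr h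
  rwa [h20_negY h3] at this

lemma h20_neg_some [DecidableEq F] (h3 : W.a₃ = 0) {x y : F} (h : W.Nonsingular x y) :
    -(Point.some x y h) = Point.some x (-y - W.a₁ * x) (h20_nonsingular_neg h3 h) := by
  rw [Point.neg_some]
  congr 1
  exact h20_negY h3 x y

variable [DecidableEq F]

/-- **Sum of two affine points** on `y² + a₁ x y = x³ + a₂ x² + a₄ x`: if `P₁ ≠ -P₂`, there is a
line `y = L x + N` through `P₁` and `P₂` (tangent if `P₁ = P₂`), the sum is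
`(x₃, -(L x₃ + N) - a₁ x₃)`, and the Vieta relations hold. -/
theorem line_of_add_some (h3 : W.a₃ = 0) (h6 : W.a₆ = 0) {x₁ y₁ x₂ y₂ : F}
    (h₁ : W.Nonsingular x₁ y₁) (h₂ : W.Nonsingular x₂ y₂)
    (hxy : ¬(x₁ = x₂ ∧ y₁ = -y₂ - W.a₁ * x₂)) :
    ∃ (L N x₃ : F) (h₃ : W.Nonsingular x₃ (-(L * x₃ + N) - W.a₁ * x₃)),
      Point.some x₁ y₁ h₁ + Point.some x₂ y₂ h₂ =
        Point.some x₃ (-(L * x₃ + N) - W.a₁ * x₃) h₃ ∧
      L = W.slope x₁ x₂ y₁ y₂ ∧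
      y₁ = L * x₁ + N ∧ y₂ = L * x₂ + N ∧
      x₁ + x₂ + x₃ = L ^ 2 + W.a₁ * L - W.a₂ ∧
      x₁ * x₂ + x₁ * x₃ + x₂ * x₃ = W.a₄ - (2 * L + W.a₁) * N ∧
      x₁ * x₂ * x₃ = N ^ 2 := by
  have hxy' : ¬(x₁ = x₂ ∧ y₁ = W.negY x₂ y₂) := by rwa [h20_negY h3]
  set L := W.slope x₁ x₂ y₁ y₂ with hL
  set x₃ := W.addX x₁ x₂ L with hx₃
  have hx₃' : x₃ = L ^ 2 + W.a₁ * L - W.a₂ - x₁ - x₂ := rfl
  have hsum := Point.add_some hxy' (h₁ := h₁) (h₂ := h₂)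
  have hY : W.addY x₁ x₂ y₁ L = -(L * x₃ + (y₁ - L * x₁)) - W.a₁ * x₃ := by
    rw [Affine.addY, h20_negY h3, Affine.negAddY]; ring
  have hns : W.Nonsingular x₃ (-(L * x₃ + (y₁ - L * x₁)) - W.a₁ * x₃) := by
    rw [← hY]; exact Affine.nonsingular_add h₁ h₂ hxy'
  have hy₂ : y₂ = L * x₂ + (y₁ - L * x₁) := by
    by_cases hx : x₁ = x₂
    · have hy : y₁ ≠ W.negY x₂ y₂ := fun h => hxy' ⟨hx, h⟩
      have := Affine.Y_eq_of_Y_ne h₁.1 h₂.1 hx hy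
      rw [← this, hx]; ring
    · have hx' : x₁ - x₂ ≠ 0 := sub_ne_zero.mpr hx
      rw [hL, Affine.slope_of_X_ne hx]
      field_simp
      ring
  -- Vieta from the factorisation of the addition polynomial
  have hpoly := Affine.addPolynomial_slope h₁.1 h₂.1 hxy'
  rw [Affine.addPolynomial_eq, neg_inj, Cubic.prod_X_sub_C_eq, Cubic.toPoly_injective] at hpoly
  have hc := congrArg Cubic.c hpoly
  have hd := congrArg Cubic.d hpoly
  simp only [h3, h6] at hc hd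
  refine ⟨L, y₁ - L * x₁, x₃, hns, ?_, rfl, by ring, hy₂, by rw [hx₃']; ring, ?_, ?_⟩
  · rw [hsum]
    congr 1
  · rw [← hx₃, ← hL] at hc
    linear_combination -hc
  · rw [← hx₃, ← hL] at hd
    linear_combination hd

/-- **Collinearity**: three affine points with `P₁ + P₂ + P₃ = 0` lie on a line `y = L x + N`,
and the Vieta relations hold. -/
theorem line_of_add_eq_zero (h3 : W.a₃ = 0) (h6 : W.a₆ = 0) {x₁ y₁ x₂ y₂ x₃ y₃ : F}
    {h₁ : W.Nonsingular x₁ y₁} {h₂ : W.Nonsingular x₂ y₂} {h₃ : W.Nonsingular x₃ y₃}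
    (h : Point.some x₁ y₁ h₁ + Point.some x₂ y₂ h₂ + Point.some x₃ y₃ h₃ = 0) :
    ∃ L N : F, y₁ = L * x₁ + N ∧ y₂ = L * x₂ + N ∧ y₃ = L * x₃ + N ∧
      x₁ + x₂ + x₃ = L ^ 2 + W.a₁ * L - W.a₂ ∧
      x₁ * x₂ + x₁ * x₃ + x₂ * x₃ = W.a₄ - (2 * L + W.a₁) * N ∧
      x₁ * x₂ * x₃ = N ^ 2 := by
  have h12 : Point.some x₁ y₁ h₁ + Point.some x₂ y₂ h₂ = -Point.some x₃ y₃ h₃ :=
    eq_neg_of_add_eq_zero_left h
  have hxy : ¬(x₁ = x₂ ∧ y₁ = -y₂ - W.a₁ * x₂) := by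
    rintro ⟨hx, hy⟩
    rw [Point.add_of_Y_eq hx (by rw [h20_negY h3]; exact hy)] at h12
    exact Point.some_ne_zero _ (neg_eq_zero.mp h12.symm)
  obtain ⟨L, N, x, hns, hsum, -, e₁, e₂, v₁, v₂, v₃⟩ := line_of_add_some h3 h6 h₁ h₂ hxy
  rw [hsum, h20_neg_some h3, Point.some.injEq] at h12
  obtain ⟨rfl, hy⟩ := h12
  exact ⟨L, N, e₁, e₂, by linear_combination hy, v₁, v₂, v₃⟩

end Fermat.Agent.S13.L2
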