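import Mathlib

/-!
# S13, package L2: pairs of congruent points (leaves 2-U and 2-N)

Setting: `K` a field with a valuation `v` (multiplicative notation: `v x ≤ 1` means integral,
`v x = 1` unit, `v x < 1` in the maximal ideal), NO hypothesis on `v 2`, `W` a Weierstrass
curve over `K`.

* `pair_unit` (2-U): two integral points `P = (x, y)`, `P' = (x', y')` which are congruent
  modulo the maximal ideal, such that `2 y + a₁ x + a₃` is a unit (the reduction of `P` has a
  non-vertical tangent), are equal or `P' - P` lies in the kernel of reduction.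
* `pair_node` (2-N): on a nodal model `y² + a₁ x y = x³ + a₂ x² + a₄ x` (`a₁² + 4 a₂` a unit,
  `v a₄ < 1`), two points reducing to the node, on the same branch and with `v x' = v x`,
  are equal or `P' - P` does not reduce to the node (`1 ≤ v (x (P' - P))`).
* `pair_unit_sigma`, `pair_node_sigma`: the same for `P' = σ P`, `σ` a ring endomorphism with
  `v (σ a - a) < 1` for integral `a`.
* `fixed_of_good`, `unipotent_core`: the inertia argument in residue characteristic `2`
  (`v 2 < 1`, `a₁` a unit) for a `σ`-stable subgroup `T` of points without points in the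
  kernel of reduction and without far points.
-/

set_option autoImplicit false
set_option linter.unusedSectionVars false
set_option linter.unusedVariables false

namespace Fermat.Agent.S13.L2.Pairs

open WeierstrassCurve WeierstrassCurve.Affine

variable {K : Type*} [Field K] [DecidableEq K]
  {Γ₀ : Type*} [LinearOrderedCommGroupWithZero Γ₀]

/-! ## Valuation helpers -/

lemma val_add_eq_one (v : Valuation K Γ₀) {a b : K} (ha : v a = 1) (hb : v b < 1) :
    v (a + b) = 1 := by
  rw [Valuation.map_add_eq_of_lt_left v (by rw [ha]; exact hb), ha]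

lemma val_add_lt_one (v : Valuation K Γ₀) {a b : K} (ha : v a < 1) (hb : v b < 1) :
    v (a + b) < 1 :=
  lt_of_le_of_lt (v.map_add _ _) (max_lt ha hb)

lemma val_add_le_one (v : Valuation K Γ₀) {a b : K} (ha : v a ≤ 1) (hb : v b ≤ 1) :
    v (a + b) ≤ 1 :=
  le_trans (v.map_add _ _) (max_le ha hb)

lemma val_sub_le_one (v : Valuation K Γ₀) {a b : K} (ha : v a ≤ 1) (hb : v b ≤ 1) :
    v (a - b) ≤ 1 :=
  le_trans (v.map_sub _ _) (max_le ha hb)

lemma val_mul_le_one (v : Valuation K Γ₀) {a b : K} (ha : v a ≤ 1) (hb : v b ≤ 1) :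
    v (a * b) ≤ 1 := by
  rw [map_mul]
  exact mul_le_one' ha hb

lemma val_mul_lt_one_left (v : Valuation K Γ₀) {a b : K} (ha : v a < 1) (hb : v b ≤ 1) :
    v (a * b) < 1 := by
  rw [map_mul]
  exact mul_lt_one_of_lt_of_le ha hb

lemma val_mul_lt_one_right (v : Valuation K Γ₀) {a b : K} (ha : v a ≤ 1) (hb : v b < 1) :
    v (a * b) < 1 := by
  rw [map_mul, mul_comm]
  exact mul_lt_one_of_lt_of_le hb ha

lemma val_pow_le_one (v : Valuation K Γ₀) {a : K} (ha : v a ≤ 1) (n : ℕ) : v (a ^ n) ≤ 1 := by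
  rw [map_pow]
  exact pow_le_one₀ zero_le ha

lemma val_eq_one_of_sq (v : Valuation K Γ₀) {a : K} (ha : v (a ^ 2) = 1) : v a = 1 := by
  rw [map_pow] at ha
  by_contra hne
  rcases lt_or_gt_of_ne hne with hlt | hgt
  · have := pow_lt_one₀ zero_le hlt (n := 2) (by norm_num)
    rw [ha] at this
    exact lt_irrefl _ this
  · have := one_lt_pow₀ hgt (n := 2) (by norm_num)
    rw [ha] at this
    exact lt_irrefl _ this

lemma val_two_le_one (v : Valuation K Γ₀) : v (2 : K) ≤ 1 := by
  have : (2 : K) = 1 + 1 := by norm_num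
  rw [this]
  exact val_add_le_one v (by rw [map_one]) (by rw [map_one])

lemma val_four_le_one (v : Valuation K Γ₀) : v (4 : K) ≤ 1 := by
  have : (4 : K) = 2 * 2 := by norm_num
  rw [this]
  exact val_mul_le_one v (val_two_le_one v) (val_two_le_one v)

lemma val_eq_one_of_sub (v : Valuation K Γ₀) {a b : K} (ha : v a = 1) (hb : v (b - a) < 1) :
    v b = 1 := by
  have : b = a + (b - a) := by ring
  rw [this]
  exact val_add_eq_one v ha hb

lemma val_le_one_of_sub (v : Valuation K Γ₀) {a b : K} (ha : v a ≤ 1) (hb : v (b - a) < 1) :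
    v b ≤ 1 := by
  have : b = a + (b - a) := by ring
  rw [this]
  exact val_add_le_one v ha hb.le

/-- The ordinate of a point with integral abscissa on an integral model is integral. -/
theorem val_y_le_one (W : WeierstrassCurve K) (v : Valuation K Γ₀)
    (ha1 : v W.a₁ ≤ 1) (ha2 : v W.a₂ ≤ 1) (ha3 : v W.a₃ ≤ 1) (ha4 : v W.a₄ ≤ 1)
    (ha6 : v W.a₆ ≤ 1) {x y : K} (h : W.toAffine.Equation x y) (hx : v x ≤ 1) : v y ≤ 1 := by
  by_contra hcon
  push Not at hcon
  rw [Affine.equation_iff] at h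
  have e : y ^ 2 = (x ^ 3 + W.a₂ * x ^ 2 + W.a₄ * x + W.a₆) - (W.a₁ * x + W.a₃) * y := by
    linear_combination h
  have h1 : v (x ^ 3 + W.a₂ * x ^ 2 + W.a₄ * x + W.a₆) ≤ 1 :=
    val_add_le_one v (val_add_le_one v (val_add_le_one v (val_pow_le_one v hx 3)
      (val_mul_le_one v ha2 (val_pow_le_one v hx 2))) (val_mul_le_one v ha4 hx)) ha6
  have h2 : v ((W.a₁ * x + W.a₃) * y) ≤ v y := by
    rw [map_mul]
    exact mul_le_of_le_one_left' (val_add_le_one v (val_mul_le_one v ha1 hx) ha3)
  have h3 : v (y ^ 2) ≤ v y := by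
    rw [e]
    exact le_trans (v.map_sub _ _) (max_le (h1.trans hcon.le) h2)
  have h4 : v y < v (y ^ 2) := by
    rw [map_pow, pow_two]
    have hpos : 0 < v y := lt_trans zero_lt_one hcon
    calc v y = v y * 1 := (mul_one _).symm
      _ < v y * v y := by
        exact mul_lt_mul_of_pos_left hcon hpos
  exact absurd h3 (not_le.mpr h4)

/-! ## 2-U: congruent points whose reduction has a non-vertical tangent -/

/-- **Leaf 2-U.** `P = (x, y)` with `x` integral and `2 y + a₁ x + a₃` a unit, and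
`P' = (x', y')` with `x' ≡ x`, `y' ≡ y` modulo the maximal ideal. Then `P' = P`, or `P' - P`
is an affine point in the kernel of reduction. -/
theorem pair_unit (W : WeierstrassCurve K) (v : Valuation K Γ₀)
    (ha1 : v W.a₁ ≤ 1) (ha2 : v W.a₂ ≤ 1)
    {x y x' y' : K} (h : W.toAffine.Nonsingular x y) (h' : W.toAffine.Nonsingular x' y')
    (hx : v x ≤ 1) (hxx : v (x' - x) < 1) (hyy : v (y' - y) < 1)
    (hunit : v (2 * y + W.a₁ * x + W.a₃) = 1) :
    (x' = x ∧ y' = y) ∨
    ∃ (x₃ y₃ : K) (h₃ : W.toAffine.Nonsingular x₃ y₃),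
      Point.some x' y' h' - Point.some x y h = Point.some x₃ y₃ h₃ ∧ 1 < v x₃ := by
  by_cases hxe : x' = x
  · left
    refine ⟨hxe, ?_⟩
    rcases Affine.Y_eq_of_X_eq h'.1 h.1 hxe with hyy' | hyy'
    · exact hyy'
    · exfalso
      have e : y' - y = -(2 * y + W.a₁ * x + W.a₃) := by
        rw [hyy']
        simp only [Affine.negY]
        ring
      rw [e, Valuation.map_neg, hunit] at hyy
      exact lt_irrefl _ hyy
  · right
    have hQ : Point.some x' y' h' - Point.some x y h =
        Point.some _ _ (Affine.nonsingular_add h' ((Affine.nonsingular_neg x y).mpr h)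
          fun hxy => hxe hxy.left) := by
      rw [sub_eq_add_neg, Point.neg_some, Point.add_of_X_ne hxe]
    refine ⟨_, _, _, hQ, ?_⟩
    rw [Affine.slope_of_X_ne hxe]
    set L : K := (y' - W.toAffine.negY x y) / (x' - x) with hL
    have hd0 : x' - x ≠ 0 := sub_ne_zero.mpr hxe
    have hnum : v (y' - W.toAffine.negY x y) = 1 := by
      have e : y' - W.toAffine.negY x y = (2 * y + W.a₁ * x + W.a₃) + (y' - y) := by
        simp only [Affine.negY]
        ring
      rw [e]
      exact val_add_eq_one v hunit hyy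
    have hvL : 1 < v L := by
      rw [hL, map_div₀, hnum, one_div]
      have hpos : 0 < v (x' - x) := by
        rw [Valuation.pos_iff]; exact hd0
      exact (one_lt_inv₀ hpos).mpr hxx
    have hx' : v x' ≤ 1 := val_le_one_of_sub v hx hxx
    have hLpos : 0 < v L := lt_trans zero_lt_one hvL
    have hLL : v L < v (L ^ 2) := by
      rw [map_pow, pow_two]
      calc v L = v L * 1 := (mul_one _).symm
        _ < v L * v L := mul_lt_mul_of_pos_left hvL hLpos
    have hrest : v (W.a₁ * L - W.a₂ - x' - x) ≤ v L := by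
      refine le_trans (v.map_sub _ _) (max_le (le_trans (v.map_sub _ _) (max_le
        (le_trans (v.map_sub _ _) (max_le ?_ (ha2.trans hvL.le))) (hx'.trans hvL.le)))
        (hx.trans hvL.le))
      rw [map_mul]
      exact mul_le_of_le_one_left' ha1
    have e : W.toAffine.addX x' x L = L ^ 2 + (W.a₁ * L - W.a₂ - x' - x) := by
      simp only [Affine.addX]
      ring
    rw [e, Valuation.map_add_eq_of_lt_left v (lt_of_le_of_lt hrest hLL)]
    exact lt_trans hvL hLL

/-! ## 2-N: points reducing to the node, on the same branch -/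

/-- The Vieta identity behind leaf 2-N: for `(x, y)`, `(x', y')` on
`y² + a₁ x y = x³ + a₂ x² + a₄ x` with `x' ≠ x`, the abscissa `X₃` of `P' - P` satisfies
`X₃ (x' - x)² x x' = (x' y + x y' + a₁ x x')²`. -/
theorem addX_sub_identity (W : WeierstrassCurve K) (h3 : W.a₃ = 0) (h6 : W.a₆ = 0)
    {x y x' y' : K} (h : W.toAffine.Equation x y) (h' : W.toAffine.Equation x' y')
    (hxe : x' ≠ x) :
    W.toAffine.addX x' x ((y' - W.toAffine.negY x y) / (x' - x)) * (x' - x) ^ 2 * (x * x')
      = (x' * y + x * y' + W.a₁ * x * x') ^ 2 := by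
  rw [Affine.equation_iff] at h h'
  rw [h3, h6] at h h'
  have hd0 : x' - x ≠ 0 := sub_ne_zero.mpr hxe
  simp only [Affine.addX, Affine.negY, h3]
  field_simp
  linear_combination (x' - x) * (x * h' - x' * h)

/-- On a nodal model, for a point near the node (`v a₄ < v x < 1`), `2 (y/x) + a₁` is a
unit. -/
theorem val_two_t_add (W : WeierstrassCurve K) (h3 : W.a₃ = 0) (h6 : W.a₆ = 0)
    (v : Valuation K Γ₀) (hb2 : v (W.a₁ ^ 2 + 4 * W.a₂) = 1)
    {x y : K} (h : W.toAffine.Equation x y) (hx4 : v W.a₄ < v x) (hx1 : v x < 1) :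
    v (2 * (y / x) + W.a₁) = 1 := by
  have hx0 : x ≠ 0 := by
    intro h0
    rw [h0, map_zero] at hx4
    exact not_lt_zero hx4
  rw [Affine.equation_iff] at h
  rw [h3, h6] at h
  have e : (2 * (y / x) + W.a₁) ^ 2 = (W.a₁ ^ 2 + 4 * W.a₂) + 4 * (x + W.a₄ / x) := by
    field_simp
    linear_combination 4 * h
  have h4 : v (W.a₄ / x) < 1 := by
    rw [map_div₀]
    have hpos : 0 < v x := by rw [Valuation.pos_iff]; exact hx0
    exact (div_lt_one₀ hpos).mpr hx4
  apply val_eq_one_of_sq
  rw [e]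
  exact val_add_eq_one v hb2 (val_mul_lt_one_right v (val_four_le_one v) (val_add_lt_one v hx1 h4))

/-- **Leaf 2-N.** On a nodal model `y² + a₁ x y = x³ + a₂ x² + a₄ x` with `a₁² + 4 a₂` a unit,
let `P = (x, y)`, `P' = (x', y')` be two points near the node (`v a₄ < v x < 1`), with
`v x' = v x` and on the same branch (`y'/x' ≡ y/x`). Then `P' = P`, or `P' - P` is an affine
point which does not reduce to the node. -/
theorem pair_node (W : WeierstrassCurve K) (h3 : W.a₃ = 0) (h6 : W.a₆ = 0)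
    (v : Valuation K Γ₀) (hb2 : v (W.a₁ ^ 2 + 4 * W.a₂) = 1)
    {x y x' y' : K} (h : W.toAffine.Nonsingular x y) (h' : W.toAffine.Nonsingular x' y')
    (hx4 : v W.a₄ < v x) (hx1 : v x < 1) (hxx : v x' = v x)
    (htt : v (y' / x' - y / x) < 1) :
    (x' = x ∧ y' = y) ∨
    ∃ (x₃ y₃ : K) (h₃ : W.toAffine.Nonsingular x₃ y₃),
      Point.some x' y' h' - Point.some x y h = Point.some x₃ y₃ h₃ ∧ 1 ≤ v x₃ := by
  have hx0 : x ≠ 0 := by
    intro h0
    rw [h0, map_zero] at hx4
    exact not_lt_zero hx4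
  have hx'0 : x' ≠ 0 := by
    intro h0
    rw [h0, map_zero] at hxx
    exact hx0 ((map_eq_zero v).mp hxx.symm)
  have hu := val_two_t_add W h3 h6 v hb2 h.1 hx4 hx1
  by_cases hxe : x' = x
  · left
    refine ⟨hxe, ?_⟩
    rcases Affine.Y_eq_of_X_eq h'.1 h.1 hxe with hyy' | hyy'
    · exact hyy'
    · exfalso
      have e : y' / x' - y / x = -(2 * (y / x) + W.a₁) := by
        rw [hyy', hxe]
        simp only [Affine.negY, h3]
        field_simp
        ring
      rw [e, Valuation.map_neg, hu] at htt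
      exact lt_irrefl _ htt
  · right
    have hQ : Point.some x' y' h' - Point.some x y h =
        Point.some _ _ (Affine.nonsingular_add h' ((Affine.nonsingular_neg x y).mpr h)
          fun hxy => hxe hxy.left) := by
      rw [sub_eq_add_neg, Point.neg_some, Point.add_of_X_ne hxe]
    refine ⟨_, _, _, hQ, ?_⟩
    rw [Affine.slope_of_X_ne hxe]
    have hid := addX_sub_identity W h3 h6 h.1 h'.1 hxe
    set X₃ : K := W.toAffine.addX x' x ((y' - W.toAffine.negY x y) / (x' - x)) with hX₃
    have hd0 : x' - x ≠ 0 := sub_ne_zero.mpr hxe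
    -- the right-hand side has valuation `v x ^ 2 * v x' ^ 2`
    have hs : v (y' / x' + y / x + W.a₁) = 1 := by
      have e : y' / x' + y / x + W.a₁ = (2 * (y / x) + W.a₁) + (y' / x' - y / x) := by ring
      rw [e]
      exact val_add_eq_one v hu htt
    have e2 : x' * y + x * y' + W.a₁ * x * x' = x * x' * (y' / x' + y / x + W.a₁) := by
      field_simp
      ring
    have hR : v ((x' * y + x * y' + W.a₁ * x * x') ^ 2) = (v x * v x) ^ 2 := by
      rw [e2, map_pow, map_mul, map_mul, hs, mul_one, hxx]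
    have hLft : v (X₃ * (x' - x) ^ 2 * (x * x')) = v X₃ * v (x' - x) ^ 2 * (v x * v x) := by
      rw [map_mul, map_mul, map_pow, map_mul, hxx]
    have hval : v X₃ * v (x' - x) ^ 2 * (v x * v x) = (v x * v x) ^ 2 := by
      rw [← hLft, ← hR, hid]
    -- `v X₃ * v (x' - x)^2 * v x ^ 2 = (v x ^ 2) ^ 2`
    have hxpos : 0 < v x := by rw [Valuation.pos_iff]; exact hx0
    have hdpos : 0 < v (x' - x) := by rw [Valuation.pos_iff]; exact hd0
    have hdle : v (x' - x) ≤ v x := by
      refine le_trans (v.map_sub _ _) (max_le hxx.le le_rfl)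
    have h1 : v X₃ * v (x' - x) ^ 2 = v x ^ 2 := by
      have hne : v x * v x ≠ 0 := (mul_pos hxpos hxpos).ne'
      apply mul_right_cancel₀ hne
      rw [hval, pow_two, pow_two]
    by_contra hcon
    push Not at hcon
    have h2 : v X₃ * v (x' - x) ^ 2 < v x ^ 2 := by
      calc v X₃ * v (x' - x) ^ 2 < 1 * v (x' - x) ^ 2 := by
            exact mul_lt_mul_of_pos_right hcon (pow_pos hdpos 2)
        _ = v (x' - x) ^ 2 := one_mul _
        _ ≤ v x ^ 2 := pow_le_pow_left₀ zero_le hdle 2
    rw [h1] at h2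
    exact lt_irrefl _ h2

/-- On a nodal integral model, `t = y / x` is integral for a point near the node. -/
theorem val_t_le_one (W : WeierstrassCurve K) (h3 : W.a₃ = 0) (h6 : W.a₆ = 0)
    (v : Valuation K Γ₀) (ha1 : v W.a₁ ≤ 1) (ha2 : v W.a₂ ≤ 1)
    {x y : K} (h : W.toAffine.Equation x y) (hx4 : v W.a₄ < v x) (hx1 : v x < 1) :
    v (y / x) ≤ 1 := by
  have hx0 : x ≠ 0 := by
    intro h0
    rw [h0, map_zero] at hx4
    exact not_lt_zero hx4
  rw [Affine.equation_iff] at h
  rw [h3, h6] at h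
  have e : (y / x) ^ 2 = (x + W.a₄ / x + W.a₂) - W.a₁ * (y / x) := by
    field_simp
    linear_combination h
  have h4 : v (W.a₄ / x) < 1 := by
    rw [map_div₀]
    have hpos : 0 < v x := by rw [Valuation.pos_iff]; exact hx0
    exact (div_lt_one₀ hpos).mpr hx4
  by_contra hcon
  push Not at hcon
  have h1 : v (x + W.a₄ / x + W.a₂) ≤ 1 :=
    val_add_le_one v (val_add_lt_one v hx1 h4).le ha2
  have h2 : v (W.a₁ * (y / x)) ≤ v (y / x) := by
    rw [map_mul]
    exact mul_le_of_le_one_left' ha1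
  have h3' : v ((y / x) ^ 2) ≤ v (y / x) := by
    rw [e]
    exact le_trans (v.map_sub _ _) (max_le (h1.trans hcon.le) h2)
  have h4' : v (y / x) < v ((y / x) ^ 2) := by
    rw [map_pow, pow_two]
    have hpos : 0 < v (y / x) := lt_trans zero_lt_one hcon
    calc v (y / x) = v (y / x) * 1 := (mul_one _).symm
      _ < v (y / x) * v (y / x) := mul_lt_mul_of_pos_left hcon hpos
  exact absurd h3' (not_le.mpr h4')

/-! ## The inertia argument -/

section Sigma

variable (σ : K →+* K)

/-- Leaf 2-U for `P' = σ P`, `σ` acting trivially on the residue field. -/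
theorem pair_unit_sigma (W : WeierstrassCurve K) (v : Valuation K Γ₀)
    (ha1 : v W.a₁ ≤ 1) (ha2 : v W.a₂ ≤ 1)
    (hσ : ∀ a : K, v a ≤ 1 → v (σ a - a) < 1)
    {x y : K} (h : W.toAffine.Nonsingular x y) (h' : W.toAffine.Nonsingular (σ x) (σ y))
    (hx : v x ≤ 1) (hy : v y ≤ 1) (hunit : v (2 * y + W.a₁ * x + W.a₃) = 1) :
    (σ x = x ∧ σ y = y) ∨
    ∃ (x₃ y₃ : K) (h₃ : W.toAffine.Nonsingular x₃ y₃),
      Point.some (σ x) (σ y) h' - Point.some x y h = Point.some x₃ y₃ h₃ ∧ 1 < v x₃ :=
  pair_unit W v ha1 ha2 h h' hx (hσ x hx) (hσ y hy) hunit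

/-- Leaf 2-N for `P' = σ P`, `σ` acting trivially on the residue field and preserving `v`. -/
theorem pair_node_sigma (W : WeierstrassCurve K) (h3 : W.a₃ = 0) (h6 : W.a₆ = 0)
    (v : Valuation K Γ₀) (ha1 : v W.a₁ ≤ 1) (ha2 : v W.a₂ ≤ 1)
    (hb2 : v (W.a₁ ^ 2 + 4 * W.a₂) = 1)
    (hσ : ∀ a : K, v a ≤ 1 → v (σ a - a) < 1) (hσv : ∀ a : K, v (σ a) = v a)
    {x y : K} (h : W.toAffine.Nonsingular x y) (h' : W.toAffine.Nonsingular (σ x) (σ y))
    (hx4 : v W.a₄ < v x) (hx1 : v x < 1) :
    (σ x = x ∧ σ y = y) ∨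
    ∃ (x₃ y₃ : K) (h₃ : W.toAffine.Nonsingular x₃ y₃),
      Point.some (σ x) (σ y) h' - Point.some x y h = Point.some x₃ y₃ h₃ ∧ 1 ≤ v x₃ := by
  refine pair_node W h3 h6 v hb2 h h' hx4 hx1 (hσv x) ?_
  rw [← map_div₀]
  exact hσ _ (val_t_le_one W h3 h6 v ha1 ha2 h.1 hx4 hx1)

/-- The data of the inertia argument in residue characteristic `2`: a nodal model with `a₁` a
unit, an endomorphism `σ` of the valued field acting trivially on the residue field, and a
`σ`-stable subgroup `T` of points, without points in the kernel of reduction and without far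
points. -/
structure InertiaData2 (W : WeierstrassCurve K) (v : Valuation K Γ₀) (σ : K →+* K)
    (T : AddSubgroup W.toAffine.Point) : Prop where
  a₃ : W.a₃ = 0
  a₆ : W.a₆ = 0
  val_a₁ : v W.a₁ = 1
  val_a₂ : v W.a₂ ≤ 1
  val_a₄ : v W.a₄ < 1
  val_two : v 2 < 1
  /-- `σ` acts trivially on the residue field -/
  val_sub : ∀ a, v a ≤ 1 → v (σ a - a) < 1
  /-- `σ` preserves the valuation -/
  val_apply : ∀ a, v (σ a) = v a
  /-- `T` is stable under `σ` -/
  stable : ∀ (x y : K) (h : W.toAffine.Nonsingular x y), Point.some x y h ∈ T →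
    ∃ h' : W.toAffine.Nonsingular (σ x) (σ y), Point.some (σ x) (σ y) h' ∈ T
  /-- the points of `T` are integral (no point of `T` in the kernel of reduction) -/
  integral : ∀ (x y : K) (h : W.toAffine.Nonsingular x y), Point.some x y h ∈ T → v x ≤ 1
  /-- no point of `T` is far from the identity component -/
  notFar : ∀ (x y : K) (h : W.toAffine.Nonsingular x y), Point.some x y h ∈ T →
    v W.a₄ < v x

variable {σ} {W : WeierstrassCurve K} {v : Valuation K Γ₀} {T : AddSubgroup W.toAffine.Point}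

theorem InertiaData2.val_b₂ (D : InertiaData2 W v σ T) : v (W.a₁ ^ 2 + 4 * W.a₂) = 1 := by
  have h1 : v (W.a₁ ^ 2) = 1 := by rw [map_pow, D.val_a₁, one_pow]
  have h4 : v (4 : K) < 1 := by
    have : (4 : K) = 2 * 2 := by norm_num
    rw [this]
    exact val_mul_lt_one_left v D.val_two D.val_two.le
  exact val_add_eq_one v h1 (val_mul_lt_one_left v h4 D.val_a₂)

/-- **Good points are fixed.** -/
theorem InertiaData2.fixed_of_good (D : InertiaData2 W v σ T) {x y : K}
    {h : W.toAffine.Nonsingular x y} (hP : Point.some x y h ∈ T) (hx1 : v x = 1) :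
    σ x = x ∧ σ y = y := by
  obtain ⟨h', hσP⟩ := D.stable x y h hP
  have hy : v y ≤ 1 := val_y_le_one W v D.val_a₁.le D.val_a₂ (by rw [D.a₃, map_zero]; exact zero_le_one)
    D.val_a₄.le (by rw [D.a₆, map_zero]; exact zero_le_one) h.1 hx1.le
  have hunit : v (2 * y + W.a₁ * x + W.a₃) = 1 := by
    have e : 2 * y + W.a₁ * x + W.a₃ = W.a₁ * x + 2 * y := by rw [D.a₃]; ring
    rw [e]
    refine val_add_eq_one v ?_ (val_mul_lt_one_left v D.val_two hy)
    rw [map_mul, D.val_a₁, hx1, one_mul]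
  rcases pair_unit_sigma σ W v D.val_a₁.le D.val_a₂ D.val_sub h h' hx1.le hy hunit with
    hfix | ⟨x₃, y₃, h₃, hQ, hlt⟩
  · exact hfix
  · exfalso
    have hQT : Point.some x₃ y₃ h₃ ∈ T := hQ ▸ T.sub_mem hσP hP
    exact absurd (D.integral _ _ _ hQT) (not_le.mpr hlt)

/-- **Unipotency.** For a point `P = (x, y)` of `T`, either `σ P = P`, or `σ P - P` is an
affine point fixed by `σ`. -/
theorem InertiaData2.unipotent (D : InertiaData2 W v σ T) {x y : K}
    {h : W.toAffine.Nonsingular x y} (hP : Point.some x y h ∈ T)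
    (h' : W.toAffine.Nonsingular (σ x) (σ y)) :
    (σ x = x ∧ σ y = y) ∨
    ∃ (x₃ y₃ : K) (h₃ : W.toAffine.Nonsingular x₃ y₃),
      Point.some (σ x) (σ y) h' - Point.some x y h = Point.some x₃ y₃ h₃ ∧
        σ x₃ = x₃ ∧ σ y₃ = y₃ := by
  obtain ⟨h'', hσP⟩ := D.stable x y h hP
  rcases lt_or_eq_of_le (D.integral x y h hP) with hx1 | hx1
  · rcases pair_node_sigma σ W D.a₃ D.a₆ v D.val_a₁.le D.val_a₂ D.val_b₂ D.val_sub D.val_apply
      h h' (D.notFar x y h hP) hx1 with hfix | ⟨x₃, y₃, h₃, hQ, hge⟩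
    · exact Or.inl hfix
    · right
      have hQT : Point.some x₃ y₃ h₃ ∈ T := hQ ▸ T.sub_mem hσP hP
      have hx₃ : v x₃ = 1 := le_antisymm (D.integral _ _ _ hQT) hge
      exact ⟨x₃, y₃, h₃, hQ, D.fixed_of_good hQT hx₃⟩
  · exact Or.inl (D.fixed_of_good hP hx1)

end Sigma

end Fermat.Agent.S13.L2.Pairs
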