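import Mathlib
import Fermat.Prelude.Def_FLTPrelim_FreyPackage
import Fermat.Prelude.Def_FLTPrelim_GaloisRep
import Fermat.Prelude.Def_FLTPrelim_Ramification
import Fermat.Agent.S05.H7_Inertia
import Fermat.Agent.S05.H13_Inertia
import Fermat.Agent.S13.Asm.H11_Interfaces
import Fermat.Agent.S13.L2.H20_CompCor
import Fermat.Agent.S13.L2.H21_Pairs

/-!
# S13, package L2: deliverable (L2a) - inertia at `2` is unipotent on `E[p]` (helper21)

* `Frey2`: arithmetic of the Frey curve at `2`: `a₁ = 1`, `a₃ = a₆ = 0`, `a₂ ∈ ℤ`,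
  `a₄ ∈ 2 ℤ`, `a₄ ≠ 0`; the base change to `Kbar` is a nodal model for every valuation
  subring over `2`.
* `stL2a_of_kernel`: (L2a) from the kernel statement K2 (no `p`-torsion in the kernel of
  reduction) as a hypothesis.
-/

set_option autoImplicit false
set_option linter.unusedSectionVars false
set_option linter.unusedVariables false

open WeierstrassCurve WeierstrassCurve.Affine WeierstrassCurve.Affine.Point

namespace Fermat.Agent.S13.L2.L2a

open Fermat.Agent.S13.Asm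

/-! ## Frey arithmetic at `2` -/

section Arith

variable (P : FreyPackage)

lemma h21_two_dvd_b : (2 : ℤ) ∣ P.b :=
  (ZMod.intCast_zmod_eq_zero_iff_dvd P.b 2).1 P.hb2

lemma h21_four_dvd : (4 : ℤ) ∣ P.b ^ P.p - 1 - P.a ^ P.p := by
  have hp2 : 2 ≤ P.p := le_trans (by norm_num) P.hp5
  have hb : (4 : ℤ) ∣ P.b ^ P.p := by
    obtain ⟨c, hc⟩ := h21_two_dvd_b P
    have h1 : (2 : ℤ) ^ 2 ∣ P.b ^ P.p := by
      rw [hc, mul_pow]
      exact dvd_mul_of_dvd_left (pow_dvd_pow 2 hp2) _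
    simpa using h1
  have ha : (4 : ℤ) ∣ 1 + P.a ^ P.p := by
    have h := (ZMod.intCast_zmod_eq_zero_iff_dvd (1 + P.a ^ P.p) 4).1 (by
      push_cast
      rw [P.ha4]
      have h3 : (3 : ZMod 4) = -1 := by decide
      rw [h3, P.hp_odd.neg_one_pow]
      ring)
    exact_mod_cast h
  have e : P.b ^ P.p - 1 - P.a ^ P.p = P.b ^ P.p - (1 + P.a ^ P.p) := by ring
  rw [e]
  exact dvd_sub hb ha

lemma h21_thirtytwo_dvd : (32 : ℤ) ∣ P.a ^ P.p * P.b ^ P.p := by
  obtain ⟨c, hc⟩ := h21_two_dvd_b P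
  have h1 : (2 : ℤ) ^ 5 ∣ P.b ^ P.p := by
    rw [hc, mul_pow]
    exact dvd_mul_of_dvd_left (pow_dvd_pow 2 P.hp5) _
  have h2 : (32 : ℤ) ∣ P.b ^ P.p := by simpa using h1
  exact dvd_mul_of_dvd_right h2 _

/-- `a₂` of the Frey curve is an integer. -/
lemma h21_a₂ : ∃ n : ℤ, P.freyCurve.a₂ = (n : ℚ) := by
  obtain ⟨n, hn⟩ := h21_four_dvd P
  refine ⟨n, ?_⟩
  have h : ((P.b : ℚ) ^ P.p - 1 - (P.a : ℚ) ^ P.p) = 4 * (n : ℚ) := by exact_mod_cast hn
  simp only [FreyPackage.freyCurve]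
  rw [h]
  ring

/-- `a₄` of the Frey curve is an even integer. -/
lemma h21_a₄ : ∃ m : ℤ, P.freyCurve.a₄ = ((2 * m : ℤ) : ℚ) := by
  obtain ⟨n, hn⟩ := h21_thirtytwo_dvd P
  refine ⟨-n, ?_⟩
  have h : ((P.a : ℚ) ^ P.p * (P.b : ℚ) ^ P.p) = 32 * (n : ℚ) := by exact_mod_cast hn
  simp only [FreyPackage.freyCurve]
  push_cast
  have e : -(P.a : ℚ) ^ P.p * (P.b : ℚ) ^ P.p / 16 =
      -((P.a : ℚ) ^ P.p * (P.b : ℚ) ^ P.p) / 16 := by ring
  rw [e, h]
  ring

lemma h21_a₄_ne_zero : P.freyCurve.a₄ ≠ 0 := by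
  simp only [FreyPackage.freyCurve]
  have ha : (P.a : ℚ) ≠ 0 := by exact_mod_cast P.ha0
  have hb : (P.b : ℚ) ≠ 0 := by exact_mod_cast P.hb0
  have h1 : (P.a : ℚ) ^ P.p ≠ 0 := pow_ne_zero _ ha
  have h2 : (P.b : ℚ) ^ P.p ≠ 0 := pow_ne_zero _ hb
  exact div_ne_zero (mul_ne_zero (neg_ne_zero.mpr h1) h2) (by norm_num)

end Arith

/-! ## The Frey curve over `Kbar` at a valuation subring over `2` -/

section Model

variable (P : FreyPackage) (A : ValuationSubring Kbar)

lemma h21_bc_a₁ : (P.freyCurve⁄Kbar).a₁ = 1 := by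
  simp [WeierstrassCurve.baseChange, FreyPackage.freyCurve]

lemma h21_bc_a₃ : (P.freyCurve⁄Kbar).a₃ = 0 := by
  simp [WeierstrassCurve.baseChange, FreyPackage.freyCurve]

lemma h21_bc_a₆ : (P.freyCurve⁄Kbar).a₆ = 0 := by
  simp [WeierstrassCurve.baseChange, FreyPackage.freyCurve]

lemma h21_bc_a₂ : ∃ n : ℤ, (P.freyCurve⁄Kbar).a₂ = (n : Kbar) := by
  obtain ⟨n, hn⟩ := h21_a₂ P
  refine ⟨n, ?_⟩
  have : (P.freyCurve⁄Kbar).a₂ = algebraMap ℚ Kbar P.freyCurve.a₂ := by
    simp [WeierstrassCurve.baseChange]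
  rw [this, hn]
  simp

lemma h21_bc_a₄ : ∃ m : ℤ, (P.freyCurve⁄Kbar).a₄ = ((2 * m : ℤ) : Kbar) := by
  obtain ⟨m, hm⟩ := h21_a₄ P
  refine ⟨m, ?_⟩
  have : (P.freyCurve⁄Kbar).a₄ = algebraMap ℚ Kbar P.freyCurve.a₄ := by
    simp [WeierstrassCurve.baseChange]
  rw [this, hm]
  simp

lemma h21_bc_a₄_ne_zero : (P.freyCurve⁄Kbar).a₄ ≠ 0 := by
  have : (P.freyCurve⁄Kbar).a₄ = algebraMap ℚ Kbar P.freyCurve.a₄ := by
    simp [WeierstrassCurve.baseChange]
  rw [this]
  exact (map_ne_zero _).mpr (h21_a₄_ne_zero P)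

variable {A}

lemma h21_val_two (hA : A.LiesOverPrime 2) : A.valuation (2 : Kbar) < 1 := by
  have h := (ValuationSubring.mem_nonunits_iff A).1 hA
  simpa using h

lemma h21_val_a₁ : A.valuation (P.freyCurve⁄Kbar).a₁ = 1 := by
  rw [h21_bc_a₁, map_one]

lemma h21_val_a₂ : A.valuation (P.freyCurve⁄Kbar).a₂ ≤ 1 := by
  obtain ⟨n, hn⟩ := h21_bc_a₂ P
  rw [hn]
  exact Fermat.Agent.S05.H7.valuation_intCast_le_one n

lemma h21_val_a₄ (hA : A.LiesOverPrime 2) : A.valuation (P.freyCurve⁄Kbar).a₄ < 1 := by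
  obtain ⟨m, hm⟩ := h21_bc_a₄ P
  rw [hm]
  push_cast
  rw [map_mul]
  exact mul_lt_one_of_lt_of_le (h21_val_two hA) (Fermat.Agent.S05.H7.valuation_intCast_le_one m)

/-- An odd natural number is a unit at `2`. -/
lemma h21_val_odd (hA : A.LiesOverPrime 2) {n : ℕ} (hn : Odd n) :
    A.valuation (n : Kbar) = 1 := by
  have h := Fermat.Agent.S05.H7.valuation_intCast_eq_one (L := Kbar) (A := A) Nat.prime_two hA
    (n := (n : ℤ)) (by
      intro hdvd
      have h2 : (2 : ℕ) ∣ n := by exact_mod_cast hdvd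
      exact (Nat.not_even_iff_odd.mpr hn) (even_iff_two_dvd.mpr h2))
  simpa using h

/-- The Frey curve is a nodal model at every valuation subring over `2`. -/
theorem exists_nodal (hA : A.LiesOverPrime 2) :
    ∃ ρ : Kbar, Nodal A (P.freyCurve⁄Kbar) ρ := by
  obtain ⟨s, hs⟩ : ∃ s : Kbar, s ^ 2 = 1 + 4 * (P.freyCurve⁄Kbar).a₂ :=
    IsAlgClosed.exists_pow_nat_eq _ (by norm_num)
  have h2 : (2 : Kbar) ≠ 0 := two_ne_zero
  set ρ : Kbar := (s - 1) / 2 with hρ
  have hrel : ρ ^ 2 + (P.freyCurve⁄Kbar).a₁ * ρ = (P.freyCurve⁄Kbar).a₂ := by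
    rw [h21_bc_a₁, hρ]
    field_simp
    linear_combination hs
  have hv2 := h21_val_two hA
  have hρle : A.valuation ρ ≤ 1 := by
    by_contra hcon
    push Not at hcon
    have hpos : 0 < A.valuation ρ := lt_trans zero_lt_one hcon
    have h1 : A.valuation ρ < A.valuation (ρ ^ 2) := by
      rw [map_pow, pow_two]
      calc A.valuation ρ = A.valuation ρ * 1 := (mul_one _).symm
        _ < A.valuation ρ * A.valuation ρ := mul_lt_mul_of_pos_left hcon hpos
    have h3 : A.valuation (ρ ^ 2 + (P.freyCurve⁄Kbar).a₁ * ρ) = A.valuation (ρ ^ 2) := by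
      apply Valuation.map_add_eq_of_lt_left
      rw [h21_bc_a₁, one_mul]
      exact h1
    rw [hrel] at h3
    have h4 : A.valuation (ρ ^ 2) ≤ 1 := h3 ▸ h21_val_a₂ P
    exact absurd (lt_trans hcon h1) (not_lt.mpr h4)
  refine ⟨ρ, ?_⟩
  exact
    { a₃ := h21_bc_a₃ P
      a₆ := h21_bc_a₆ P
      a₁ := (h21_val_a₁ P).le
      rho_le := hρle
      rho := hrel
      unit := by
        rw [h21_bc_a₁]
        have h5 : A.valuation (2 * ρ) < 1 := by
          rw [map_mul]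
          exact mul_lt_one_of_lt_of_le hv2 hρle
        rw [Valuation.map_add_eq_of_lt_left A.valuation (by rw [map_one]; exact h5), map_one]
      be := h21_val_a₄ P hA
      be0 := h21_bc_a₄_ne_zero P }

end Model

/-! ## The inertia argument for torsion points, generic form -/

section Galois

variable {R : Type*} {S : Type*} {K : Type*} [CommRing R] [CommRing S] [Field K]
  [DecidableEq K] {W' : Affine R} [Algebra R S] [Algebra R K] [Algebra S K]
  [IsScalarTower R S K]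

open Fermat.Agent.S05.H13 in
/-- The hypotheses of the inertia argument in residue characteristic `2`, for the `p`-torsion
of the base change to `K` of a curve over `R`. -/
theorem inertiaData2_torsion (A : ValuationSubring K) (σ : K ≃ₐ[S] K)
    (h₃ : (W'⁄K).a₃ = 0) (h₆ : (W'⁄K).a₆ = 0)
    (h1 : A.valuation (W'⁄K).a₁ = 1) (h2 : A.valuation (W'⁄K).a₂ ≤ 1)
    (h4 : A.valuation (W'⁄K).a₄ < 1) (hv2 : A.valuation (2 : K) < 1)
    (hσ : ∀ a : K, A.valuation a ≤ 1 → A.valuation (σ a - a) < 1)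
    (hσv : ∀ a : K, A.valuation (σ a) = A.valuation a) {p : ℕ}
    (hG1 : ∀ (x y : K) (h : (W'⁄K).Nonsingular x y),
      p • (Point.some x y h : (W'⁄K).Point) = 0 → A.valuation x ≤ 1)
    (hF : ∀ (x y : K) (h : (W'⁄K).Nonsingular x y),
      p • (Point.some x y h : (W'⁄K).Point) = 0 → A.valuation (W'⁄K).a₄ < A.valuation x) :
    Pairs.InertiaData2 (W'⁄K) A.valuation (σ : K →+* K) (torsionSubgroup W' K p) where
  a₃ := h₃
  a₆ := h₆
  val_a₁ := h1
  val_a₂ := h2
  val_a₄ := h4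
  val_two := hv2
  val_sub := hσ
  val_apply := hσv
  stable := by
    intro x y h hR
    refine ⟨(W'.baseChange_nonsingular σ.toAlgHom.injective ..).mpr h, ?_⟩
    rw [mem_torsionSubgroup] at hR ⊢
    have h1 : σ • (p • (Point.some x y h : (W'⁄K).Point)) = 0 := by rw [hR, smul_zero]
    have h2 : σ • (p • (Point.some x y h : (W'⁄K).Point)) =
        p • (σ • (Point.some x y h : (W'⁄K).Point)) :=
      map_nsmul (Point.map (W' := W') σ.toAlgHom) p (Point.some x y h)
    rw [h2, smul_some] at h1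
    exact h1
  integral := fun x y h hR => hG1 x y h (mem_torsionSubgroup.mp hR)
  notFar := fun x y h hR => hF x y h (mem_torsionSubgroup.mp hR)

open Fermat.Agent.S05.H13 in
/-- **Unipotency of inertia on the `p`-torsion**, generic form. -/
theorem smul_unipotent {A : ValuationSubring K} {σ : K ≃ₐ[S] K} {p : ℕ}
    (D : Pairs.InertiaData2 (W'⁄K) A.valuation (σ : K →+* K) (torsionSubgroup W' K p))
    (Q : (W'⁄K).Point) (hQ : p • Q = 0) : σ • (σ • Q - Q) = σ • Q - Q := by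
  rcases Q with _ | ⟨x₀, y₀, h⟩
  · have e : σ • (0 : (W'⁄K).Point) = 0 := smul_zero σ
    show σ • (σ • (0 : (W'⁄K).Point) - 0) = σ • (0 : (W'⁄K).Point) - 0
    rw [e, sub_zero, e]
  · rw [smul_some]
    have h' : (W'⁄K).Nonsingular (σ x₀) (σ y₀) :=
      (W'.baseChange_nonsingular σ.toAlgHom.injective ..).mpr h
    rcases D.unipotent (mem_torsionSubgroup.mpr hQ) h' with ⟨hfx, hfy⟩ | ⟨x₃, y₃, h₃, hQ', hfx, hfy⟩
    · have hfx' : σ x₀ = x₀ := hfx
      have hfy' : σ y₀ = y₀ := hfy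
      simp only [hfx', hfy', sub_self, smul_zero]
    · have hQ'' : (Point.some (σ x₀) (σ y₀) h' : (W'⁄K).Point) - Point.some x₀ y₀ h =
          Point.some x₃ y₃ h₃ := hQ'
      rw [hQ'', smul_some]
      have hfx' : σ x₃ = x₃ := hfx
      have hfy' : σ y₃ = y₃ := hfy
      simp only [hfx', hfy']

end Galois

/-! ## The deliverable -/

section Deliverable

/-- The kernel statement K2 for the Frey curve at `A`, in the shape needed here. -/
def KernelAt (P : FreyPackage) (A : ValuationSubring Kbar) : Prop :=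
  ∀ (x y : Kbar) (h : (P.freyCurve⁄Kbar).Nonsingular x y),
    P.p • (Point.some x y h : (P.freyCurve⁄Kbar).Point) = 0 → A.valuation x ≤ 1

/-- **(L2a) at one valuation subring**, from the kernel statement. -/
theorem unipotent_of_kernelAt (P : FreyPackage) {A : ValuationSubring Kbar}
    (hA : A.LiesOverPrime 2) (hK : KernelAt P A) {σ : Gam} (hσ : σ ∈ A.inertiaSubgroupIn ℚ)
    (x : V P) : σ • (σ • x - x) = σ • x - x := by
  have : Algebra.IsAlgebraic ℚ Kbar := AlgebraicClosure.isAlgebraic ℚ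
  obtain ⟨ρ, hD⟩ := exists_nodal P hA
  have D := inertiaData2_torsion (W' := P.freyCurve) (S := ℚ) A σ (h21_bc_a₃ P) (h21_bc_a₆ P)
    (h21_val_a₁ P) (h21_val_a₂ P) (h21_val_a₄ P hA) (h21_val_two hA)
    (fun a ha =>
      Fermat.Agent.S05.H7.valuation_apply_sub_lt_one hσ ((A.valuation_le_one_iff _).mp ha))
    (fun a =>
      Fermat.Agent.S05.H7.valuation_apply_eq (Fermat.Agent.S05.H7.mem_decomposition hσ) a)
    (p := P.p) hK (fun x y h hP => not_far_of_odd_nsmul hD P.hp_odd h hP)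
  apply Subtype.ext
  have hx : P.p • (x : (P.freyCurve⁄Kbar).Point) = 0 := by
    have := (Submodule.mem_torsionBy_iff _ _).mp x.2
    rwa [natCast_zsmul] at this
  exact smul_unipotent D (x : (P.freyCurve⁄Kbar).Point) hx

/-- The kernel statement K2 in the shape of findings #126 (`nsmul_ne_zero_of_inKer`),
specialised to `Kbar`. -/
def K2Statement : Prop :=
  ∀ (A : ValuationSubring Kbar) (W : Affine Kbar), W.a₃ = 0 → W.a₆ = 0 →
    A.valuation W.a₁ ≤ 1 → A.valuation W.a₂ ≤ 1 → A.valuation W.a₄ ≤ 1 →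
    ∀ n : ℕ, A.valuation (n : Kbar) = 1 →
    ∀ (x y : Kbar) (h : W.Nonsingular x y), 1 < A.valuation x → n • Point.some x y h ≠ 0

theorem kernelAt_of_K2 (hK2 : K2Statement) (P : FreyPackage) {A : ValuationSubring Kbar}
    (hA : A.LiesOverPrime 2) : KernelAt P A := by
  intro x y h hP
  by_contra hcon
  push Not at hcon
  exact hK2 A (P.freyCurve⁄Kbar) (h21_bc_a₃ P) (h21_bc_a₆ P) (h21_val_a₁ P).le (h21_val_a₂ P)
    (h21_val_a₄ P hA).le P.p (h21_val_odd hA P.hp_odd) x y h hcon hP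

/-- **Deliverable (L2a)** from the kernel statement K2. -/
theorem stL2a_of_K2 (hK2 : K2Statement) (P : FreyPackage) : StL2a P := by
  intro A hA σ hσ x
  exact unipotent_of_kernelAt P hA (kernelAt_of_K2 hK2 P hA) hσ x

end Deliverable

end Fermat.Agent.S13.L2.L2a
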