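import Mathlib
import Fermat.Prelude.Def_FLTPrelim_Ramification
import Fermat.Agent.S05.H7_Inertia

/-!
# S13, package L2 (helper3): valuations of rational numbers at a place over `2`

`A` is a valuation subring of `Kbar = AlgebraicClosure ℚ` over `2`.  An `A`-integral rational
number has odd denominator, is congruent to `0` or `1` modulo the maximal ideal, and if it lies
in the maximal ideal and is nonzero its valuation is a positive power of `v 2`.
-/

set_option autoImplicit false

namespace Fermat.Agent.S13.L2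

local notation "Kb" => AlgebraicClosure ℚ

/-! ## Valuations of rational numbers at a valuation subring over `2` -/

section rat

lemma h3_rat_mul_den (r : ℚ) :
    algebraMap ℚ Kb r * ((r.den : ℤ) : Kb) = ((r.num : ℤ) : Kb) := by
  have h := Rat.mul_den_eq_num r
  have h' := congrArg (algebraMap ℚ Kb) h
  rw [map_mul, map_natCast, map_intCast] at h'
  exact_mod_cast h'

variable {A : ValuationSubring Kb} (hA : A.LiesOverPrime 2)

include hA

/-- A rational number which is integral at `A` has odd denominator. -/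
lemma h3_rat_den_unit (r : ℚ) (hr : A.valuation (algebraMap ℚ Kb r) ≤ 1) :
    A.valuation ((r.den : ℤ) : Kb) = 1 := by
  by_contra hne
  have hlt : A.valuation ((r.den : ℤ) : Kb) < 1 :=
    lt_of_le_of_ne (Fermat.Agent.S05.H7.valuation_intCast_le_one _) hne
  have h2d : (2 : ℤ) ∣ (r.den : ℤ) :=
    (Fermat.Agent.S05.H7.valuation_intCast_lt_one_iff Nat.prime_two hA _).1 hlt
  have h2n : ¬ (2 : ℤ) ∣ r.num := by
    intro h
    have hcop := r.reduced
    have h1 : (2 : ℕ) ∣ r.num.natAbs := Int.natCast_dvd.mp h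
    have h2 : (2 : ℕ) ∣ r.den := by exact_mod_cast h2d
    have := Nat.dvd_gcd h1 h2
    rw [Nat.Coprime] at hcop
    rw [hcop] at this
    omega
  have hn1 : A.valuation ((r.num : ℤ) : Kb) = 1 :=
    Fermat.Agent.S05.H7.valuation_intCast_eq_one Nat.prime_two hA h2n
  have hd0 : ((r.den : ℤ) : Kb) ≠ 0 := by
    have := r.den_pos
    have h : (r.den : ℤ) ≠ 0 := by omega
    exact_mod_cast h
  have e : algebraMap ℚ Kb r * ((r.den : ℤ) : Kb) = ((r.num : ℤ) : Kb) := h3_rat_mul_den r
  have h3 := congrArg A.valuation e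
  rw [map_mul, hn1] at h3
  have h4 : A.valuation (algebraMap ℚ Kb r) * A.valuation ((r.den : ℤ) : Kb) < 1 := by
    calc A.valuation (algebraMap ℚ Kb r) * A.valuation ((r.den : ℤ) : Kb)
        ≤ 1 * A.valuation ((r.den : ℤ) : Kb) := by gcongr
      _ < 1 := by rw [one_mul]; exact hlt
  rw [h3] at h4
  exact lt_irrefl _ h4

/-- The valuation of an `A`-integral rational number is that of its numerator. -/
lemma h3_rat_val_eq_num (r : ℚ) (hr : A.valuation (algebraMap ℚ Kb r) ≤ 1) :
    A.valuation (algebraMap ℚ Kb r) = A.valuation ((r.num : ℤ) : Kb) := by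
  have h3 := congrArg A.valuation (h3_rat_mul_den r)
  rw [map_mul, h3_rat_den_unit hA r hr, mul_one] at h3
  exact h3

/-- An `A`-integral rational number is congruent to `0` or to `1` modulo the maximal ideal. -/
lemma h3_rat_class (r : ℚ) (hr : A.valuation (algebraMap ℚ Kb r) ≤ 1) :
    A.valuation (algebraMap ℚ Kb r) < 1 ∨ A.valuation (algebraMap ℚ Kb r - 1) < 1 := by
  have hd := h3_rat_den_unit hA r hr
  by_cases h2n : (2 : ℤ) ∣ r.num
  · left
    rw [h3_rat_val_eq_num hA r hr]
    exact (Fermat.Agent.S05.H7.valuation_intCast_lt_one_iff Nat.prime_two hA _).2 h2n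
  · right
    have h2d : ¬ (2 : ℤ) ∣ (r.den : ℤ) := by
      intro h
      have := (Fermat.Agent.S05.H7.valuation_intCast_lt_one_iff (L := Kb) (A := A)
        Nat.prime_two hA _).2 h
      rw [hd] at this
      exact lt_irrefl _ this
    have hsub : (2 : ℤ) ∣ r.num - (r.den : ℤ) := by omega
    have hv : A.valuation (((r.num - (r.den : ℤ) : ℤ)) : Kb) < 1 :=
      (Fermat.Agent.S05.H7.valuation_intCast_lt_one_iff Nat.prime_two hA _).2 hsub
    have e : (algebraMap ℚ Kb r - 1) * ((r.den : ℤ) : Kb) = ((r.num - (r.den : ℤ) : ℤ) : Kb) := by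
      rw [sub_mul, h3_rat_mul_den r]
      push_cast
      ring
    have h3 := congrArg A.valuation e
    rw [map_mul, hd, mul_one] at h3
    rw [h3]
    exact hv

/-- An `A`-integral rational unit is congruent to `1` modulo the maximal ideal. -/
lemma h3_rat_class_one (r : ℚ) (hr : A.valuation (algebraMap ℚ Kb r) = 1) :
    A.valuation (algebraMap ℚ Kb r - 1) < 1 := by
  rcases h3_rat_class hA r hr.le with h | h
  · rw [hr] at h; exact absurd h (lt_irrefl _)
  · exact h

/-- The valuation of a nonzero rational number in the maximal ideal is a positive power of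
`v 2`. -/
lemma h3_rat_val_pow (r : ℚ) (hr0 : r ≠ 0) (hr : A.valuation (algebraMap ℚ Kb r) < 1) :
    ∃ j : ℕ, 1 ≤ j ∧ A.valuation (algebraMap ℚ Kb r) = A.valuation (2 : Kb) ^ j := by
  have hn0 : r.num ≠ 0 := Rat.num_ne_zero.mpr hr0
  obtain ⟨k, m, -, -, hk⟩ :=
    Fermat.Agent.S05.H7.valuation_intCast_eq_pow (L := Kb) (A := A) Nat.prime_two hA hn0
  have e := h3_rat_val_eq_num hA r hr.le
  refine ⟨k, ?_, ?_⟩
  · rcases Nat.eq_zero_or_pos k with h0 | h0
    · exfalso
      rw [h0, pow_zero] at hk
      rw [e, hk] at hr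
      exact lt_irrefl _ hr
    · exact h0
  · rw [e, hk]
    simp

end rat

end Fermat.Agent.S13.L2
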