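import Mathlib
import Fermat.Prelude.Def_FLTPrelim_FreyPackage
import Fermat.Prelude.Def_FLTPrelim_GaloisRep
import Fermat.Prelude.Def_FLTPrelim_Ramification
import Fermat.Agent.S05.H7_Inertia
import Fermat.Agent.S54.Frobenius
import Fermat.Agent.S13.L2.H20_Defs
import Fermat.Agent.S13.L2.H3_FreyNodal
import Fermat.Agent.S13.L2.H3_RatVal
import Fermat.Agent.S13.Asm.H11_Interfaces

/-!
# S13, package L2 (helper3): no rational point of order `p` on the Frey curve (core)

`h3_no_fixed_point_of` : the deliverable `Asm.StL2b P` from the three leaf inputs of package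
L2, taken as hypotheses in the shapes of the interface file:

* `[K2]` no `p`-torsion in the kernel of reduction;
* `[U]`  two integral points with the same reduction (not a `2`-torsion point of the reduction)
  differ by a point of the kernel of reduction;
* `[2-C]` a `p`-torsion point `(x, y)` with `v x < 1` has `v a₄ < v x` and
  `(v x) ^ p ∈ ⟨(v a₄) ^ 2⟩`.

Proof: a `Gam`-fixed point `Q ≠ 0` of order `p` has rational coordinates.  By `[K2]` it is
integral; by `[2-C]` and `v a₄ = (v 2) ^ m`, `p ∤ 2 m`, `x` is a unit.  The same holds for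
`2 Q` and `3 Q`.  A rational unit is `≡ 1` and an integral rational number is `≡ 0` or `1`
modulo the maximal ideal, so two of `Q, 2 Q, 3 Q` are congruent; by `[U]` their difference,
a nonzero point of order `p`, lies in the kernel of reduction, contradicting `[K2]`.
-/

set_option autoImplicit false

open WeierstrassCurve WeierstrassCurve.Affine WeierstrassCurve.Affine.Point

namespace Fermat.Agent.S13.L2

local notation "Kb" => AlgebraicClosure ℚ
local notation "Gm" => (AlgebraicClosure ℚ ≃ₐ[ℚ] AlgebraicClosure ℚ)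

/-! ## Rationality of Galois-fixed points -/

section fixed

variable {W' : Affine ℚ}

/-- The coordinates of a `Gam`-fixed affine point are rational. -/
lemma h3_fixed_coords {x y : Kb} (h : (W'⁄Kb).Nonsingular x y)
    (hfix : ∀ σ : Gm, σ • (Point.some x y h : (W'⁄Kb).Point) = Point.some x y h) :
    (∃ rx : ℚ, algebraMap ℚ Kb rx = x) ∧ (∃ ry : ℚ, algebraMap ℚ Kb ry = y) := by
  have : IsGalois ℚ Kb := Fermat.Agent.S54.isGalois_rat
  have hxy : ∀ σ : Gm, σ x = x ∧ σ y = y := by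
    intro σ
    have h1 := hfix σ
    have h2 : σ • (Point.some x y h : (W'⁄Kb).Point) = Point.some (σ x) (σ y)
        ((W'.baseChange_nonsingular σ.toAlgHom.injective ..).mpr h) := rfl
    rw [h2] at h1
    exact Point.some.inj h1
  exact ⟨(InfiniteGalois.mem_range_algebraMap_iff_fixed x).2 (fun σ => (hxy σ).1),
    (InfiniteGalois.mem_range_algebraMap_iff_fixed y).2 (fun σ => (hxy σ).2)⟩

/-- Multiples of fixed points are fixed. -/
lemma h3_fixed_nsmul {Q : (W'⁄Kb).Point} (hfix : ∀ σ : Gm, σ • Q = Q) (n : ℕ) :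
    ∀ σ : Gm, σ • (n • Q) = n • Q := by
  intro σ
  have h : σ • (n • Q) = n • (σ • Q) := map_nsmul (Point.map (W' := W') σ.toAlgHom) n Q
  rw [h, hfix σ]

end fixed

/-! ## Exponent arithmetic -/

/-- The numerical contradiction: `j p = 2 k m` with `1 ≤ j < m` and `p ∤ 2 m`, `p` prime. -/
lemma h3_exponent_absurd {p j m : ℕ} {k : ℤ} (hp : p.Prime) (hpm : ¬ p ∣ 2 * m)
    (hj : 1 ≤ j) (hjm : j < m) (h : (j : ℤ) * p = (m : ℤ) * (2 * k)) : False := by
  have hpZ : Prime (p : ℤ) := Nat.prime_iff_prime_int.mp hp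
  have h1 : (p : ℤ) ∣ ((2 * m : ℕ) : ℤ) * k := by
    refine ⟨j, ?_⟩
    push_cast
    linarith
  rcases hpZ.dvd_or_dvd h1 with h2 | h2
  · exact hpm (by exact_mod_cast h2)
  · obtain ⟨k', rfl⟩ := h2
    have hp0 : (p : ℤ) ≠ 0 := by exact_mod_cast hp.ne_zero
    have h3 : (j : ℤ) = 2 * m * k' := by
      have : (p : ℤ) * j = p * (2 * m * k') := by linarith
      exact mul_left_cancel₀ hp0 this
    have hj' : (1 : ℤ) ≤ j := by exact_mod_cast hj
    have hjm' : (j : ℤ) < m := by exact_mod_cast hjm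
    have hm : (0 : ℤ) < m := by linarith
    have hk' : 1 ≤ k' := by
      by_contra hk
      have hk0 : k' ≤ 0 := by omega
      have : (2 : ℤ) * m * k' ≤ 0 := by
        have : (0 : ℤ) ≤ 2 * m := by linarith
        exact mul_nonpos_of_nonneg_of_nonpos this hk0
      linarith
    have : (2 : ℤ) * m * 1 ≤ 2 * m * k' := by
      apply mul_le_mul_of_nonneg_left hk'
      linarith
    linarith

/-! ## The core argument -/

section core

variable (P : FreyPackage) {A : ValuationSubring Kb}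

/-- The valuation of `p` is `1`. -/
lemma h3_val_p (hA : A.LiesOverPrime 2) : A.valuation ((P.p : ℕ) : Kb) = 1 := by
  have h2 : ¬ ((2 : ℕ) : ℤ) ∣ (P.p : ℤ) := by
    intro h
    have h' : 2 ∣ P.p := by exact_mod_cast h
    have := (Nat.prime_dvd_prime_iff_eq Nat.prime_two P.pp).mp h'
    have := P.hp5
    omega
  have h := Fermat.Agent.S05.H7.valuation_intCast_eq_one (L := Kb) (A := A) Nat.prime_two hA h2
  simpa using h

/-- The ordinate of an integral point is integral. -/
lemma h3_val_y_le {x y : Kb} (h : (P.freyCurve⁄Kb).Equation x y) (hx : A.valuation x ≤ 1) :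
    A.valuation y ≤ 1 := by
  by_contra hcon
  rw [not_le] at hcon
  rw [Affine.equation_iff, FreyTwo.h3_bc_a₁, FreyTwo.h3_bc_a₃, FreyTwo.h3_bc_a₆] at h
  have ha2 := FreyTwo.h3_val_a₂_le P (A := A)
  obtain ⟨m, u, -, -, -, h4⟩ := FreyTwo.h3_bc_a₄_eq P
  have ha4 : A.valuation (P.freyCurve⁄Kb).a₄ ≤ 1 := by
    rw [h4]
    have e : (2 : Kb) ^ m * (u : Kb) = ((2 ^ m * u : ℤ) : Kb) := by push_cast; ring
    rw [e]
    exact Fermat.Agent.S05.H7.valuation_intCast_le_one _
  have e : y ^ 2 = (x ^ 3 + (P.freyCurve⁄Kb).a₂ * x ^ 2 + (P.freyCurve⁄Kb).a₄ * x) - x * y := by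
    linear_combination h
  have hx2 : A.valuation (x ^ 2) ≤ 1 := by rw [map_pow]; exact pow_le_one₀ zero_le hx
  have hx3 : A.valuation (x ^ 3) ≤ 1 := by rw [map_pow]; exact pow_le_one₀ zero_le hx
  have h1 : A.valuation (x ^ 3 + (P.freyCurve⁄Kb).a₂ * x ^ 2 + (P.freyCurve⁄Kb).a₄ * x) ≤ 1 := by
    refine (A.valuation.map_add _ _).trans (max_le ?_ ?_)
    · refine (A.valuation.map_add _ _).trans (max_le hx3 ?_)
      rw [map_mul]; exact mul_le_one₀ ha2 zero_le hx2
    · rw [map_mul]; exact mul_le_one₀ ha4 zero_le hx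
  have h2 : A.valuation (x * y) ≤ A.valuation y := by
    rw [map_mul]
    exact mul_le_of_le_one_left' hx
  have h3 : A.valuation (y ^ 2) ≤ A.valuation y := by
    rw [e]
    exact le_trans (A.valuation.map_sub _ _) (max_le (h1.trans hcon.le) h2)
  have h4 : A.valuation y < A.valuation (y ^ 2) := by
    rw [map_pow, pow_two]
    have hpos : 0 < A.valuation y := lt_trans zero_lt_one hcon
    calc A.valuation y = A.valuation y * 1 := (mul_one _).symm
      _ < A.valuation y * A.valuation y := mul_lt_mul_of_pos_left hcon hpos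
  exact absurd h3 (not_le.mpr h4)

/-- The three leaf inputs of package L2 used by `no_fixed_point`, for the Frey curve and a
valuation subring `A`. -/
structure H3Inputs (P : FreyPackage) (A : ValuationSubring Kb) : Prop where
  /-- `[K2]` -/
  ker : ∀ {x y : Kb} (h : (P.freyCurve⁄Kb).Nonsingular x y), 1 < A.valuation x →
    P.p • Point.some x y h ≠ 0
  /-- `[U]` -/
  congr : ∀ {x y x' y' : Kb} (h : (P.freyCurve⁄Kb).Nonsingular x y)
    (h' : (P.freyCurve⁄Kb).Nonsingular x' y'),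
    A.valuation x ≤ 1 → A.valuation y ≤ 1 →
    A.valuation (2 * y + (P.freyCurve⁄Kb).a₁ * x) = 1 →
    A.valuation (x' - x) < 1 → A.valuation (y' - y) < 1 →
    InKer A (Point.some x' y' h' - Point.some x y h)
  /-- `[2-C]` -/
  node : ∀ {x y : Kb} (h : (P.freyCurve⁄Kb).Nonsingular x y),
    P.p • Point.some x y h = 0 → A.valuation x < 1 →
    x ≠ 0 ∧ A.valuation (P.freyCurve⁄Kb).a₄ < A.valuation x ∧
      ∃ k : ℤ, A.valuation x ^ P.p = A.valuation (P.freyCurve⁄Kb).a₄ ^ (2 * k)

/-- A nonzero `Gam`-fixed point of order `p`. -/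
structure H3RatTors (P : FreyPackage) (Q : (P.freyCurve⁄Kb).Point) : Prop where
  ne : Q ≠ 0
  tors : P.p • Q = 0
  fix : ∀ σ : Gm, σ • Q = Q

variable {P}

/-- The class of a rational torsion point: rational coordinates, `x` a unit, `y` integral. -/
lemma H3RatTors.good (hA : A.LiesOverPrime 2) (I : H3Inputs P A) {Q : (P.freyCurve⁄Kb).Point} (hQ : H3RatTors P Q) :
    ∃ (x y : Kb) (h : (P.freyCurve⁄Kb).Nonsingular x y), Q = Point.some x y h ∧
      A.valuation (x - 1) < 1 ∧ A.valuation x = 1 ∧ A.valuation y ≤ 1 ∧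
      (A.valuation y < 1 ∨ A.valuation (y - 1) < 1) := by
  rcases Q with _ | ⟨x, y, h⟩
  · exact absurd rfl hQ.ne
  obtain ⟨⟨rx, hrx⟩, ⟨ry, hry⟩⟩ := h3_fixed_coords h hQ.fix
  -- integrality
  have hx1 : A.valuation x ≤ 1 := by
    by_contra hcon
    rw [not_le] at hcon
    exact I.ker h hcon hQ.tors
  have hy1 : A.valuation y ≤ 1 := h3_val_y_le P h.1 hx1
  -- `x` is a unit
  have hxu : A.valuation x = 1 := by
    by_contra hne
    have hlt : A.valuation x < 1 := lt_of_le_of_ne hx1 hne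
    obtain ⟨hx0, hlt4, k, hk⟩ := I.node h hQ.tors hlt
    have hrx0 : rx ≠ 0 := by
      rintro rfl
      rw [_root_.map_zero] at hrx
      exact hx0 hrx.symm
    obtain ⟨j, hj, hvj⟩ := h3_rat_val_pow hA rx hrx0 (by rw [hrx]; exact hlt)
    rw [hrx] at hvj
    obtain ⟨m, hm, hpm, hvm⟩ := FreyTwo.h3_val_a₄_eq P hA
    have ht0 : (0 : A.ValueGroup) < A.valuation (2 : Kb) :=
      zero_lt_iff.mpr (FreyTwo.h3_val_two_ne_zero)
    have ht1 : A.valuation (2 : Kb) < 1 := FreyTwo.h3_val_two_lt_one hA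
    have hjm : j < m := by
      rw [hvj, hvm] at hlt4
      exact (pow_lt_pow_iff_right_of_lt_one₀ ht0 ht1).mp hlt4
    rw [hvj, hvm] at hk
    have hk' : A.valuation (2 : Kb) ^ ((j : ℤ) * (P.p : ℤ))
        = A.valuation (2 : Kb) ^ ((m : ℤ) * (2 * k)) := by
      rw [zpow_mul, zpow_mul, zpow_natCast, zpow_natCast, zpow_natCast]
      exact hk
    have hinj := zpow_right_injective₀ ht0 (ne_of_lt ht1) hk'
    exact h3_exponent_absurd P.pp hpm hj hjm hinj
  refine ⟨x, y, h, rfl, ?_, hxu, hy1, ?_⟩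
  · rw [← hrx]
    exact h3_rat_class_one hA rx (by rw [hrx]; exact hxu)
  · rw [← hry]
    exact h3_rat_class hA ry (by rw [hry]; exact hy1)

/-- Nonzero multiples of a rational torsion point are rational torsion points. -/
lemma H3RatTors.nsmul {Q : (P.freyCurve⁄Kb).Point} (hQ : H3RatTors P Q) {j : ℕ} (hj : 0 < j)
    (hjp : j < P.p) : H3RatTors P (j • Q) where
  ne := by
    intro h0
    have h1 : addOrderOf Q ∣ j := addOrderOf_dvd_of_nsmul_eq_zero h0
    have h2 : addOrderOf Q ∣ P.p := addOrderOf_dvd_of_nsmul_eq_zero hQ.tors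
    rcases (Nat.dvd_prime P.pp).mp h2 with h3 | h3
    · exact hQ.ne (AddMonoid.addOrderOf_eq_one_iff.mp h3)
    · rw [h3] at h1
      have := Nat.le_of_dvd hj h1
      omega
  tors := by
    rw [smul_comm, hQ.tors, nsmul_zero]
  fix := h3_fixed_nsmul hQ.fix j

/-- Two congruent integral points with unit abscissa whose difference is a nonzero point of
order `p`: impossible. -/
lemma h3_congr_absurd (hA : A.LiesOverPrime 2) (I : H3Inputs P A) {x y x' y' : Kb}
    (h : (P.freyCurve⁄Kb).Nonsingular x y) (h' : (P.freyCurve⁄Kb).Nonsingular x' y')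
    (hx : A.valuation (x - 1) < 1) (hx' : A.valuation (x' - 1) < 1)
    (hxu : A.valuation x = 1) (hy : A.valuation y ≤ 1)
    (hyy : A.valuation (y' - y) < 1)
    (hne : Point.some x' y' h' - Point.some x y h ≠ 0)
    (htors : P.p • (Point.some x' y' h' - Point.some x y h) = 0) : False := by
  have hxx : A.valuation (x' - x) < 1 := by
    have e : x' - x = (x' - 1) - (x - 1) := by ring
    rw [e]
    exact lt_of_le_of_lt (A.valuation.map_sub _ _) (max_lt hx' hx)
  have hψ : A.valuation (2 * y + (P.freyCurve⁄Kb).a₁ * x) = 1 := by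
    rw [FreyTwo.h3_bc_a₁, one_mul, add_comm]
    have h2y : A.valuation (2 * y) < 1 := by
      rw [map_mul]
      calc A.valuation (2 : Kb) * A.valuation y ≤ A.valuation (2 : Kb) * 1 := by gcongr
        _ < 1 := by rw [mul_one]; exact FreyTwo.h3_val_two_lt_one hA
    rw [← hxu]
    exact Valuation.map_add_eq_of_lt_left _ (by rw [hxu]; exact h2y)
  have hker := I.congr h h' hxu.le hy hψ hxx hyy
  rcases hD : (Point.some x' y' h' - Point.some x y h) with _ | ⟨x'', y'', h''⟩
  · exact hne hD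
  · rw [hD] at hker htors
    exact I.ker h'' hker htors

/-- There is no nonzero `Gam`-fixed point of order `p`. -/
theorem h3_no_rat_tors (hA : A.LiesOverPrime 2) (I : H3Inputs P A)
    {Q : (P.freyCurve⁄Kb).Point} (hQ : H3RatTors P Q) : False := by
  have hp5 := P.hp5
  have hQ1 : H3RatTors P (1 • Q) := hQ.nsmul (by norm_num) (by omega)
  have hQ2 : H3RatTors P (2 • Q) := hQ.nsmul (by norm_num) (by omega)
  have hQ3 : H3RatTors P (3 • Q) := hQ.nsmul (by norm_num) (by omega)
  have d21 : 2 • Q - 1 • Q = 1 • Q := by abel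
  have d31 : 3 • Q - 1 • Q = 2 • Q := by abel
  have d32 : 3 • Q - 2 • Q = 1 • Q := by abel
  obtain ⟨x₁, y₁, n₁, e₁, hx₁, hu₁, hy₁, c₁⟩ := hQ1.good hA I
  obtain ⟨x₂, y₂, n₂, e₂, hx₂, hu₂, hy₂, c₂⟩ := hQ2.good hA I
  obtain ⟨x₃, y₃, n₃, e₃, hx₃, hu₃, hy₃, c₃⟩ := hQ3.good hA I
  rw [e₁, e₂] at d21
  rw [e₁, e₃, e₂] at d31
  rw [e₂, e₃, e₁] at d32
  have ne1 : Point.some x₁ y₁ n₁ ≠ 0 := some_ne_zero _
  have ne2 : Point.some x₂ y₂ n₂ ≠ 0 := some_ne_zero _
  have t1 : P.p • Point.some x₁ y₁ n₁ = 0 := e₁ ▸ hQ1.tors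
  have t2 : P.p • Point.some x₂ y₂ n₂ = 0 := e₂ ▸ hQ2.tors
  have sub0 : ∀ {a b : Kb}, A.valuation a < 1 → A.valuation b < 1 →
      A.valuation (b - a) < 1 := fun ha hb =>
    lt_of_le_of_lt (A.valuation.map_sub _ _) (max_lt hb ha)
  have sub1 : ∀ {a b : Kb}, A.valuation (a - 1) < 1 → A.valuation (b - 1) < 1 →
      A.valuation (b - a) < 1 := fun {a b} ha hb => by
    have e : b - a = (b - 1) - (a - 1) := by ring
    rw [e]
    exact lt_of_le_of_lt (A.valuation.map_sub _ _) (max_lt hb ha)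
  have k21 : A.valuation (y₂ - y₁) < 1 → False := fun hyy =>
    h3_congr_absurd hA I n₁ n₂ hx₁ hx₂ hu₁ hy₁ hyy (by rw [d21]; exact ne1)
      (by rw [d21]; exact t1)
  have k31 : A.valuation (y₃ - y₁) < 1 → False := fun hyy =>
    h3_congr_absurd hA I n₁ n₃ hx₁ hx₃ hu₁ hy₁ hyy (by rw [d31]; exact ne2)
      (by rw [d31]; exact t2)
  have k32 : A.valuation (y₃ - y₂) < 1 → False := fun hyy =>
    h3_congr_absurd hA I n₂ n₃ hx₂ hx₃ hu₂ hy₂ hyy (by rw [d32]; exact ne1)
      (by rw [d32]; exact t1)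
  rcases c₁ with c₁ | c₁ <;> rcases c₂ with c₂ | c₂ <;> rcases c₃ with c₃ | c₃
  · exact k21 (sub0 c₁ c₂)
  · exact k21 (sub0 c₁ c₂)
  · exact k31 (sub0 c₁ c₃)
  · exact k32 (sub1 c₂ c₃)
  · exact k32 (sub0 c₂ c₃)
  · exact k31 (sub1 c₁ c₃)
  · exact k21 (sub1 c₁ c₂)
  · exact k21 (sub1 c₁ c₂)

end core

/-- **Deliverable (L2b) from the leaf inputs**: no nonzero `Gam`-fixed point in `E[p]`. -/
theorem h3_no_fixed_point_of (P : FreyPackage)
    (hI : ∃ A : ValuationSubring Kb, A.LiesOverPrime 2 ∧ H3Inputs P A) : Asm.StL2b P := by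
  intro x hx
  obtain ⟨A, hA, I⟩ := hI
  by_contra hne
  have hQ : H3RatTors P (x : (P.freyCurve⁄Kb).Point) :=
    { ne := fun h => hne (Subtype.ext h)
      tors := by
        have := (Submodule.mem_torsionBy_iff _ _).mp x.2
        rwa [natCast_zsmul] at this
      fix := fun σ => congrArg Subtype.val (hx σ) }
  exact h3_no_rat_tors hA I hQ

/-- Variant: the leaf inputs for every valuation subring over `2`. -/
theorem h3_no_fixed_point_of_forall (P : FreyPackage)
    (hI : ∀ A : ValuationSubring Kb, A.LiesOverPrime 2 → H3Inputs P A) : Asm.StL2b P := by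
  obtain ⟨A, hA⟩ := Fermat.Agent.S54.exists_liesOverPrime 2 Nat.prime_two
  exact h3_no_fixed_point_of P ⟨A, hA, hI A hA⟩

end Fermat.Agent.S13.L2
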